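import Mathlib

/-!
# Graded freeness from a regular sequence (abstract algebra)

`A` is a commutative `ℂ`-algebra (functions), `V` an `A`-module, `R k ⊆ A`, `M k ⊆ V` families of
`ℂ`-subspaces, `e4 ∈ R 4`, `e6 ∈ R 6` generating everything in positive degree and a regular
sequence on `M`.  Then `M` has a homogeneous basis over `R`.
-/

set_option autoImplicit false

namespace Fermat.Agent.Genus

open Finsupp

section linalg

universe v

variable {K : Type*} {V : Type v} [Field K] [AddCommGroup V] [Module K V]

/-- A family of vectors in `M` which is a basis of `M` modulo `D`. -/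
theorem exists_relBasis (D M : Submodule K V) :
    ∃ (J : Type v) (f : J → V), (∀ j, f j ∈ M) ∧
      (∀ c : J →₀ K, Finsupp.linearCombination K f c ∈ D → c = 0) ∧
      (∀ m ∈ M, ∃ c : J →₀ K, m - Finsupp.linearCombination K f c ∈ D) := by
  classical
  -- image of `M` in the quotient `V ⧸ D`
  let Q : Submodule K (V ⧸ D) := M.map D.mkQ
  let b := Module.Basis.ofVectorSpace K Q
  have hb : ∀ j, ∃ m ∈ M, D.mkQ m = (b j : V ⧸ D) := fun j => by
    have := (b j).2
    rw [Submodule.mem_map] at this
    exact this
  choose f hfM hf using hb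
  have key : ∀ c : (Module.Basis.ofVectorSpaceIndex K Q) →₀ K,
      D.mkQ (Finsupp.linearCombination K f c) =
        ((Finsupp.linearCombination K b c : Q) : V ⧸ D) := by
    intro c
    simp only [Finsupp.linearCombination_apply, Finsupp.sum, map_sum, map_smul, hf]
    push_cast
    rfl
  refine ⟨Module.Basis.ofVectorSpaceIndex K Q, f, hfM, ?_, ?_⟩
  · intro c hc
    have h1 : D.mkQ (Finsupp.linearCombination K f c) = 0 := by
      simpa using hc
    rw [key] at h1
    have h2 : Finsupp.linearCombination K b c = 0 := by
      apply Subtype.ext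
      simpa using h1
    exact (linearIndependent_iff.mp b.linearIndependent) c h2
  · intro m hm
    have hmQ : D.mkQ m ∈ Q := Submodule.mem_map_of_mem hm
    refine ⟨b.repr ⟨D.mkQ m, hmQ⟩, ?_⟩
    have : D.mkQ (m - Finsupp.linearCombination K f (b.repr ⟨D.mkQ m, hmQ⟩)) = 0 := by
      rw [map_sub, key, b.linearCombination_repr]
      simp
    exact (Submodule.Quotient.mk_eq_zero D).mp this

end linalg

section graded

universe w

variable {A : Type*} {V : Type w} [CommRing A] [Algebra ℂ A] [AddCommGroup V] [Module A V]
  [Module ℂ V] [IsScalarTower ℂ A V]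

/-- The data and hypotheses for the graded freeness theorem. -/
structure GSetup (R : ℤ → Submodule ℂ A) (M : ℤ → Submodule ℂ V) (e4 e6 : A) : Prop where
  R_neg : ∀ k < 0, ∀ r ∈ R k, r = 0
  R_zero : ∀ r ∈ R 0, ∃ c : ℂ, r = algebraMap ℂ A c
  R_one_mem : (1 : A) ∈ R 0
  R_gen : ∀ k > 0, ∀ r ∈ R k, ∃ a ∈ R (k - 4), ∃ b ∈ R (k - 6), r = e4 * a + e6 * b
  R_mul : ∀ j k, ∀ r ∈ R j, ∀ s ∈ R k, r * s ∈ R (j + k)
  e4_mem : e4 ∈ R 4
  e6_mem : e6 ∈ R 6
  M_neg : ∀ k < 0, ∀ m ∈ M k, m = 0
  M_mul : ∀ j k, ∀ r ∈ R j, ∀ m ∈ M k, r • m ∈ M (j + k)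
  reg : ∀ k, ∀ F ∈ M (k - 4), ∀ G ∈ M (k - 6), e4 • F + e6 • G = 0 →
    ∃ H ∈ M (k - 10), F = e6 • H ∧ G = -(e4 • H)

variable {R : ℤ → Submodule ℂ A} {M : ℤ → Submodule ℂ V} {e4 e6 : A}

/-- A homogeneous basis: a family `f i ∈ M (wt i)` such that every `F ∈ M k` is uniquely
`∑ r i • f i` with `r i ∈ R (k - wt i)`. -/
structure HomBasis (R : ℤ → Submodule ℂ A) (M : ℤ → Submodule ℂ V) (ι : Type*)
    (wt : ι → ℤ) (f : ι → V) : Prop where
  mem : ∀ i, f i ∈ M (wt i)
  gen : ∀ k, ∀ F ∈ M k, ∃ r : ι →₀ A, (∀ i, r i ∈ R (k - wt i)) ∧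
    Finsupp.linearCombination A f r = F
  indep : ∀ k, ∀ r : ι →₀ A, (∀ i, r i ∈ R (k - wt i)) →
    Finsupp.linearCombination A f r = 0 → r = 0

theorem exists_homBasis (S : GSetup R M e4 e6) :
    ∃ (ι : Type w) (wt : ι → ℤ) (f : ι → V), HomBasis R M ι wt f := by
  classical
  -- the decomposable part
  let D : ℤ → Submodule ℂ V := fun k =>
    { carrier := {m | ∃ F ∈ M (k - 4), ∃ G ∈ M (k - 6), m = e4 • F + e6 • G}
      add_mem' := by
        rintro _ _ ⟨F, hF, G, hG, rfl⟩ ⟨F', hF', G', hG', rfl⟩
        exact ⟨F + F', add_mem hF hF', G + G', add_mem hG hG', by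
          simp only [smul_add]; abel⟩
      zero_mem' := ⟨0, zero_mem _, 0, zero_mem _, by simp⟩
      smul_mem' := by
        rintro c _ ⟨F, hF, G, hG, rfl⟩
        refine ⟨c • F, Submodule.smul_mem _ _ hF, c • G, Submodule.smul_mem _ _ hG, ?_⟩
        rw [smul_add, ← algebraMap_smul A c (e4 • F), ← algebraMap_smul A c (e6 • G),
          ← algebraMap_smul A c F, ← algebraMap_smul A c G, smul_comm _ e4, smul_comm _ e6] }
  have hD : ∀ k m, m ∈ D k ↔ ∃ F ∈ M (k - 4), ∃ G ∈ M (k - 6), m = e4 • F + e6 • G :=
    fun k m => Iff.rfl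
  choose J f hfM hindep hgen using fun k => exists_relBasis (D k) (M k)
  let ι := Σ k, J k
  let wt : ι → ℤ := fun i => i.1
  let g : ι → V := fun i => f i.1 i.2
  have hmem : ∀ i, g i ∈ M (wt i) := fun i => hfM i.1 i.2
  -- multiplication lemma in convenient form
  have hmul : ∀ (k : ℤ) (i : ι) (r : A), r ∈ R (k - wt i) → r • g i ∈ M k := by
    intro k i r hr
    have := S.M_mul (k - wt i) (wt i) r hr (g i) (hmem i)
    rwa [sub_add_cancel] at this
  have hcomb : ∀ (k : ℤ) (r : ι →₀ A), (∀ i, r i ∈ R (k - wt i)) →
      Finsupp.linearCombination A g r ∈ M k := by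
    intro k r hr
    rw [Finsupp.linearCombination_apply, Finsupp.sum]
    exact Submodule.sum_mem _ fun i _ => hmul k i _ (hr i)
  have he4R : ∀ (k : ℤ) (a : A), a ∈ R (k - 4) → e4 * a ∈ R k := by
    intro k a ha
    have := S.R_mul 4 (k - 4) e4 S.e4_mem a ha
    rwa [show (4 : ℤ) + (k - 4) = k by ring] at this
  have he6R : ∀ (k : ℤ) (a : A), a ∈ R (k - 6) → e6 * a ∈ R k := by
    intro k a ha
    have := S.R_mul 6 (k - 6) e6 S.e6_mem a ha
    rwa [show (6 : ℤ) + (k - 6) = k by ring] at this
  -- generation
  have hGen : ∀ n : ℕ, ∀ k : ℤ, k < n → ∀ F ∈ M k, ∃ r : ι →₀ A, (∀ i, r i ∈ R (k - wt i)) ∧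
      Finsupp.linearCombination A g r = F := by
    intro n
    induction n with
    | zero =>
      intro k hk F hF
      refine ⟨0, fun i => by simp, ?_⟩
      rw [map_zero, S.M_neg k (by simpa using hk) F hF]
    | succ n ih =>
      intro k hk F hF
      obtain ⟨c, hc⟩ := hgen k F hF
      obtain ⟨F1, hF1, G1, hG1, h1⟩ := (hD _ _).mp hc
      obtain ⟨r1, hr1, hr1'⟩ := ih (k - 4) (by push_cast at hk; omega) F1 hF1
      obtain ⟨r2, hr2, hr2'⟩ := ih (k - 6) (by push_cast at hk; omega) G1 hG1
      -- the constant part
      let r0 : ι →₀ A := (c.mapRange (algebraMap ℂ A) (map_zero _)).mapDomain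
        (fun j => (⟨k, j⟩ : ι))
      have hr0 : ∀ i, r0 i ∈ R (k - wt i) := by
        intro i
        by_cases hi : ∃ j, (⟨k, j⟩ : ι) = i
        · obtain ⟨j, rfl⟩ := hi
          have : r0 ⟨k, j⟩ = algebraMap ℂ A (c j) := by
            simp only [r0]
            rw [Finsupp.mapDomain_apply (by intro a b hab; exact sigma_mk_injective hab)]
            simp
          rw [this, Algebra.algebraMap_eq_smul_one]
          apply Submodule.smul_mem
          have : k - wt ⟨k, j⟩ = 0 := by simp [wt]
          rw [this]
          exact S.R_one_mem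
        · have : r0 i = 0 := by
            simp only [r0]
            apply Finsupp.mapDomain_of_notMem_range
            rintro ⟨j, hj⟩
            exact hi ⟨j, hj⟩
          rw [this]
          exact zero_mem _
      have hr0' : Finsupp.linearCombination A g r0 = Finsupp.linearCombination ℂ (f k) c := by
        simp only [r0]
        rw [Finsupp.linearCombination_mapDomain, Finsupp.linearCombination_apply,
          Finsupp.linearCombination_apply, Finsupp.sum_mapRange_index (by simp)]
        refine Finsupp.sum_congr fun j _ => ?_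
        rw [algebraMap_smul]
        rfl
      refine ⟨r0 + e4 • r1 + e6 • r2, ?_, ?_⟩
      · intro i
        simp only [Finsupp.add_apply, Finsupp.smul_apply, smul_eq_mul]
        refine add_mem (add_mem (hr0 i) ?_) ?_
        · exact he4R _ _ (by
            have := hr1 i
            rwa [show k - 4 - wt i = k - wt i - 4 by ring] at this)
        · exact he6R _ _ (by
            have := hr2 i
            rwa [show k - 6 - wt i = k - wt i - 6 by ring] at this)
      · rw [map_add, map_add, map_smul, map_smul, hr1', hr2', hr0', add_assoc, ← h1]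
        abel
  have hGen' : ∀ k : ℤ, ∀ F ∈ M k, ∃ r : ι →₀ A, (∀ i, r i ∈ R (k - wt i)) ∧
      Finsupp.linearCombination A g r = F := fun k F hF =>
    hGen (k.toNat + 1) k (by push_cast; have := Int.self_le_toNat k; omega) F hF
  -- nonnegativity of the weights
  have hwt : ∀ i : ι, 0 ≤ wt i := by
    intro i
    by_contra hneg
    push Not at hneg
    have h0 : f i.1 i.2 = 0 := S.M_neg _ hneg _ (hmem i)
    have := hindep i.1 (Finsupp.single i.2 1) (by
      simp only [Finsupp.linearCombination_single, one_smul, h0]
      exact zero_mem _)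
    simp at this
  -- independence
  have hInd : ∀ n : ℕ, ∀ k : ℤ, k < n → ∀ r : ι →₀ A, (∀ i, r i ∈ R (k - wt i)) →
      Finsupp.linearCombination A g r = 0 → r = 0 := by
    intro n
    induction n with
    | zero =>
      intro k hk r hr _
      ext i
      have := hwt i
      exact S.R_neg _ (by simp at hk; omega) _ (hr i)
    | succ n ih =>
      intro k hk r hr hsum
      -- decompose every coefficient
      have hdec : ∀ i, ∃ a ∈ R (k - wt i - 4), ∃ b ∈ R (k - wt i - 6), ∃ c : ℂ,
          r i = e4 * a + e6 * b + algebraMap ℂ A c ∧ (wt i ≠ k → c = 0) ∧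
          (r i = 0 → a = 0 ∧ b = 0 ∧ c = 0) := by
        intro i
        by_cases h0 : r i = 0
        · exact ⟨0, zero_mem _, 0, zero_mem _, 0, by simp [h0]⟩
        rcases lt_trichotomy (k - wt i) 0 with h | h | h
        · exact absurd (S.R_neg _ h _ (hr i)) h0
        · have hri := hr i
          rw [h] at hri
          obtain ⟨c, hc⟩ := S.R_zero _ hri
          exact ⟨0, zero_mem _, 0, zero_mem _, c, by simp [hc], fun h' => absurd (by omega) h',
            fun h' => absurd h' h0⟩
        · obtain ⟨a, ha, b, hb, hab⟩ := S.R_gen _ h _ (hr i)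
          exact ⟨a, ha, b, hb, 0, by simp [hab], fun _ => rfl, fun h' => absurd h' h0⟩
      choose a ha b hb c hdec1 hdec2 hdec3 using hdec
      let a' : ι →₀ A := Finsupp.onFinset r.support a (fun i hi => by
        rw [Finsupp.mem_support_iff]
        exact fun h => hi (hdec3 i h).1)
      let b' : ι →₀ A := Finsupp.onFinset r.support b (fun i hi => by
        rw [Finsupp.mem_support_iff]
        exact fun h => hi (hdec3 i h).2.1)
      let c' : ι →₀ A := Finsupp.onFinset r.support (fun i => algebraMap ℂ A (c i)) (fun i hi => by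
        rw [Finsupp.mem_support_iff]
        exact fun h => hi (by simp [(hdec3 i h).2.2]))
      have hr' : r = e4 • a' + e6 • b' + c' := by
        ext i
        simp only [Finsupp.add_apply, Finsupp.smul_apply, smul_eq_mul, a', b', c',
          Finsupp.onFinset_apply]
        exact hdec1 i
      have ha' : ∀ i, a' i ∈ R (k - 4 - wt i) := fun i => by
        have := ha i
        rwa [show k - wt i - 4 = k - 4 - wt i by ring] at this
      have hb' : ∀ i, b' i ∈ R (k - 6 - wt i) := fun i => by
        have := hb i
        rwa [show k - wt i - 6 = k - 6 - wt i by ring] at this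
      -- the constant part comes from `J k`
      let ck : J k →₀ ℂ := Finsupp.onFinset
        ((r.support.preimage (fun j => (⟨k, j⟩ : ι)) (by
          intro x _ y _ hxy; exact sigma_mk_injective hxy)))
        (fun j => c ⟨k, j⟩) (fun j hj => by
          rw [Finset.mem_preimage, Finsupp.mem_support_iff]
          exact fun h => hj (hdec3 _ h).2.2)
      have hc' : c' = (ck.mapRange (algebraMap ℂ A) (map_zero _)).mapDomain
          (fun j => (⟨k, j⟩ : ι)) := by
        ext i
        by_cases hi : ∃ j, (⟨k, j⟩ : ι) = i
        · obtain ⟨j, rfl⟩ := hi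
          rw [Finsupp.mapDomain_apply (by intro a b hab; exact sigma_mk_injective hab)]
          simp [c', ck]
        · have h1 : ((ck.mapRange (algebraMap ℂ A) (map_zero _)).mapDomain
              (fun j => (⟨k, j⟩ : ι))) i = 0 := by
            apply Finsupp.mapDomain_of_notMem_range
            rintro ⟨j, hj⟩
            exact hi ⟨j, hj⟩
          rw [h1]
          have : wt i ≠ k := by
            rintro rfl
            exact hi ⟨i.2, rfl⟩
          simp [c', hdec2 i this]
      have hc'' : Finsupp.linearCombination A g c' = Finsupp.linearCombination ℂ (f k) ck := by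
        rw [hc', Finsupp.linearCombination_mapDomain, Finsupp.linearCombination_apply,
          Finsupp.linearCombination_apply, Finsupp.sum_mapRange_index (by simp)]
        refine Finsupp.sum_congr fun j _ => ?_
        rw [algebraMap_smul]
        rfl
      have hsum2 : e4 • Finsupp.linearCombination A g a' + e6 • Finsupp.linearCombination A g b' +
          Finsupp.linearCombination ℂ (f k) ck = 0 := by
        rw [← hc'', ← map_smul, ← map_smul, ← map_add, ← map_add, ← hr', hsum]
      have hFa := hcomb (k - 4) a' ha'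
      have hGb := hcomb (k - 6) b' hb'
      have hck : ck = 0 := by
        apply hindep k ck
        rw [hD]
        refine ⟨-Finsupp.linearCombination A g a', neg_mem hFa,
          -Finsupp.linearCombination A g b', neg_mem hGb, ?_⟩
        rw [smul_neg, smul_neg, eq_comm, ← sub_eq_zero]
        rw [← neg_eq_zero, ← hsum2]
        abel
      have hsum3 : e4 • Finsupp.linearCombination A g a' +
          e6 • Finsupp.linearCombination A g b' = 0 := by
        rw [hck, map_zero, add_zero] at hsum2
        exact hsum2
      obtain ⟨H, hH, hH1, hH2⟩ := S.reg k _ hFa _ hGb hsum3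
      obtain ⟨h, hh, hh'⟩ := hGen' (k - 10) H hH
      have e1 : a' = e6 • h := by
        have : a' - e6 • h = 0 := by
          apply ih (k - 4) (by push_cast at hk; omega)
          · intro i
            simp only [Finsupp.sub_apply, Finsupp.smul_apply, smul_eq_mul]
            refine sub_mem (ha' i) (he6R _ _ ?_)
            have := hh i
            rwa [show k - 10 - wt i = k - 4 - wt i - 6 by ring] at this
          · rw [map_sub, map_smul, hh', hH1, sub_self]
        exact sub_eq_zero.mp this
      have e2 : b' = -(e4 • h) := by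
        have : b' + e4 • h = 0 := by
          apply ih (k - 6) (by push_cast at hk; omega)
          · intro i
            simp only [Finsupp.add_apply, Finsupp.smul_apply, smul_eq_mul]
            refine add_mem (hb' i) (he4R _ _ ?_)
            have := hh i
            rwa [show k - 10 - wt i = k - 6 - wt i - 4 by ring] at this
          · rw [map_add, map_smul, hh', hH2, neg_add_cancel]
        exact eq_neg_of_add_eq_zero_left this
      have e3 : c' = 0 := by
        rw [hc', hck]
        simp
      rw [hr', e1, e2, e3, add_zero, smul_neg, smul_comm, add_neg_cancel]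
  refine ⟨ι, wt, g, hmem, hGen', fun k r hr h => ?_⟩
  exact hInd (k.toNat + 1) k (by push_cast; have := Int.self_le_toNat k; omega) r hr h

end graded

end Fermat.Agent.Genus
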