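import Mathlib
import Fermat.Agent.Genus.Alg

/-!
# Level one forms and vector valued forms for permutation representations
-/

set_option autoImplicit false

open UpperHalfPlane ModularForm MatrixGroups Complex Filter EisensteinSeries
open scoped Manifold Topology

noncomputable section

namespace Fermat.Agent.Genus

/-- Level one modular forms of weight `k` as functions on `ℍ`. -/
def LF (k : ℤ) : Submodule ℂ (ℍ → ℂ) where
  carrier := {f | MDiff f ∧ (∀ g : SL(2, ℤ), f ∣[k] g = f) ∧ IsBoundedAtImInfty f}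
  add_mem' := by
    rintro f g ⟨h1, h2, h3⟩ ⟨h1', h2', h3'⟩
    refine ⟨h1.add h1', fun γ => ?_, h3.add h3'⟩
    rw [SlashAction.add_slash, h2, h2']
  zero_mem' := ⟨mdifferentiable_const, fun γ => SlashAction.zero_slash _ _,
    zero_form_isBoundedAtImInfty⟩
  smul_mem' := by
    rintro c f ⟨h1, h2, h3⟩
    refine ⟨h1.const_smul c, fun γ => ?_, ?_⟩
    · rw [ModularForm.SL_smul_slash, h2]
    · exact (boundedAtImInftySubalgebra ℂ).smul_mem h3 c

/-- Bundle a level one function. -/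
def LF.toMF {k : ℤ} {f : ℍ → ℂ} (hf : f ∈ LF k) : ModularForm 𝒮ℒ k where
  toFun := f
  slash_action_eq' := fun _ ⟨γ, hγ⟩ ↦ hγ ▸ hf.2.1 γ
  holo' := hf.1
  bdd_at_cusps' {c} hc := by
    rw [Subgroup.IsArithmetic.isCusp_iff_isCusp_SL2Z] at hc
    rw [OnePoint.isBoundedAt_iff_forall_SL2Z hc]
    intro γ _
    rw [hf.2.1 γ]
    exact hf.2.2

@[simp] theorem LF.toMF_coe {k : ℤ} {f : ℍ → ℂ} (hf : f ∈ LF k) : ⇑(LF.toMF hf) = f := rfl

theorem coe_mem_LF {k : ℤ} (f : ModularForm 𝒮ℒ k) : ⇑f ∈ LF k := by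
  refine ⟨f.holo', fun γ => ?_, ModularFormClass.bdd_at_infty f⟩
  exact f.slash_action_eq' γ ⟨γ, rfl⟩

/-- `LF k` is the space of level one modular forms. -/
def LFequiv (k : ℤ) : LF k ≃ₗ[ℂ] ModularForm 𝒮ℒ k where
  toFun f := LF.toMF f.2
  invFun f := ⟨f, coe_mem_LF f⟩
  map_add' _ _ := rfl
  map_smul' _ _ := rfl
  left_inv _ := rfl
  right_inv _ := rfl

theorem LF_neg (k : ℤ) (hk : k < 0) (f : ℍ → ℂ) (hf : f ∈ LF k) : f = 0 :=
  ModularFormClass.levelOne_neg_weight_eq_zero hk (LF.toMF hf)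

theorem LF_zero (f : ℍ → ℂ) (hf : f ∈ LF 0) : ∃ c : ℂ, f = Function.const ℍ c :=
  ModularFormClass.levelOne_weight_zero_const (LF.toMF hf)

theorem LF_two (f : ℍ → ℂ) (hf : f ∈ LF 2) : f = 0 := by
  have h := rank_zero_iff_forall_zero.mp levelOne_weight_two_rank_zero (LF.toMF hf)
  have h2 := congrArg (fun F : ModularForm 𝒮ℒ 2 => (F : ℍ → ℂ)) h
  simpa using h2

theorem LF_odd (k : ℤ) (hk : Odd k) (f : ℍ → ℂ) (hf : f ∈ LF k) : f = 0 := by
  have h := ModularForm.levelOne_odd_weight_eq_zero hk (LF.toMF hf)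
  have h2 := congrArg (fun F : ModularForm 𝒮ℒ k => (F : ℍ → ℂ)) h
  simpa using h2

theorem one_mem_LF : (1 : ℍ → ℂ) ∈ LF 0 :=
  ⟨mdifferentiable_const, fun γ => ModularForm.is_invariant_one γ,
    (boundedAtImInftySubalgebra ℂ).one_mem⟩

theorem LF_mul (j k : ℤ) (f : ℍ → ℂ) (hf : f ∈ LF j) (g : ℍ → ℂ) (hg : g ∈ LF k) :
    f * g ∈ LF (j + k) := by
  refine ⟨hf.1.mul hg.1, fun γ => ?_, hf.2.2.mul hg.2.2⟩
  rw [ModularForm.mul_slash_SL2, hf.2.1, hg.2.1]

theorem LF_pow (k : ℤ) (f : ℍ → ℂ) (hf : f ∈ LF k) (n : ℕ) : f ^ n ∈ LF (n * k) := by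
  induction n with
  | zero => simpa using one_mem_LF
  | succ n ih =>
    rw [pow_succ]
    have := LF_mul _ _ _ ih _ hf
    rwa [show (n : ℤ) * k + k = ((n + 1 : ℕ) : ℤ) * k by push_cast; ring] at this

/-- The functions `E₄`, `E₆`. -/
def e4 : ℍ → ℂ := ⇑E₄
def e6 : ℍ → ℂ := ⇑E₆
/-- The discriminant. -/
def dl : ℍ → ℂ := ModularForm.discriminant

theorem e4_mem : e4 ∈ LF 4 := coe_mem_LF E₄
theorem e6_mem : e6 ∈ LF 6 := coe_mem_LF E₆
theorem dl_mem : dl ∈ LF 12 := coe_mem_LF (CuspForm.toModularFormₗ CuspForm.discriminant)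

theorem dl_ne_zero (z : ℍ) : dl z ≠ 0 := ModularForm.discriminant_ne_zero z

theorem dl_eq (z : ℍ) : 1728 * dl z = e4 z ^ 3 - e6 z ^ 2 := by
  rw [dl, discriminant_eq_E₄_cube_sub_E₆_sq]
  simp only [e4, e6]
  ring

/-- a level one form tends to its value at infinity -/
theorem LF_tendsto (k : ℤ) (f : ℍ → ℂ) (hf : f ∈ LF k) :
    Tendsto f atImInfty (𝓝 (valueAtInfty f)) := by
  have ha := ModularFormClass.analyticAt_cuspFunction_zero (LF.toMF hf) one_pos
      one_mem_strictPeriods_SL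
  have hp := SlashInvariantFormClass.periodic_comp_ofComplex (LF.toMF hf)
    one_mem_strictPeriods_SL
  rw [LF.toMF_coe] at ha hp
  rw [← cuspFunction_apply_zero one_pos ha hp]
  have h3 : (cuspFunction 1 f ∘ fun τ : ℍ ↦ Function.Periodic.qParam 1 τ) = f := by
    funext τ
    simpa using eq_cuspFunction τ one_ne_zero hp
  have := ha.continuousAt.tendsto.comp (qParam_tendsto_atImInfty one_pos)
  rwa [h3] at this

theorem LF_coeff_zero (k : ℤ) (f : ℍ → ℂ) (hf : f ∈ LF k) :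
    (qExpansion 1 f).coeff 0 = valueAtInfty f := by
  have ha := ModularFormClass.analyticAt_cuspFunction_zero (LF.toMF hf) one_pos
      one_mem_strictPeriods_SL
  have hp := SlashInvariantFormClass.periodic_comp_ofComplex (LF.toMF hf)
    one_mem_strictPeriods_SL
  exact qExpansion_coeff_zero one_pos ha hp

theorem e4_tendsto : Tendsto e4 atImInfty (𝓝 1) := by
  have h := LF_tendsto 4 e4 e4_mem
  rw [← LF_coeff_zero 4 e4 e4_mem] at h
  have h1 : (qExpansion 1 e4).coeff 0 = 1 := E_qExpansion_coeff_zero _ ⟨2, rfl⟩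
  rwa [h1] at h

theorem e6_tendsto : Tendsto e6 atImInfty (𝓝 1) := by
  have h := LF_tendsto 6 e6 e6_mem
  rw [← LF_coeff_zero 6 e6 e6_mem] at h
  have h1 : (qExpansion 1 e6).coeff 0 = 1 := E_qExpansion_coeff_zero _ ⟨3, rfl⟩
  rwa [h1] at h

theorem dl_tendsto : Tendsto dl atImInfty (𝓝 0) :=
  ModularForm.discriminant_isZeroAtImInfty

/-- A level one form vanishing at infinity is divisible by `Δ`. -/
theorem LF_cusp (k : ℤ) (f : ℍ → ℂ) (hf : f ∈ LF k) (h0 : IsZeroAtImInfty f) :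
    ∃ g ∈ LF (k - 12), f = dl * g := by
  have h1 : (qExpansion 1 f).coeff 0 = 0 := by
    rw [LF_coeff_zero k f hf]
    exact h0.valueAtInfty_eq_zero
  let F : CuspForm 𝒮ℒ k := toCuspForm (LF.toMF hf) h1
  refine ⟨_, coe_mem_LF (CuspForm.discriminantEquiv F), ?_⟩
  exact (discriminant_mul_discriminantEquiv F).symm

/-- for every even `k ≥ 4` there is a monomial in `E₄`, `E₆` of weight `k`, tending to `1`. -/
theorem exists_mono (k : ℤ) (hk : 4 ≤ k) (he : Even k) :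
    ∃ m ∈ LF k, Tendsto m atImInfty (𝓝 1) ∧
      ((∃ a ∈ LF (k - 4), m = e4 * a) ∨ (∃ a ∈ LF (k - 6), m = e6 * a)) := by
  obtain ⟨a, b, hab⟩ : ∃ a b : ℕ, k = 4 * a + 6 * b := by
    obtain ⟨n, rfl⟩ := he
    rcases Int.even_or_odd n with ⟨m, rfl⟩ | ⟨m, rfl⟩
    · exact ⟨m.toNat, 0, by push_cast; omega⟩
    · exact ⟨(m - 1).toNat, 1, by push_cast; omega⟩
  have key : ∀ a b : ℕ, e4 ^ a * e6 ^ b ∈ LF (4 * a + 6 * b) := by
    intro a b
    have := LF_mul _ _ _ (LF_pow 4 e4 e4_mem a) _ (LF_pow 6 e6 e6_mem b)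
    rwa [mul_comm (a : ℤ) 4, mul_comm (b : ℤ) 6] at this
  refine ⟨e4 ^ a * e6 ^ b, hab ▸ key a b, ?_, ?_⟩
  · have := (e4_tendsto.pow a).mul (e6_tendsto.pow b)
    rw [one_pow, one_pow, one_mul] at this
    exact this
  · rcases Nat.eq_zero_or_pos a with rfl | ha
    · obtain ⟨b, rfl⟩ : ∃ c, b = c + 1 := ⟨b - 1, by omega⟩
      refine Or.inr ⟨e4 ^ 0 * e6 ^ b, ?_, by ring⟩
      have := key 0 b
      rwa [show (4 * ((0 : ℕ) : ℤ) + 6 * (b : ℤ)) = k - 6 by rw [hab]; push_cast; ring] at this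
    · obtain ⟨a, rfl⟩ : ∃ c, a = c + 1 := ⟨a - 1, by omega⟩
      refine Or.inl ⟨e4 ^ a * e6 ^ b, ?_, by ring⟩
      have := key a b
      rwa [show (4 * (a : ℤ) + 6 * (b : ℤ)) = k - 4 by rw [hab]; push_cast; ring] at this

/-- In positive weight every level one form is `E₄ a + E₆ b`. -/
theorem LF_gen (k : ℤ) (hk : 0 < k) (f : ℍ → ℂ) (hf : f ∈ LF k) :
    ∃ a ∈ LF (k - 4), ∃ b ∈ LF (k - 6), f = e4 * a + e6 * b := by
  rcases Int.even_or_odd k with he | ho
  swap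
  · exact ⟨0, zero_mem _, 0, zero_mem _, by simp [LF_odd k ho f hf]⟩
  by_cases h2 : k = 2
  · subst h2
    exact ⟨0, zero_mem _, 0, zero_mem _, by simp [LF_two f hf]⟩
  have hk4 : 4 ≤ k := by
    obtain ⟨n, rfl⟩ := he
    omega
  obtain ⟨m, hm, hm1, hm2⟩ := exists_mono k hk4 he
  let c : ℂ := valueAtInfty f
  have h0 : IsZeroAtImInfty (f - c • m) := by
    have h1 := (LF_tendsto k f hf).sub (hm1.const_smul c)
    simp only [smul_eq_mul, mul_one] at h1
    have : Tendsto (f - c • m) atImInfty (𝓝 (valueAtInfty f - c)) := h1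
    rwa [show valueAtInfty f - c = 0 from sub_self _] at this
  obtain ⟨g, hg, hfg⟩ := LF_cusp k _ (sub_mem hf ((LF k).smul_mem c hm)) h0
  have hdl : dl * g = e4 * (e4 ^ 2 * ((1 / 1728 : ℂ) • g)) + e6 * (-(e6 * ((1 / 1728 : ℂ) • g))) := by
    funext z
    simp only [Pi.mul_apply, Pi.add_apply, Pi.neg_apply, Pi.pow_apply, Pi.smul_apply, smul_eq_mul]
    have := dl_eq z
    linear_combination (g z / 1728) * this
  have ha1 : e4 ^ 2 * ((1 / 1728 : ℂ) • g) ∈ LF (k - 4) := by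
    have := LF_mul _ _ _ (LF_pow 4 e4 e4_mem 2) _ ((LF (k - 12)).smul_mem (1 / 1728 : ℂ) hg)
    rwa [show ((2 : ℕ) : ℤ) * 4 + (k - 12) = k - 4 by push_cast; ring] at this
  have hb1 : -(e6 * ((1 / 1728 : ℂ) • g)) ∈ LF (k - 6) := by
    have := LF_mul _ _ _ e6_mem _ ((LF (k - 12)).smul_mem (1 / 1728 : ℂ) hg)
    rw [show (6 : ℤ) + (k - 12) = k - 6 by ring] at this
    exact neg_mem this
  rcases hm2 with ⟨a, ha, rfl⟩ | ⟨a, ha, rfl⟩
  · refine ⟨_, add_mem ha1 ((LF _).smul_mem c ha), _, hb1, ?_⟩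
    rw [sub_eq_iff_eq_add.mp hfg, hdl]
    simp only [mul_add, mul_smul_comm]
    ring
  · refine ⟨_, ha1, _, add_mem hb1 ((LF _).smul_mem c ha), ?_⟩
    rw [sub_eq_iff_eq_add.mp hfg, hdl]
    simp only [mul_add, mul_smul_comm]
    ring

/-! ### Vector valued forms -/

section vec

variable (X : Type) [MulAction SL(2, ℤ) X]

/-- Vector valued modular forms of weight `k` for the permutation representation on `X`. -/
def MF (k : ℤ) : Submodule ℂ (X → ℍ → ℂ) where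
  carrier := {F | (∀ x, MDiff (F x)) ∧ (∀ (x : X) (g : SL(2, ℤ)), F x ∣[k] g = F (g⁻¹ • x)) ∧
    ∀ x, IsBoundedAtImInfty (F x)}
  add_mem' := by
    rintro F G ⟨h1, h2, h3⟩ ⟨h1', h2', h3'⟩
    refine ⟨fun x => (h1 x).add (h1' x), fun x g => ?_, fun x => (h3 x).add (h3' x)⟩
    rw [Pi.add_apply, SlashAction.add_slash, h2, h2', Pi.add_apply]
  zero_mem' := ⟨fun x => mdifferentiable_const, fun x g => SlashAction.zero_slash _ _,
    fun x => zero_form_isBoundedAtImInfty⟩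
  smul_mem' := by
    rintro c F ⟨h1, h2, h3⟩
    refine ⟨fun x => (h1 x).const_smul c, fun x g => ?_, fun x => ?_⟩
    · rw [Pi.smul_apply, ModularForm.SL_smul_slash, h2, Pi.smul_apply]
    · exact (boundedAtImInftySubalgebra ℂ).smul_mem (h3 x) c

/-- Vector valued cusp forms of weight `k` for the permutation representation on `X`. -/
def CF (k : ℤ) : Submodule ℂ (X → ℍ → ℂ) where
  carrier := {F | (∀ x, MDiff (F x)) ∧ (∀ (x : X) (g : SL(2, ℤ)), F x ∣[k] g = F (g⁻¹ • x)) ∧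
    ∀ x, IsZeroAtImInfty (F x)}
  add_mem' := by
    rintro F G ⟨h1, h2, h3⟩ ⟨h1', h2', h3'⟩
    refine ⟨fun x => (h1 x).add (h1' x), fun x g => ?_, fun x => ?_⟩
    · rw [Pi.add_apply, SlashAction.add_slash, h2, h2', Pi.add_apply]
    · exact (zeroAtImInftySubmodule ℂ).add_mem (h3 x) (h3' x)
  zero_mem' := ⟨fun x => mdifferentiable_const, fun x g => SlashAction.zero_slash _ _,
    fun x => (zeroAtImInftySubmodule ℂ).zero_mem⟩
  smul_mem' := by
    rintro c F ⟨h1, h2, h3⟩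
    refine ⟨fun x => (h1 x).const_smul c, fun x g => ?_, fun x => ?_⟩
    · rw [Pi.smul_apply, ModularForm.SL_smul_slash, h2, Pi.smul_apply]
    · exact (zeroAtImInftySubmodule ℂ).smul_mem c (h3 x)

variable {X}

theorem CF_le_MF (k : ℤ) : CF X k ≤ MF X k := fun _ hF =>
  ⟨hF.1, hF.2.1, fun x => (hF.2.2 x).isBoundedAtImInfty⟩

theorem mem_CF_iff (k : ℤ) (F : X → ℍ → ℂ) :
    F ∈ CF X k ↔ F ∈ MF X k ∧ ∀ x, IsZeroAtImInfty (F x) :=
  ⟨fun h => ⟨CF_le_MF k h, h.2.2⟩, fun h => ⟨h.1.1, h.1.2.1, h.2⟩⟩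

theorem MF_smul (j k : ℤ) (r : ℍ → ℂ) (hr : r ∈ LF j) (F : X → ℍ → ℂ) (hF : F ∈ MF X k) :
    r • F ∈ MF X (j + k) := by
  refine ⟨fun x => hr.1.mul (hF.1 x), fun x g => ?_, fun x => hr.2.2.mul (hF.2.2 x)⟩
  rw [Pi.smul_apply, smul_eq_mul, ModularForm.mul_slash_SL2, hr.2.1, hF.2.1]
  rfl

/-- Division by the discriminant. -/
theorem MF_div' (k : ℤ) (F : X → ℍ → ℂ) (hF : F ∈ MF X k)
    (hO : ∀ x, IsBoundedAtImInfty (F x / dl)) :
    (fun x => F x / dl) ∈ MF X (k - 12) := by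
  refine ⟨fun x => ?_, fun x g => ?_, hO⟩
  · exact (hF.1 x).div dl_mem.1 dl_ne_zero
  · rw [ModularForm.div_slash_SL2, hF.2.1, dl_mem.2.1]

/-- Division by the discriminant. -/
theorem MF_div (k : ℤ) (F : X → ℍ → ℂ) (hF : F ∈ MF X k)
    (hO : ∀ x, F x =O[atImInfty] fun z => Real.exp (-2 * Real.pi * z.im)) :
    ∃ G ∈ MF X (k - 12), F = dl • G := by
  refine ⟨fun x => F x / dl, MF_div' k F hF fun x => ?_, ?_⟩
  · rw [IsBoundedAtImInfty, BoundedAtFilter]
    exact (Asymptotics.div_isBoundedUnder_of_isBigO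
      ((hO x).trans exp_isBigO_discriminant)).isBigO_one ℝ
  · funext x z
    simp only [Pi.smul_apply, smul_eq_mul, Pi.mul_apply, Pi.div_apply]
    rw [mul_div_cancel₀ _ (dl_ne_zero z)]

/-- Regularity of `E₄, E₆` on vector valued forms. -/
theorem MF_reg (k : ℤ) (F : X → ℍ → ℂ) (hF : F ∈ MF X (k - 4)) (G : X → ℍ → ℂ)
    (hG : G ∈ MF X (k - 6)) (h : e4 • F + e6 • G = 0) :
    ∃ H ∈ MF X (k - 10), F = e6 • H ∧ G = -(e4 • H) := by
  have h' : ∀ x z, e4 z * F x z + e6 z * G x z = 0 := fun x z => by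
    have := congrFun (congrFun h x) z
    simpa using this
  let N : X → ℍ → ℂ := (-1 / 1728 : ℂ) • (e4 ^ 2 • G + e6 • F)
  have hN : N ∈ MF X (k + 2) := by
    refine (MF X (k + 2)).smul_mem _ (add_mem ?_ ?_)
    · have := MF_smul _ _ _ (LF_pow 4 e4 e4_mem 2) G hG
      rwa [show ((2 : ℕ) : ℤ) * 4 + (k - 6) = k + 2 by push_cast; ring] at this
    · have := MF_smul _ _ _ e6_mem F hF
      rwa [show (6 : ℤ) + (k - 4) = k + 2 by ring] at this
  have hNz : ∀ x z, N x z = -1 / 1728 * (e4 z ^ 2 * G x z + e6 z * F x z) := fun x z => by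
    simp only [N, Pi.smul_apply, Pi.add_apply, Pi.pow_apply, smul_eq_mul, Pi.mul_apply]
  have h1 : ∀ x z, e6 z * (N x z / dl z) = F x z := fun x z => by
    rw [hNz]
    field_simp [dl_ne_zero z]
    have a1 := dl_eq z
    have a2 := h' x z
    linear_combination (-e4 z ^ 2) * a2 + (-F x z) * a1
  have h2 : ∀ x z, e4 z * (N x z / dl z) = -G x z := fun x z => by
    rw [hNz]
    field_simp [dl_ne_zero z]
    have a1 := dl_eq z
    have a2 := h' x z
    linear_combination (-e6 z) * a2 + (G x z) * a1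
  refine ⟨fun x => N x / dl, ?_, ?_, ?_⟩
  · have := MF_div' (k + 2) N hN fun x => ?_
    · rwa [show k + 2 - 12 = k - 10 by ring] at this
    · -- bounded since `e6 → 1`
      have b1 : (F x * e6⁻¹) =O[atImInfty] (1 : ℍ → ℝ) := by
        have b2 : e6⁻¹ =O[atImInfty] (1 : ℍ → ℝ) :=
          (e6_tendsto.inv₀ one_ne_zero).isBigO_one ℝ
        have := (hF.2.2 x).mul b2
        simpa using! this
      have b3 : (N x / dl) =ᶠ[atImInfty] (F x * e6⁻¹) := by
        have : ∀ᶠ z in atImInfty, e6 z ≠ 0 := e6_tendsto.eventually_ne one_ne_zero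
        filter_upwards [this] with z hz
        rw [Pi.mul_apply, ← h1 x z, Pi.inv_apply, Pi.div_apply]
        field_simp
      exact b1.congr' b3.symm EventuallyEq.rfl
  · funext x z
    simpa using! (h1 x z).symm
  · funext x z
    have := h2 x z
    simp only [Pi.neg_apply, Pi.smul_apply, smul_eq_mul, Pi.mul_apply, Pi.div_apply]
    rw [this, neg_neg]

end vec

end Fermat.Agent.Genus
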