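import Mathlib
import Fermat.Agent.Genus.Forms

/-!
# Conversion between vector valued forms and modular forms for finite index subgroups
-/

set_option autoImplicit false

open UpperHalfPlane ModularForm MatrixGroups Complex Filter EisensteinSeries
open scoped Manifold Topology

noncomputable section

namespace Fermat.Agent.Genus

section comp

variable {X : Type} [MulAction SL(2, ℤ) X] (Γ : Subgroup SL(2, ℤ)) [Γ.FiniteIndex]

/-- A component of a vector valued form as a modular form for (a subgroup of) the stabilizer. -/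
def MF.comp {k : ℤ} {F : X → ℍ → ℂ} (hF : F ∈ MF X k) (x : X) (hx : ∀ g ∈ Γ, g • x = x) :
    ModularForm (Γ : Subgroup (GL (Fin 2) ℝ)) k where
  toFun := F x
  slash_action_eq' := by
    rintro _ ⟨γ, hγ, rfl⟩
    have := hF.2.1 x γ
    rw [show γ⁻¹ • x = x from hx _ (inv_mem hγ)] at this
    exact this
  holo' := hF.1 x
  bdd_at_cusps' {c} hc := by
    rw [Subgroup.IsArithmetic.isCusp_iff_isCusp_SL2Z] at hc
    rw [OnePoint.isBoundedAt_iff_forall_SL2Z hc]
    intro γ _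
    have := hF.2.1 x γ
    change IsBoundedAtImInfty (F x ∣[k] γ)
    rw [this]
    exact hF.2.2 _

/-- A component of a vector valued cusp form as a cusp form for (a subgroup of) the stabilizer. -/
def CF.comp {k : ℤ} {F : X → ℍ → ℂ} (hF : F ∈ CF X k) (x : X) (hx : ∀ g ∈ Γ, g • x = x) :
    CuspForm (Γ : Subgroup (GL (Fin 2) ℝ)) k where
  toFun := F x
  slash_action_eq' := by
    rintro _ ⟨γ, hγ, rfl⟩
    have := hF.2.1 x γ
    rw [show γ⁻¹ • x = x from hx _ (inv_mem hγ)] at this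
    exact this
  holo' := hF.1 x
  zero_at_cusps' {c} hc := by
    rw [Subgroup.IsArithmetic.isCusp_iff_isCusp_SL2Z] at hc
    rw [OnePoint.isZeroAt_iff_forall_SL2Z hc]
    intro γ _
    have := hF.2.1 x γ
    change IsZeroAtImInfty (F x ∣[k] γ)
    rw [this]
    exact hF.2.2 _

@[simp] theorem MF.comp_coe {k : ℤ} {F : X → ℍ → ℂ} (hF : F ∈ MF X k) (x : X)
    (hx : ∀ g ∈ Γ, g • x = x) : ⇑(MF.comp Γ hF x hx) = F x := rfl

@[simp] theorem CF.comp_coe {k : ℤ} {F : X → ℍ → ℂ} (hF : F ∈ CF X k) (x : X)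
    (hx : ∀ g ∈ Γ, g • x = x) : ⇑(CF.comp Γ hF x hx) = F x := rfl

end comp

section neg

variable {X : Type} [MulAction SL(2, ℤ) X] [Finite X]

instance stab_finiteIndex (x : X) : (MulAction.stabilizer SL(2, ℤ) x).FiniteIndex := by
  have : Finite (SL(2, ℤ) ⧸ MulAction.stabilizer SL(2, ℤ) x) :=
    Finite.of_equiv _ (MulAction.orbitEquivQuotientStabilizer SL(2, ℤ) x)
  exact Subgroup.finiteIndex_of_finite_quotient

theorem MF_neg (k : ℤ) (hk : k < 0) (F : X → ℍ → ℂ) (hF : F ∈ MF X k) : F = 0 := by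
  funext x
  have h := ModularForm.isZero_of_neg_weight hk
    (MF.comp (MulAction.stabilizer SL(2, ℤ) x) hF x (fun _ hg => hg))
  have := congrArg (fun f : ModularForm _ k => (f : ℍ → ℂ)) h
  exact this

theorem MF_zero (F : X → ℍ → ℂ) (hF : F ∈ MF X 0) (x : X) :
    ∃ c : ℂ, F x = Function.const ℍ c :=
  ModularForm.eq_const_of_weight_zero
    (MF.comp (MulAction.stabilizer SL(2, ℤ) x) hF x (fun _ hg => hg))

theorem CF_nonpos (k : ℤ) (hk : k ≤ 0) (F : X → ℍ → ℂ) (hF : F ∈ CF X k) : F = 0 := by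
  rcases hk.lt_or_eq with h | rfl
  · exact MF_neg k h F (CF_le_MF k hF)
  · funext x
    obtain ⟨c, hc⟩ := MF_zero F (CF_le_MF 0 hF) x
    have h0 := hF.2.2 x
    rw [hc] at h0 ⊢
    have h1 : Tendsto (Function.const ℍ c) atImInfty (𝓝 c) := tendsto_const_nhds
    have h2 := tendsto_nhds_unique h1 h0
    rw [h2]
    rfl

omit [Finite X] in
theorem MF_odd (h1 : ∀ x : X, (-1 : SL(2, ℤ)) • x = x) (k : ℤ) (hk : Odd k) (F : X → ℍ → ℂ)
    (hF : F ∈ MF X k) : F = 0 := by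
  funext x z
  have h := congrFun (hF.2.1 x (-1 : SL(2, ℤ))) z
  rw [ModularForm.SL_slash_apply] at h
  have h2 : (-1 : SL(2, ℤ))⁻¹ • x = x := by
    rw [inv_smul_eq_iff, h1]
  rw [h2] at h
  have h3 : (-1 : SL(2, ℤ)) • z = z := by
    rw [ModularGroup.SL_neg_smul, one_smul]
  have h4 : denom ((-1 : SL(2, ℤ)) : GL (Fin 2) ℝ) z = -1 := by
    simp [denom]
  rw [h3, h4, Odd.neg_one_zpow (by simpa using hk)] at h
  have : F x z = 0 := by linear_combination (-1 / 2 : ℂ) * h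
  simpa using this

variable (X) in
/-- `MF` satisfies the hypotheses of the graded freeness theorem. -/
theorem gsetup : GSetup (A := ℍ → ℂ) (V := X → ℍ → ℂ) LF (MF X) e4 e6 where
  R_neg := LF_neg
  R_zero := fun r hr => by
    obtain ⟨c, hc⟩ := LF_zero r hr
    exact ⟨c, by rw [hc]; rfl⟩
  R_one_mem := one_mem_LF
  R_gen := LF_gen
  R_mul := fun j k r hr s hs => LF_mul j k r hr s hs
  e4_mem := e4_mem
  e6_mem := e6_mem
  M_neg := MF_neg
  M_mul := MF_smul
  reg := MF_reg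

end neg

section quot

variable (Γ : Subgroup SL(2, ℤ))

/-- The vector of translates of a `Γ`-invariant function. -/
def toVec {k : ℤ} (f : ℍ → ℂ) (hf : ∀ g ∈ Γ, f ∣[k] g = f) : SL(2, ℤ) ⧸ Γ → ℍ → ℂ :=
  Quotient.lift (fun g : SL(2, ℤ) => f ∣[k] g⁻¹) (by
    intro a b hab
    have hab' : a⁻¹ * b ∈ Γ := QuotientGroup.leftRel_apply.mp hab
    have h2 : (a⁻¹ * b)⁻¹ ∈ Γ := inv_mem hab'
    have := hf _ h2
    change f ∣[k] a⁻¹ = f ∣[k] b⁻¹
    rw [show b⁻¹ = (a⁻¹ * b)⁻¹ * a⁻¹ by group, SlashAction.slash_mul, this])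

@[simp] theorem toVec_mk {k : ℤ} (f : ℍ → ℂ) (hf : ∀ g ∈ Γ, f ∣[k] g = f) (g : SL(2, ℤ)) :
    toVec Γ f hf (QuotientGroup.mk g) = f ∣[k] g⁻¹ := rfl

theorem toVec_slash {k : ℤ} (f : ℍ → ℂ) (hf : ∀ g ∈ Γ, f ∣[k] g = f) (x : SL(2, ℤ) ⧸ Γ)
    (g : SL(2, ℤ)) : toVec Γ f hf x ∣[k] g = toVec Γ f hf (g⁻¹ • x) := by
  induction x using QuotientGroup.induction_on with
  | H h =>
    have : g⁻¹ • (QuotientGroup.mk h : SL(2, ℤ) ⧸ Γ) = QuotientGroup.mk (g⁻¹ * h) := rfl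
    rw [this, toVec_mk, toVec_mk, ← SlashAction.slash_mul]
    congr 1
    group

theorem slash_eq_of_form {k : ℤ} (f : ModularForm (Γ : Subgroup (GL (Fin 2) ℝ)) k) :
    ∀ g ∈ Γ, (f : ℍ → ℂ) ∣[k] g = f := fun g hg =>
  f.slash_action_eq' _ ⟨g, hg, rfl⟩

theorem slash_eq_of_cuspForm {k : ℤ} (f : CuspForm (Γ : Subgroup (GL (Fin 2) ℝ)) k) :
    ∀ g ∈ Γ, (f : ℍ → ℂ) ∣[k] g = f := fun g hg =>
  f.slash_action_eq' _ ⟨g, hg, rfl⟩

variable [Γ.FiniteIndex]

theorem toVec_mem_MF {k : ℤ} (f : ModularForm (Γ : Subgroup (GL (Fin 2) ℝ)) k) :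
    toVec Γ f (slash_eq_of_form Γ f) ∈ MF (SL(2, ℤ) ⧸ Γ) k := by
  refine ⟨fun x => ?_, toVec_slash Γ _ _, fun x => ?_⟩
  · induction x using QuotientGroup.induction_on with
    | H h =>
      rw [toVec_mk, ModularForm.SL_slash]
      exact (ModularForm.translate f _).holo'
  · induction x using QuotientGroup.induction_on with
    | H h =>
      rw [toVec_mk]
      exact ModularFormClass.bdd_at_infty_slash f h⁻¹

theorem toVec_mem_CF {k : ℤ} (f : CuspForm (Γ : Subgroup (GL (Fin 2) ℝ)) k) :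
    toVec Γ f (slash_eq_of_cuspForm Γ f) ∈ CF (SL(2, ℤ) ⧸ Γ) k := by
  refine ⟨fun x => ?_, toVec_slash Γ _ _, fun x => ?_⟩
  · induction x using QuotientGroup.induction_on with
    | H h =>
      rw [toVec_mk, ModularForm.SL_slash]
      exact (CuspForm.translate f _).holo'
  · induction x using QuotientGroup.induction_on with
    | H h =>
      rw [toVec_mk]
      exact CuspFormClass.zero_at_infty_slash f h⁻¹

omit [Γ.FiniteIndex] in
theorem vec_eq {k : ℤ} {F : SL(2, ℤ) ⧸ Γ → ℍ → ℂ}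
    (hF : ∀ (x : SL(2, ℤ) ⧸ Γ) (g : SL(2, ℤ)), F x ∣[k] g = F (g⁻¹ • x))
    (h1 : ∀ g ∈ Γ, F (QuotientGroup.mk 1) ∣[k] g = F (QuotientGroup.mk 1)) :
    toVec Γ (F (QuotientGroup.mk 1)) h1 = F := by
  funext x
  induction x using QuotientGroup.induction_on with
  | H h =>
    rw [toVec_mk, hF]
    congr 1
    rw [inv_inv]
    change (QuotientGroup.mk (h * 1) : SL(2, ℤ) ⧸ Γ) = _
    rw [mul_one]

omit [Γ.FiniteIndex] in
theorem base_fixed : ∀ g ∈ Γ, g • (QuotientGroup.mk 1 : SL(2, ℤ) ⧸ Γ) = QuotientGroup.mk 1 := by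
  intro g hg
  change (QuotientGroup.mk (g * 1) : SL(2, ℤ) ⧸ Γ) = _
  rw [mul_one]
  exact (QuotientGroup.eq.mpr (by simpa using hg)).symm

/-- Cusp forms for `Γ` are vector valued cusp forms for the coset representation. -/
def CFequiv (k : ℤ) :
    CuspForm (Γ : Subgroup (GL (Fin 2) ℝ)) k ≃ₗ[ℂ] CF (SL(2, ℤ) ⧸ Γ) k where
  toFun f := ⟨_, toVec_mem_CF Γ f⟩
  invFun F := CF.comp Γ F.2 (QuotientGroup.mk 1) (base_fixed Γ)
  map_add' f g := by
    apply Subtype.ext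
    funext x
    induction x using QuotientGroup.induction_on with
    | H h =>
      change (⇑(f + g)) ∣[k] h⁻¹ = ⇑f ∣[k] h⁻¹ + ⇑g ∣[k] h⁻¹
      rw [← SlashAction.add_slash]
      rfl
  map_smul' c f := by
    apply Subtype.ext
    funext x
    induction x using QuotientGroup.induction_on with
    | H h =>
      change (⇑(c • f)) ∣[k] h⁻¹ = c • (⇑f ∣[k] h⁻¹)
      rw [← ModularForm.SL_smul_slash]
      rfl
  left_inv f := by
    ext z
    change ((f : ℍ → ℂ) ∣[k] (1 : SL(2, ℤ))⁻¹) z = f z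
    rw [inv_one, SlashAction.slash_one]
  right_inv F := by
    apply Subtype.ext
    exact vec_eq Γ F.2.2.1 (fun g hg => by
      rw [F.2.2.1, base_fixed Γ _ (inv_mem hg)])

end quot

end Fermat.Agent.Genus
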