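import Mathlib

set_option autoImplicit false

/-!
# Local analysis at infinity of vector valued functions

`X` a finite type, `π : Equiv.Perm X` with `π ^ N = 1`, `F : X → ℍ → ℂ` a family of holomorphic
functions bounded at `i∞` with `F (π x) z = F x (1 + z)`.
-/

namespace Fermat.Agent.GenusInf

open UpperHalfPlane Filter Topology Complex Function
open scoped Manifold

noncomputable section

local notation "𝕢" => Function.Periodic.qParam

variable {X : Type*}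

/-- Vector valued functions, equivariant under `z ↦ z + 1`, holomorphic, bounded at infinity. -/
structure IsTVec (π : Equiv.Perm X) (F : X → ℍ → ℂ) : Prop where
  holo : ∀ x, MDiff (F x)
  bdd : ∀ x, IsBoundedAtImInfty (F x)
  shift : ∀ x z, F (π x) z = F x ((1 : ℝ) +ᵥ z)

/-- The vector of leading coefficients: sum of the coefficients of `q^(n/N)`, `0 ≤ n < N`. -/
def lead (N : ℕ) (F : X → ℍ → ℂ) (x : X) : ℂ :=
  ∑ n ∈ Finset.range N, (qExpansion N (F x)).coeff n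

variable {π : Equiv.Perm X} {N : ℕ} {F : X → ℍ → ℂ}

lemma coeff_unique {f : ℍ → ℂ} {h : ℝ} {c c' : ℕ → ℂ} (hh : 0 < h)
    (han : AnalyticAt ℂ (cuspFunction h f) 0)
    (hf : ∀ z : ℍ, HasSum (fun m : ℕ ↦ c m • 𝕢 h z ^ m) (f z))
    (hf' : ∀ z : ℍ, HasSum (fun m : ℕ ↦ c' m • 𝕢 h z ^ m) (f z)) (m : ℕ) : c m = c' m := by
  have h1 := (hasFPowerSeriesOnBall_cuspFunction hh han hf).hasFPowerSeriesAt
  have h2 := (hasFPowerSeriesOnBall_cuspFunction hh han hf').hasFPowerSeriesAt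
  have h3 := congr_arg (FormalMultilinearSeries.coeff · m) (h1.eq_formalMultilinearSeries h2)
  simpa [FormalMultilinearSeries.coeff_ofScalars] using h3

lemma hasSum_shift {f : ℍ → ℂ} {h : ℝ} {c : ℕ → ℂ} (n : ℕ) (hc : ∀ m < n, c m = 0) (z : ℍ)
    (hf : HasSum (fun m : ℕ ↦ c m • 𝕢 h z ^ m) (f z)) :
    HasSum (fun m : ℕ ↦ c (m + n) • 𝕢 h z ^ m) ((𝕢 h z ^ n)⁻¹ * f z) := by
  have h0 : 𝕢 h z ≠ 0 := Function.Periodic.qParam_ne_zero _
  have h1 := (hasSum_nat_add_iff' n).mpr hf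
  have h2 : ∑ i ∈ Finset.range n, c i • 𝕢 h z ^ i = 0 := by
    refine Finset.sum_eq_zero fun i hi ↦ ?_
    rw [hc i (Finset.mem_range.mp hi), zero_smul]
  rw [h2, sub_zero] at h1
  have h3 := h1.mul_left (𝕢 h z ^ n)⁻¹
  have h4 : (fun m : ℕ ↦ c (m + n) • 𝕢 h z ^ m) =
      fun i ↦ (𝕢 h z ^ n)⁻¹ * c (i + n) • 𝕢 h z ^ (i + n) := by
    ext m
    rw [smul_eq_mul, smul_eq_mul, pow_add]
    field_simp
  rw [h4]
  exact h3

lemma tendsto_of_hasSum {f : ℍ → ℂ} {h : ℝ} {c : ℕ → ℂ} (hh : 0 < h)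
    (hf : ∀ z : ℍ, HasSum (fun m : ℕ ↦ c m • 𝕢 h z ^ m) (f z)) :
    Tendsto f atImInfty (𝓝 (c 0)) := by
  set c' : ℕ → ℂ := fun m ↦ if m = 0 then 0 else c m with hc'
  have h1 : ∀ z : ℍ, HasSum (fun m : ℕ ↦ c' m • 𝕢 h z ^ m) (f z - c 0) := by
    intro z
    have h2 := (hf z).sub (hasSum_ite_eq (α := ℂ) 0 (c 0))
    have h4 : (fun m : ℕ ↦ c' m • 𝕢 h z ^ m) =
        fun b ↦ c b • 𝕢 h z ^ b - if b = 0 then c 0 else 0 := by
      ext m
      by_cases hm : m = 0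
      · simp [hc', hm]
      · simp [hc', hm]
    rw [h4]
    exact h2
  have h2 : ∀ z : ℍ, HasSum (fun m : ℕ ↦ c' (m + 1) • 𝕢 h z ^ m)
      ((𝕢 h z ^ 1)⁻¹ * (f z - c 0)) := fun z ↦
    hasSum_shift (f := fun z ↦ f z - c 0) 1 (fun m hm ↦ by
      have : m = 0 := by omega
      simp [hc', this]) z (h1 z)
  have h3 : (fun z : ℍ ↦ (𝕢 h z ^ 1)⁻¹ * (f z - c 0)) =O[atImInfty] (1 : ℍ → ℝ) :=
    isBoundedAtImInfty_of_hasSum_qExpansion hh h2
  have h4 : Tendsto (fun z : ℍ ↦ 𝕢 h z) atImInfty (𝓝 0) := qParam_tendsto_atImInfty hh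
  have h5 : Tendsto (fun z : ℍ ↦ 𝕢 h z * ((𝕢 h z ^ 1)⁻¹ * (f z - c 0))) atImInfty (𝓝 0) := by
    have h7 := (Asymptotics.isBigO_refl (fun z : ℍ ↦ 𝕢 h z) atImInfty).norm_right.mul h3
    refine h7.trans_tendsto ?_
    simpa using h4.norm
  have h6 : Tendsto (fun z : ℍ ↦ 𝕢 h z * ((𝕢 h z ^ 1)⁻¹ * (f z - c 0)) + c 0) atImInfty
      (𝓝 (c 0)) := by simpa using h5.add_const (c 0)
  refine h6.congr fun z ↦ ?_
  have h0 : 𝕢 h z ≠ 0 := Function.Periodic.qParam_ne_zero _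
  field_simp
  ring

lemma isBigO_of_hasSum {f : ℍ → ℂ} {h : ℝ} {c : ℕ → ℂ} (hh : 0 < h) (n : ℕ)
    (hc : ∀ m < n, c m = 0)
    (hf : ∀ z : ℍ, HasSum (fun m : ℕ ↦ c m • 𝕢 h z ^ m) (f z)) :
    f =O[atImInfty] fun z ↦ Real.exp (-2 * Real.pi * n * z.im / h) := by
  have h2 : ∀ z : ℍ, HasSum (fun m : ℕ ↦ c (m + n) • 𝕢 h z ^ m) ((𝕢 h z ^ n)⁻¹ * f z) :=
    fun z ↦ hasSum_shift n hc z (hf z)
  have h3 : (fun z : ℍ ↦ (𝕢 h z ^ n)⁻¹ * f z) =O[atImInfty] (1 : ℍ → ℝ) :=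
    isBoundedAtImInfty_of_hasSum_qExpansion hh h2
  have h4 := (Asymptotics.isBigO_refl (fun z : ℍ ↦ 𝕢 h z ^ n) atImInfty).norm_right.mul h3
  have h5 : (fun z : ℍ ↦ 𝕢 h z ^ n * ((𝕢 h z ^ n)⁻¹ * f z)) = f := by
    ext z
    have h0 : 𝕢 h z ≠ 0 := Function.Periodic.qParam_ne_zero _
    field_simp
  rw [h5] at h4
  refine h4.trans (Asymptotics.IsBigO.of_bound 1 (Eventually.of_forall fun z ↦ ?_))
  rw [Pi.one_apply, norm_mul, norm_pow, Function.Periodic.norm_qParam]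
  rw [← Real.exp_nat_mul]
  simp
  ring_nf
  rfl

namespace IsTVec

lemma shift_nat (hF : IsTVec π F) (m : ℕ) (x : X) (z : ℍ) :
    F ((π ^ m) x) z = F x ((m : ℝ) +ᵥ z) := by
  induction m generalizing x z with
  | zero => simp
  | succ m ih =>
    rw [pow_succ', Equiv.Perm.mul_apply, hF.shift, ih, vadd_vadd]
    push_cast
    rfl

lemma periodic (hF : IsTVec π F) (hπ : π ^ N = 1) (x : X) :
    Periodic (F x ∘ ofComplex) (N : ℝ) := by
  intro w
  by_cases! hw : 0 < w.im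
  · have h1 : 0 < (w + (N : ℝ)).im := by simpa using hw
    simp only [comp_apply]
    rw [ofComplex_apply_of_im_pos h1, ofComplex_apply_of_im_pos hw]
    have h2 := hF.shift_nat N x ⟨w, hw⟩
    rw [hπ] at h2
    rw [Equiv.Perm.one_apply] at h2
    rw [h2]
    congr 1
    ext
    simp [add_comm]
  · have h1 : (w + (N : ℝ)).im ≤ 0 := by simpa using hw
    simp only [comp_apply]
    rw [ofComplex_apply_of_im_nonpos h1, ofComplex_apply_of_im_nonpos hw]

lemma hasSum (hF : IsTVec π F) (hN : 0 < N) (hπ : π ^ N = 1) (x : X) (z : ℍ) :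
    HasSum (fun m : ℕ ↦ (qExpansion N (F x)).coeff m • 𝕢 N z ^ m) (F x z) :=
  hasSum_qExpansion (by exact_mod_cast hN) (hF.periodic hπ x) (hF.holo x) (hF.bdd x) z

/-- `ζ = exp (2πi/N)`. -/
def _root_.Fermat.Agent.GenusInf.zeta (N : ℕ) : ℂ := Complex.exp (2 * Real.pi * Complex.I / N)

lemma _root_.Fermat.Agent.GenusInf.zeta_prim (hN : 0 < N) : IsPrimitiveRoot (zeta N) N :=
  Complex.isPrimitiveRoot_exp N hN.ne'

lemma _root_.Fermat.Agent.GenusInf.qParam_vadd (m : ℕ) (z : ℍ) :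
    𝕢 N (((m : ℝ) +ᵥ z : ℍ) : ℂ) = zeta N ^ m * 𝕢 N z := by
  rw [Function.Periodic.qParam, Function.Periodic.qParam, zeta, ← Complex.exp_nat_mul,
    ← Complex.exp_add]
  congr 1
  simp
  ring

lemma coeff_shift (hF : IsTVec π F) (hN : 0 < N) (hπ : π ^ N = 1) (x : X) (l : ℕ) :
    (qExpansion N (F (π x))).coeff l = zeta N ^ l * (qExpansion N (F x)).coeff l := by
  have hN' : (0 : ℝ) < N := by exact_mod_cast hN
  refine (coeff_unique (f := F (π x)) hN'
    (analyticAt_cuspFunction_zero hN' (hF.periodic hπ _) (hF.holo _)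
      (hF.bdd _)) (c := fun l ↦ zeta N ^ l * (qExpansion N (F x)).coeff l) ?_
      (hF.hasSum hN hπ (π x)) l).symm
  intro z
  rw [hF.shift]
  have := hF.hasSum hN hπ x ((1 : ℝ) +ᵥ z)
  convert this using 2 with l
  have h1 := qParam_vadd (N := N) 1 z
  simp only [Nat.cast_one, pow_one] at h1
  rw [h1, mul_pow]
  simp only [smul_eq_mul]
  ring

lemma coeff_shift_nat (hF : IsTVec π F) (hN : 0 < N) (hπ : π ^ N = 1) (x : X) (l m : ℕ) :
    (qExpansion N (F ((π ^ m) x))).coeff l = zeta N ^ (l * m) * (qExpansion N (F x)).coeff l := by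
  induction m generalizing x with
  | zero => simp
  | succ m ih =>
    rw [pow_succ, Equiv.Perm.mul_apply, ih, hF.coeff_shift hN hπ]
    ring

end IsTVec

/-- Projection to the `ζ^n`-eigenspace of `π`. -/
def proj (π : Equiv.Perm X) (N : ℕ) (n : ℕ) (v : X → ℂ) (x : X) : ℂ :=
  (N : ℂ)⁻¹ * ∑ m ∈ Finset.range N, (zeta N)⁻¹ ^ (n * m) * v ((π ^ m) x)

lemma zeta_ne (N : ℕ) : zeta N ≠ 0 := Complex.exp_ne_zero _

lemma zeta_pow_eq_iff (hN : 0 < N) (l n : ℕ) : zeta N ^ l = zeta N ^ n ↔ l ≡ n [MOD N] := by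
  have hz := zeta_prim hN
  rw [pow_eq_pow_mod l hz.pow_eq_one, pow_eq_pow_mod n hz.pow_eq_one]
  constructor
  · intro h
    exact hz.pow_inj (Nat.mod_lt _ hN) (Nat.mod_lt _ hN) h
  · intro h
    rw [show l % N = n % N from h]

lemma sum_zeta (hN : 0 < N) (l n : ℕ) :
    (N : ℂ)⁻¹ * ∑ m ∈ Finset.range N, (zeta N)⁻¹ ^ (n * m) * zeta N ^ (l * m) =
      if l ≡ n [MOD N] then 1 else 0 := by
  have hz := zeta_prim hN
  have hN0 : (N : ℂ) ≠ 0 := by exact_mod_cast hN.ne'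
  have h1 : ∑ m ∈ Finset.range N, (zeta N)⁻¹ ^ (n * m) * zeta N ^ (l * m) =
      ∑ m ∈ Finset.range N, (zeta N ^ l * ((zeta N)⁻¹) ^ n) ^ m := by
    refine Finset.sum_congr rfl fun m _ ↦ ?_
    rw [mul_pow, ← pow_mul, ← pow_mul, mul_comm]
  rw [h1]
  have h2 : (zeta N ^ l * ((zeta N)⁻¹) ^ n) ^ N = 1 := by
    rw [mul_pow, ← pow_mul, ← pow_mul, mul_comm l, mul_comm n, pow_mul, pow_mul, inv_pow,
      hz.pow_eq_one]
    simp
  by_cases h : l ≡ n [MOD N]
  · rw [if_pos h]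
    have h3 : zeta N ^ l = zeta N ^ n := (zeta_pow_eq_iff hN l n).mpr h
    rw [h3, inv_pow, mul_inv_cancel₀ (pow_ne_zero _ (zeta_ne N))]
    simp [hN0]
  · rw [if_neg h]
    have h3 : zeta N ^ l * ((zeta N)⁻¹) ^ n ≠ 1 := by
      intro h4
      apply h
      have h5 : zeta N ^ l = zeta N ^ n := by
        rw [inv_pow] at h4
        field_simp [zeta_ne N] at h4
        exact h4
      exact (zeta_pow_eq_iff hN l n).mp h5
    rw [geom_sum_eq h3, h2]
    simp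

namespace IsTVec

lemma hasSum_proj (hF : IsTVec π F) (hN : 0 < N) (hπ : π ^ N = 1) (n : ℕ) (x : X) (z : ℍ) :
    HasSum (fun l : ℕ ↦ (if l ≡ n [MOD N] then (qExpansion N (F x)).coeff l else 0) • 𝕢 N z ^ l)
      (proj π N n (fun y ↦ F y z) x) := by
  have h1 : HasSum (fun l : ℕ ↦ ∑ m ∈ Finset.range N, (zeta N)⁻¹ ^ (n * m) *
      ((qExpansion N (F ((π ^ m) x))).coeff l • 𝕢 N z ^ l))
      (∑ m ∈ Finset.range N, (zeta N)⁻¹ ^ (n * m) * F ((π ^ m) x) z) :=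
    hasSum_sum fun m _ ↦ (hF.hasSum hN hπ _ z).mul_left _
  have h2 := h1.mul_left ((N : ℂ)⁻¹)
  have h3 : (fun l : ℕ ↦ (if l ≡ n [MOD N] then (qExpansion N (F x)).coeff l else 0) • 𝕢 N z ^ l) =
      fun l : ℕ ↦ (N : ℂ)⁻¹ * ∑ m ∈ Finset.range N, (zeta N)⁻¹ ^ (n * m) *
      ((qExpansion N (F ((π ^ m) x))).coeff l • 𝕢 N z ^ l) := by
    ext l
    have h4 : ∀ m, (zeta N)⁻¹ ^ (n * m) *
        ((qExpansion N (F ((π ^ m) x))).coeff l • 𝕢 N z ^ l) =
        ((zeta N)⁻¹ ^ (n * m) * zeta N ^ (l * m)) *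
          ((qExpansion N (F x)).coeff l • 𝕢 N z ^ l) := by
      intro m
      rw [hF.coeff_shift_nat hN hπ, smul_eq_mul, smul_eq_mul]
      ring
    simp_rw [h4]
    rw [← Finset.sum_mul, ← mul_assoc, sum_zeta hN]
    split_ifs <;> simp
  rw [h3]
  exact h2

lemma tendsto_proj (hF : IsTVec π F) (hN : 0 < N) (hπ : π ^ N = 1) {n : ℕ} (hn : n < N) (x : X) :
    Tendsto (fun z : ℍ ↦ (𝕢 N z ^ n)⁻¹ * proj π N n (fun y ↦ F y z) x) atImInfty
      (𝓝 ((qExpansion N (F x)).coeff n)) := by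
  have h1 := tendsto_of_hasSum (h := N) (by exact_mod_cast hN)
    (fun z ↦ hasSum_shift (f := fun z ↦ proj π N n (fun y ↦ F y z) x) n (by
      intro m hm
      rw [if_neg]
      intro h
      have := Nat.ModEq.eq_of_lt_of_lt h (hm.trans hn) hn
      omega) z (hF.hasSum_proj hN hπ n x z))
  have h2 : (if 0 + n ≡ n [MOD N] then (qExpansion N (F x)).coeff (0 + n) else 0) =
      (qExpansion N (F x)).coeff n := by
    rw [zero_add, if_pos (Nat.ModEq.refl n)]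
  rwa [h2] at h1

lemma tendsto_lead_aux (hF : IsTVec π F) (hN : 0 < N) (hπ : π ^ N = 1) (x : X) :
    Tendsto (fun z : ℍ ↦ ∑ n ∈ Finset.range N, (𝕢 N z ^ n)⁻¹ * proj π N n (fun y ↦ F y z) x)
      atImInfty (𝓝 (lead N F x)) :=
  tendsto_finsetSum _ fun _ hn ↦ hF.tendsto_proj hN hπ (Finset.mem_range.mp hn) x

end IsTVec

namespace IsTVec

lemma proj_lead (hF : IsTVec π F) (hN : 0 < N) (hπ : π ^ N = 1) {n : ℕ} (hn : n < N) (x : X) :
    proj π N n (lead N F) x = (qExpansion N (F x)).coeff n := by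
  have h1 : proj π N n (lead N F) x = ∑ l ∈ Finset.range N,
      (if l ≡ n [MOD N] then 1 else 0) * (qExpansion N (F x)).coeff l := by
    simp_rw [← sum_zeta hN, proj, lead, hF.coeff_shift_nat hN hπ, Finset.mul_sum]
    rw [Finset.sum_comm]
    refine Finset.sum_congr rfl fun l _ ↦ ?_
    rw [Finset.sum_mul]
    refine Finset.sum_congr rfl fun m _ ↦ ?_
    ring
  rw [h1, Finset.sum_eq_single n]
  · rw [if_pos (Nat.ModEq.refl n), one_mul]
  · intro l hl hln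
    rw [if_neg, zero_mul]
    intro h
    exact hln (Nat.ModEq.eq_of_lt_of_lt h (Finset.mem_range.mp hl) hn)
  · intro h
    exact absurd (Finset.mem_range.mpr hn) h

lemma coeff_eq_zero_of_lead (hF : IsTVec π F) (hN : 0 < N) (hπ : π ^ N = 1)
    (h0 : lead N F = 0) {n : ℕ} (hn : n < N) (x : X) : (qExpansion N (F x)).coeff n = 0 := by
  rw [← hF.proj_lead hN hπ hn, h0]
  simp [proj]

/-- (a): if `lead F = 0` then `F = O(exp(-2π Im z))`. -/
theorem isBigO_of_lead_eq_zero (hF : IsTVec π F) (hN : 0 < N) (hπ : π ^ N = 1)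
    (h0 : lead N F = 0) (x : X) :
    F x =O[atImInfty] fun z ↦ Real.exp (-2 * Real.pi * z.im) := by
  have h1 := isBigO_of_hasSum (h := N) (f := F x) (by exact_mod_cast hN) N
    (fun m hm ↦ hF.coeff_eq_zero_of_lead hN hπ h0 hm x) (hF.hasSum hN hπ x)
  have hN0 : (N : ℝ) ≠ 0 := by exact_mod_cast hN.ne'
  refine h1.congr_right fun z ↦ ?_
  congr 1
  field_simp

lemma tendsto (hF : IsTVec π F) (hN : 0 < N) (hπ : π ^ N = 1) (x : X) :
    Tendsto (F x) atImInfty (𝓝 ((qExpansion N (F x)).coeff 0)) :=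
  tendsto_of_hasSum (h := N) (by exact_mod_cast hN) (hF.hasSum hN hπ x)

/-- (d'): if `lead F` is `π`-invariant then `F → lead F` at `i∞`. -/
theorem tendsto_lead_of_invariant (hF : IsTVec π F) (hN : 0 < N) (hπ : π ^ N = 1)
    (hinv : ∀ x, lead N F (π x) = lead N F x) (x : X) :
    Tendsto (F x) atImInfty (𝓝 (lead N F x)) := by
  have hinv' : ∀ m, ∀ x, lead N F ((π ^ m) x) = lead N F x := by
    intro m
    induction m with
    | zero => intro x; simp
    | succ m ih => intro x; rw [pow_succ, Equiv.Perm.mul_apply, ih, hinv]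
  have h1 : (qExpansion N (F x)).coeff 0 = lead N F x := by
    rw [← hF.proj_lead hN hπ hN, proj]
    simp_rw [hinv']
    have hN0 : (N : ℂ) ≠ 0 := by exact_mod_cast hN.ne'
    simp [hN0]
  rw [← h1]
  exact hF.tendsto hN hπ x

end IsTVec

section Q

variable [Fintype X] [DecidableEq X]

/-- The matrix `Q_z = ∑_n q_N^(-n) E_n`. -/
def Q (π : Equiv.Perm X) (N : ℕ) (z : ℍ) : Matrix X X ℂ := fun x y ↦
  ∑ n ∈ Finset.range N, (𝕢 N z ^ n)⁻¹ * ((N : ℂ)⁻¹ *
    ∑ m ∈ Finset.range N, (zeta N)⁻¹ ^ (n * m) * if (π ^ m) x = y then 1 else 0)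

lemma Q_mulVec (z : ℍ) (v : X → ℂ) (x : X) :
    (Q π N z).mulVec v x = ∑ n ∈ Finset.range N, (𝕢 N z ^ n)⁻¹ * proj π N n v x := by
  rw [Matrix.mulVec, dotProduct]
  simp only [Q, proj]
  simp_rw [Finset.sum_mul]
  rw [Finset.sum_comm]
  refine Finset.sum_congr rfl fun n _ ↦ ?_
  simp_rw [mul_assoc, ← Finset.mul_sum, Finset.sum_mul]
  rw [Finset.sum_comm]
  congr 2
  refine Finset.sum_congr rfl fun m _ ↦ ?_
  simp

lemma IsTVec.tendsto_Q_mulVec (hF : IsTVec π F) (hN : 0 < N) (hπ : π ^ N = 1) (x : X) :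
    Tendsto (fun z : ℍ ↦ (Q π N z).mulVec (fun y ↦ F y z) x) atImInfty (𝓝 (lead N F x)) := by
  simp_rw [Q_mulVec]
  exact hF.tendsto_lead_aux hN hπ x

omit [Fintype X] in
/-- `Δ(z) Q_z → 0`. -/
lemma tendsto_mul_Q (hN : 0 < N) (D : ℍ → ℂ)
    (hD : D =O[atImInfty] fun z ↦ Real.exp (-2 * Real.pi * z.im)) (x y : X) :
    Tendsto (fun z : ℍ ↦ D z * Q π N z x y) atImInfty (𝓝 0) := by
  have hN' : (0 : ℝ) < N := by exact_mod_cast hN
  simp only [Q, Finset.mul_sum]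
  rw [show (0 : ℂ) = ∑ n ∈ Finset.range N, 0 by simp]
  refine tendsto_finsetSum _ fun n hn ↦ ?_
  have hn' : (n : ℝ) < N := by exact_mod_cast Finset.mem_range.mp hn
  have h1 : Tendsto (fun z : ℍ ↦ D z * (𝕢 N z ^ n)⁻¹) atImInfty (𝓝 0) := by
    have h2 : (fun z : ℍ ↦ D z * (𝕢 N z ^ n)⁻¹) =O[atImInfty]
        fun z ↦ Real.exp (-2 * Real.pi * z.im) * Real.exp (2 * Real.pi * n * z.im / N) := by
      refine hD.mul (Asymptotics.IsBigO.of_bound 1 (Eventually.of_forall fun z ↦ ?_))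
      rw [norm_inv, norm_pow, Function.Periodic.norm_qParam, ← Real.exp_nat_mul, ← Real.exp_neg,
        one_mul, Real.norm_of_nonneg (Real.exp_pos _).le]
      refine le_of_eq ?_
      congr 1
      simp only [UpperHalfPlane.coe_im]
      ring
    refine h2.trans_tendsto ?_
    have h3 : (fun z : ℍ ↦ Real.exp (-2 * Real.pi * z.im) * Real.exp (2 * Real.pi * n * z.im / N)) =
        fun z : ℍ ↦ Real.exp (-(2 * Real.pi * (1 - n / N)) * z.im) := by
      ext z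
      rw [← Real.exp_add]
      congr 1
      field_simp
      ring
    rw [h3]
    refine Real.tendsto_exp_atBot.comp ?_
    have h4 : Tendsto (fun τ : ℍ ↦ τ.im) atImInfty atTop := tendsto_comap
    refine h4.const_mul_atTop_of_neg ?_
    have h5 : (n : ℝ) / N < 1 := (div_lt_one hN').mpr hn'
    have h6 := Real.pi_pos
    have : 0 < 1 - (n : ℝ) / N := by linarith
    have := mul_pos (mul_pos two_pos h6) this
    linarith
  have h2 := h1.mul_const ((N : ℂ)⁻¹ *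
    ∑ m ∈ Finset.range N, (zeta N)⁻¹ ^ (n * m) * if (π ^ m) x = y then 1 else 0)
  rw [zero_mul] at h2
  simpa [mul_assoc, Finset.mul_sum] using h2

/-- The matrix of a family of vector valued functions at `z`. -/
def mat (F : X → X → ℍ → ℂ) (z : ℍ) : Matrix X X ℂ := Matrix.of fun x j ↦ F j x z

/-- The matrix of leading vectors. -/
def leadMat (N : ℕ) (F : X → X → ℍ → ℂ) : Matrix X X ℂ := Matrix.of fun x j ↦ lead N (F j) x

lemma tendsto_Q_mul_mat {F : X → X → ℍ → ℂ} (hF : ∀ j, IsTVec π (F j)) (hN : 0 < N)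
    (hπ : π ^ N = 1) :
    Tendsto (fun z : ℍ ↦ Q π N z * mat F z) atImInfty (𝓝 (leadMat N F)) := by
  refine tendsto_pi_nhds.mpr fun x ↦ tendsto_pi_nhds.mpr fun j ↦ ?_
  exact (hF j).tendsto_Q_mulVec hN hπ x

lemma eventually_det_ne {F : X → X → ℍ → ℂ} (hF : ∀ j, IsTVec π (F j)) (hN : 0 < N)
    (hπ : π ^ N = 1) (hL : (leadMat N F).det ≠ 0) :
    ∀ᶠ z in atImInfty, (Q π N z * mat F z).det ≠ 0 := by
  have h1 := ((continuous_id (X := Matrix X X ℂ)).matrix_det.tendsto (leadMat N F)).comp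
    (tendsto_Q_mul_mat hF hN hπ)
  exact h1.eventually_ne hL

/-- (c'), first part: if the leading matrix is invertible, `mat F z` is eventually invertible. -/
theorem eventually_mat_det_ne {F : X → X → ℍ → ℂ} (hF : ∀ j, IsTVec π (F j)) (hN : 0 < N)
    (hπ : π ^ N = 1) (hL : (leadMat N F).det ≠ 0) :
    ∀ᶠ z in atImInfty, (mat F z).det ≠ 0 := by
  filter_upwards [eventually_det_ne hF hN hπ hL] with z hz h0
  rw [Matrix.det_mul, h0, mul_zero] at hz
  exact hz rfl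

/-- (c'): if the leading matrix is invertible and `D = O(q)` then `D(z) F(z)⁻¹ → 0`. -/
theorem tendsto_mul_mat_inv {F : X → X → ℍ → ℂ} (hF : ∀ j, IsTVec π (F j)) (hN : 0 < N)
    (hπ : π ^ N = 1) (hL : (leadMat N F).det ≠ 0) (D : ℍ → ℂ)
    (hD : D =O[atImInfty] fun z ↦ Real.exp (-2 * Real.pi * z.im)) (j x : X) :
    Tendsto (fun z : ℍ ↦ D z * (mat F z)⁻¹ j x) atImInfty (𝓝 0) := by
  have h1 : Tendsto (fun z : ℍ ↦ (Q π N z * mat F z)⁻¹) atImInfty (𝓝 (leadMat N F)⁻¹) := by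
    simp only [Matrix.inv_def, Ring.inverse_eq_inv']
    refine Tendsto.smul ?_ ?_
    · exact (((continuous_id (X := Matrix X X ℂ)).matrix_det.tendsto (leadMat N F)).comp
        (tendsto_Q_mul_mat hF hN hπ)).inv₀ hL
    · exact ((continuous_id (X := Matrix X X ℂ)).matrix_adjugate.tendsto (leadMat N F)).comp
        (tendsto_Q_mul_mat hF hN hπ)
  have h2 : Tendsto (fun z : ℍ ↦ D z • Q π N z) atImInfty (𝓝 (0 : Matrix X X ℂ)) := by
    refine tendsto_pi_nhds.mpr fun x ↦ tendsto_pi_nhds.mpr fun y ↦ ?_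
    exact tendsto_mul_Q hN D hD x y
  have h3 : Tendsto (fun z : ℍ ↦ (Q π N z * mat F z)⁻¹ * (D z • Q π N z)) atImInfty
      (𝓝 ((leadMat N F)⁻¹ * 0)) := h1.mul h2
  rw [mul_zero] at h3
  have h4 := (tendsto_pi_nhds.mp ((tendsto_pi_nhds.mp h3) j)) x
  refine h4.congr' ?_
  filter_upwards [eventually_det_ne hF hN hπ hL] with z hz
  have h5 : (mat F z)⁻¹ = (Q π N z * mat F z)⁻¹ * Q π N z := by
    apply Matrix.inv_eq_left_inv
    rw [mul_assoc, Matrix.nonsing_inv_mul _ (isUnit_iff_ne_zero.mpr hz)]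
  rw [h5, Matrix.mul_smul, Matrix.smul_apply, smul_eq_mul]

end Q

section algebra

variable {G : X → ℍ → ℂ}

lemma IsTVec.add (hF : IsTVec π F) (hG : IsTVec π G) : IsTVec π (F + G) where
  holo x := (hF.holo x).add (hG.holo x)
  bdd x := by
    have h1 : (F x) =O[atImInfty] (1 : ℍ → ℝ) := hF.bdd x
    have h2 : (G x) =O[atImInfty] (1 : ℍ → ℝ) := hG.bdd x
    exact h1.add h2
  shift x z := by simp [hF.shift, hG.shift]

lemma IsTVec.zero : IsTVec π (0 : X → ℍ → ℂ) where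
  holo x := mdifferentiable_const
  bdd x := by
    have : (0 : ℍ → ℂ) =O[atImInfty] (1 : ℍ → ℝ) := Asymptotics.isBigO_zero _ _
    exact this
  shift x z := by simp

lemma IsTVec.mul {g : ℍ → ℂ} (hg : MDiff g) (hgb : IsBoundedAtImInfty g)
    (hgT : ∀ z : ℍ, g ((1 : ℝ) +ᵥ z) = g z) (hF : IsTVec π F) :
    IsTVec π (fun x z ↦ g z * F x z) where
  holo x := hg.mul (hF.holo x)
  bdd x := by
    have h1 : g =O[atImInfty] (1 : ℍ → ℝ) := hgb
    have h2 : (F x) =O[atImInfty] (1 : ℍ → ℝ) := hF.bdd x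
    have h3 := h1.mul h2
    have h4 : (fun x : ℍ ↦ (1 : ℍ → ℝ) x * (1 : ℍ → ℝ) x) = (1 : ℍ → ℝ) := by
      ext; simp
    rw [h4] at h3
    exact h3
  shift x z := by simp [hF.shift, hgT]

lemma IsTVec.smul (c : ℂ) (hF : IsTVec π F) : IsTVec π (c • F) :=
  IsTVec.mul (g := fun _ ↦ c) mdifferentiable_const
    (Asymptotics.isBigO_const_const c one_ne_zero _) (fun _ ↦ rfl) hF

lemma IsTVec.sum {ι : Type*} (s : Finset ι) {F : ι → X → ℍ → ℂ}
    (hF : ∀ i ∈ s, IsTVec π (F i)) : IsTVec π (∑ i ∈ s, F i) := by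
  classical
  induction s using Finset.induction_on with
  | empty => simpa using IsTVec.zero
  | insert a s ha ih =>
    rw [Finset.sum_insert ha]
    exact (hF a (Finset.mem_insert_self _ _)).add
      (ih fun i hi ↦ hF i (Finset.mem_insert_of_mem hi))

lemma proj_add (n : ℕ) (v w : X → ℂ) (x : X) :
    proj π N n (v + w) x = proj π N n v x + proj π N n w x := by
  simp [proj, mul_add, Finset.sum_add_distrib]

lemma proj_smul (n : ℕ) (c : ℂ) (v : X → ℂ) (x : X) :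
    proj π N n (c • v) x = c * proj π N n v x := by
  simp only [proj, Pi.smul_apply, smul_eq_mul, Finset.mul_sum]
  exact Finset.sum_congr rfl fun m _ ↦ by ring

/-- `lead` is additive. -/
lemma lead_add (hF : IsTVec π F) (hG : IsTVec π G) (hN : 0 < N) (hπ : π ^ N = 1) :
    lead N (F + G) = lead N F + lead N G := by
  ext x
  refine tendsto_nhds_unique ((hF.add hG).tendsto_lead_aux hN hπ x) ?_
  refine ((hF.tendsto_lead_aux hN hπ x).add (hG.tendsto_lead_aux hN hπ x)).congr fun z ↦ ?_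
  rw [← Finset.sum_add_distrib]
  refine Finset.sum_congr rfl fun n _ ↦ ?_
  rw [← mul_add, ← proj_add]
  rfl

/-- (b): `lead (g F) = g(∞) lead F`. -/
lemma lead_mul {g : ℍ → ℂ} {a : ℂ} (hg : MDiff g) (hga : Tendsto g atImInfty (𝓝 a))
    (hgT : ∀ z : ℍ, g ((1 : ℝ) +ᵥ z) = g z) (hF : IsTVec π F) (hN : 0 < N) (hπ : π ^ N = 1) :
    lead N (fun x z ↦ g z * F x z) = a • lead N F := by
  ext x
  refine tendsto_nhds_unique
    ((IsTVec.mul hg (hga.isBigO_one ℝ) hgT hF).tendsto_lead_aux hN hπ x) ?_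
  refine (hga.mul (hF.tendsto_lead_aux hN hπ x)).congr fun z ↦ ?_
  rw [Finset.mul_sum]
  refine Finset.sum_congr rfl fun n _ ↦ ?_
  have : proj π N n (fun y ↦ g z * F y z) x = g z * proj π N n (fun y ↦ F y z) x :=
    proj_smul n (g z) (fun y ↦ F y z) x
  rw [this]
  ring

lemma lead_smul (c : ℂ) (hF : IsTVec π F) (hN : 0 < N) (hπ : π ^ N = 1) :
    lead N (c • F) = c • lead N F :=
  lead_mul (g := fun _ ↦ c) mdifferentiable_const tendsto_const_nhds (fun _ ↦ rfl) hF hN hπ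

lemma lead_zero (hN : 0 < N) (hπ : π ^ N = 1) : lead N (0 : X → ℍ → ℂ) = 0 := by
  have := lead_smul (π := π) (N := N) 0 (IsTVec.zero (X := X)) hN hπ
  simpa using this

lemma lead_sum {ι : Type*} (s : Finset ι) {F : ι → X → ℍ → ℂ}
    (hF : ∀ i ∈ s, IsTVec π (F i)) (hN : 0 < N) (hπ : π ^ N = 1) :
    lead N (∑ i ∈ s, F i) = ∑ i ∈ s, lead N (F i) := by
  classical
  induction s using Finset.induction_on with
  | empty => simpa using lead_zero hN hπ
  | insert a s ha ih =>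
    rw [Finset.sum_insert ha, Finset.sum_insert ha,
      lead_add (hF a (Finset.mem_insert_self _ _))
        (IsTVec.sum s fun i hi ↦ hF i (Finset.mem_insert_of_mem hi)) hN hπ,
      ih fun i hi ↦ hF i (Finset.mem_insert_of_mem hi)]

end algebra

end

end Fermat.Agent.GenusInf
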