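import Mathlib
import Fermat.Agent.Genus.Conv

/-!
# Serre derivative and the Wronskian-type determinant
-/

set_option autoImplicit false

open UpperHalfPlane ModularForm MatrixGroups Complex Filter EisensteinSeries
open scoped Manifold Topology Derivative

noncomputable section

namespace Fermat.Agent.Genus

/-! ### Derivative of bounded functions -/

theorem isBoundedAtImInfty_D (f : ℍ → ℂ) (hf : MDiff f) (hb : IsBoundedAtImInfty f) :
    IsBoundedAtImInfty (Derivative.normalizedDerivOfComplex f) := by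
  rw [isBoundedAtImInfty_iff] at hb ⊢
  obtain ⟨M, A, hMA⟩ := hb
  refine ⟨‖(2 * Real.pi * Complex.I)⁻¹‖ * (M / 1), max A 0 + 2, fun z hz => ?_⟩
  have hA : max A 0 + 2 ≤ z.im := hz
  rw [Derivative.normalizedDerivOfComplex, norm_mul]
  refine mul_le_mul_of_nonneg_left ?_ (norm_nonneg _)
  have him : ∀ w ∈ Metric.closedBall (z : ℂ) 1, max A 0 + 1 ≤ w.im := by
    intro w hw
    have h1 : |(w - z).im| ≤ 1 := by
      refine (Complex.abs_im_le_norm _).trans ?_
      rw [← dist_eq_norm]
      exact hw
    have h2 := (abs_le.mp h1).1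
    have h3 : (w - z).im = w.im - z.im := by simp
    rw [h3] at h2
    linarith
  have hpos : ∀ w ∈ Metric.closedBall (z : ℂ) 1, 0 < w.im := fun w hw => by
    have := him w hw
    have h0 := le_max_right A 0
    linarith
  have hdiff := UpperHalfPlane.mdifferentiable_iff.mp hf
  apply Complex.norm_deriv_le_of_forall_mem_sphere_norm_le one_pos
  · refine DifferentiableOn.diffContOnCl ?_
    rw [closure_ball _ one_ne_zero]
    exact hdiff.mono fun w hw => hpos w hw
  · intro w hw
    have hw' := Metric.sphere_subset_closedBall hw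
    rw [Function.comp_apply, ofComplex_apply_of_im_pos (hpos w hw')]
    apply hMA
    have := him w hw'
    have h0 := le_max_left A 0
    change A ≤ w.im
    linarith

section serre

variable {X : Type} [MulAction SL(2, ℤ) X]

/-- The Serre derivative preserves vector valued forms, raising the weight by `2`. -/
theorem MF_serre (k : ℤ) (F : X → ℍ → ℂ) (hF : F ∈ MF X k) :
    (fun x => Derivative.serreDerivative k (F x)) ∈ MF X (k + 2) := by
  refine ⟨fun x => Derivative.serreDerivative_mdifferentiable k (hF.1 x), fun x g => ?_,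
    fun x => ?_⟩
  · rw [Derivative.serreDerivative_slash_equivariant (hF.1 x), hF.2.1]
  · have h1 := isBoundedAtImInfty_D (F x) (hF.1 x) (hF.2.2 x)
    have h2 : IsBoundedAtImInfty (fun z => ((k : ℂ) * 12⁻¹) • (EisensteinSeries.E2 z * F x z)) :=
      (boundedAtImInftySubalgebra ℂ).smul_mem
        ((EisensteinSeries.isBoundedAtImInfty_E2).mul (hF.2.2 x)) _
    have h3 := h1.sub h2
    refine h3.congr_left fun z => ?_
    simp [Derivative.serreDerivative, mul_assoc]

end serre

/-! ### Derivative of a determinant -/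

section det

variable {n : Type} [Fintype n] [DecidableEq n]

theorem hasDerivAt_det {A : ℂ → Matrix n n ℂ} {A' : Matrix n n ℂ} {z : ℂ}
    (h : ∀ i j, HasDerivAt (fun w => A w i j) (A' i j) z) :
    HasDerivAt (fun w => (A w).det) (∑ j, ((A z).updateCol j (fun i => A' i j)).det) z := by
  have h1 : (fun w => (A w).det) =
      fun w => ∑ σ : Equiv.Perm n, ((Equiv.Perm.sign σ : ℤ) : ℂ) * ∏ i, A w (σ i) i := by
    funext w
    rw [Matrix.det_apply']
  have h2 : (∑ j, ((A z).updateCol j (fun i => A' i j)).det) =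
      ∑ σ : Equiv.Perm n, ((Equiv.Perm.sign σ : ℤ) : ℂ) *
        ∑ j, (∏ i ∈ Finset.univ.erase j, A z (σ i) i) • A' (σ j) j := by
    simp_rw [Matrix.det_apply', Finset.mul_sum]
    rw [Finset.sum_comm]
    refine Finset.sum_congr rfl fun σ _ => Finset.sum_congr rfl fun j _ => ?_
    congr 1
    rw [← Finset.mul_prod_erase Finset.univ _ (Finset.mem_univ j), Matrix.updateCol_self,
      smul_eq_mul, mul_comm]
    congr 1
    refine Finset.prod_congr rfl fun i hi => ?_
    rw [Matrix.updateCol_ne (Finset.ne_of_mem_erase hi)]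
  rw [h1, h2]
  refine HasDerivAt.fun_sum fun σ _ => ?_
  exact (HasDerivAt.fun_finsetProd fun i _ => h (σ i) i).const_mul _

/-- Liouville's formula. -/
theorem hasDerivAt_det_mul {A : ℂ → Matrix n n ℂ} {B : Matrix n n ℂ} {z : ℂ}
    (h : ∀ i j, HasDerivAt (fun w => A w i j) ((A z * B) i j) z) :
    HasDerivAt (fun w => (A w).det) (B.trace * (A z).det) z := by
  have := hasDerivAt_det h
  convert! this using 1
  rw [Matrix.trace, Finset.sum_mul]
  refine Finset.sum_congr rfl fun j _ => ?_
  have h1 : (fun i => (A z * B) i j) = (A z).mulVec (fun i => B i j) := by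
    funext i
    rfl
  rw [← Matrix.cramer_apply, h1, Matrix.cramer_eq_adjugate_mulVec, Matrix.mulVec_mulVec,
    Matrix.adjugate_mul, Matrix.smul_mulVec, Matrix.one_mulVec]
  simp [mul_comm]

end det

/-! ### Derivative of `Δ` -/

theorem hasDerivAt_dl (z : ℍ) :
    HasDerivAt (dl ∘ ofComplex) (2 * Real.pi * Complex.I * E2 z * dl z) z := by
  have h1 : HasDerivAt ModularForm.eta (deriv ModularForm.eta z) z :=
    (differentiableAt_eta_of_mem_upperHalfPlaneSet z.2).hasDerivAt
  have h2 : deriv ModularForm.eta z =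
      (Real.pi * Complex.I / 12) * E2 z * ModularForm.eta z := by
    have := logDeriv_eta_eq_E2 z
    rw [logDeriv_apply, div_eq_iff (eta_ne_zero z.2)] at this
    exact this
  have h3 := h1.pow 24
  have h4 : (dl ∘ ofComplex) =ᶠ[𝓝 (z : ℂ)] fun w => ModularForm.eta w ^ 24 := by
    filter_upwards [isOpen_upperHalfPlaneSet.mem_nhds z.im_pos] with w hw
    rw [Function.comp_apply, ofComplex_apply_of_im_pos hw]
    rfl
  refine (h3.congr_of_eventuallyEq h4).congr_deriv ?_
  rw [h2]
  have : dl z = ModularForm.eta z ^ 24 := rfl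
  rw [this]
  push_cast
  ring

section wronskian

variable {X : Type} [Fintype X] [DecidableEq X] [MulAction SL(2, ℤ) X]

/-- The fundamental matrix. -/
def fmat (f : X → (X → ℍ → ℂ)) (z : ℍ) : Matrix X X ℂ := Matrix.of fun x j => f j x z

omit [DecidableEq X] in
theorem HomBasis.wt_nonneg {ι : Type} {wt : ι → ℤ} {f : ι → (X → ℍ → ℂ)}
    (hb : HomBasis LF (MF X) ι wt f) (j : ι) : 0 ≤ wt j := by
  classical
  by_contra hneg
  push Not at hneg
  have h0 : f j = 0 := MF_neg _ hneg _ (hb.mem j)
  have := hb.indep (wt j) (Finsupp.single j 1) (fun i => by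
    by_cases hij : j = i
    · subst hij
      simpa using one_mem_LF
    · rw [Finsupp.single_eq_of_ne (Ne.symm hij)]
      exact zero_mem _) (by simp [h0])
  simp at this

/-- The logarithmic derivative of the determinant of a homogeneous basis. -/
theorem hasDerivAt_fmat_det {wt : X → ℤ} {f : X → (X → ℍ → ℂ)}
    (hb : HomBasis LF (MF X) X wt f) (z : ℍ) :
    HasDerivAt (fun w => (fmat f (ofComplex w)).det)
      ((2 * Real.pi * Complex.I * (((∑ j, wt j : ℤ) : ℂ) / 12) * E2 z) * (fmat f z).det) z := by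
  have h1 : ∀ j, ∃ r : X →₀ (ℍ → ℂ), (∀ i, r i ∈ LF (wt j + 2 - wt i)) ∧
      Finsupp.linearCombination (ℍ → ℂ) f r =
        fun x => Derivative.serreDerivative (wt j) (f j x) := fun j =>
    hb.gen _ _ (MF_serre _ _ (hb.mem j))
  choose r hr hr' using h1
  have hrr : ∀ j, r j j = 0 := fun j => by
    have := hr j j
    rw [show wt j + 2 - wt j = 2 by ring] at this
    exact LF_two _ this
  let B : Matrix X X ℂ := Matrix.of fun i j =>
    2 * Real.pi * Complex.I * (r j i z + if i = j then (wt j : ℂ) * 12⁻¹ * E2 z else 0)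
  have hB : B.trace = 2 * Real.pi * Complex.I * (((∑ j, wt j : ℤ) : ℂ) / 12) * E2 z := by
    simp only [Matrix.trace, Matrix.diag_apply, B, Matrix.of_apply, if_true, hrr, Pi.zero_apply,
      zero_add]
    rw [← Finset.mul_sum, mul_assoc (2 * Real.pi * Complex.I : ℂ)]
    congr 1
    push_cast
    rw [Finset.sum_div, Finset.sum_mul]
    refine Finset.sum_congr rfl fun j _ => ?_
    rw [div_eq_mul_inv]
  have hz : ofComplex (z : ℂ) = z := ofComplex_apply z
  have key : ∀ x j, HasDerivAt (fun w => fmat f (ofComplex w) x j)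
      ((fmat f (ofComplex (z : ℂ)) * B) x j) z := by
    intro x j
    have hd : DifferentiableAt ℂ (f j x ∘ ofComplex) z :=
      UpperHalfPlane.mdifferentiableAt_iff.mp ((hb.mem j).1 x z)
    refine (hd.hasDerivAt).congr_deriv ?_
    have e1 : Derivative.serreDerivative (wt j) (f j x) z = ∑ i, r j i z * f i x z := by
      have := congrFun (congrFun (hr' j) x) z
      rw [← this, Finsupp.linearCombination_apply, Finsupp.sum_fintype _ _ (by simp)]
      simp [Finset.sum_apply]
    rw [Derivative.serreDerivative_apply, Derivative.normalizedDerivOfComplex] at e1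
    have hpi : (2 * Real.pi * Complex.I : ℂ) ≠ 0 := by
      simp [Real.pi_ne_zero]
    have e2 : deriv (f j x ∘ ofComplex) z = 2 * Real.pi * Complex.I *
        (∑ i, r j i z * f i x z + (wt j : ℂ) * 12⁻¹ * E2 z * f j x z) := by
      rw [← e1]
      field_simp
      ring
    rw [e2, hz, Matrix.mul_apply]
    simp only [fmat, Matrix.of_apply, B]
    rw [mul_add, Finset.mul_sum]
    have e3 : ∀ i, f i x z * (2 * Real.pi * Complex.I * (r j i z +
        if i = j then (wt j : ℂ) * 12⁻¹ * E2 z else 0)) =
        2 * Real.pi * Complex.I * (r j i z * f i x z) +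
        if i = j then 2 * Real.pi * Complex.I * ((wt j : ℂ) * 12⁻¹ * E2 z * f j x z) else 0 := by
      intro i
      split_ifs with hij
      · subst hij; ring
      · ring
    simp_rw [e3]
    rw [Finset.sum_add_distrib, Finset.sum_ite_eq' Finset.univ j]
    simp
  have := hasDerivAt_det_mul key
  rwa [hB, hz] at this

/-- The determinant of a homogeneous basis either vanishes identically or has no zero. -/
theorem fmat_det_ne_zero {wt : X → ℤ} {f : X → (X → ℍ → ℂ)}
    (hb : HomBasis LF (MF X) X wt f) (z0 : ℍ) (hz0 : (fmat f z0).det ≠ 0) (z : ℍ) :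
    (fmat f z).det ≠ 0 := by
  obtain ⟨w, hw⟩ : ∃ w : ℕ, (w : ℤ) = ∑ j, wt j :=
    ⟨(∑ j, wt j).toNat, Int.toNat_of_nonneg (Finset.sum_nonneg fun j _ => hb.wt_nonneg j)⟩
  let W : ℂ → ℂ := fun u => (fmat f (ofComplex u)).det
  let d : ℂ → ℂ := dl ∘ ofComplex
  have hd0 : ∀ u, d u ≠ 0 := fun u => dl_ne_zero _
  -- the quotient `W ^ 12 / Δ ^ w` is constant
  have hW : ∀ u : ℍ, HasDerivAt W
      ((2 * Real.pi * Complex.I * ((w : ℂ) / 12) * E2 u) * W u) u := fun u => by
    have := hasDerivAt_fmat_det hb u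
    rw [← hw, Int.cast_natCast] at this
    have hu : ofComplex (u : ℂ) = u := ofComplex_apply u
    simp only [W, hu]
    exact this
  have hd : ∀ u : ℍ, HasDerivAt d (2 * Real.pi * Complex.I * E2 u * d u) u := fun u => by
    have := hasDerivAt_dl u
    have hu : d (u : ℂ) = dl u := by simp [d]
    rw [hu]
    exact this
  have hq : ∀ u : ℍ, HasDerivAt (fun v => W v ^ 12 / d v ^ w) 0 u := by
    intro u
    refine (((hW u).pow 12).div ((hd u).pow w) (pow_ne_zero _ (hd0 _))).congr_deriv ?_
    rw [div_eq_zero_iff]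
    left
    rcases Nat.eq_zero_or_pos w with h0 | h0
    · rw [h0]; simp
    · obtain ⟨m, rfl⟩ : ∃ m, w = m + 1 := ⟨w - 1, by omega⟩
      rw [show (12 - 1 : ℕ) = 11 from rfl, show (m + 1 - 1 : ℕ) = m from rfl]
      simp only [Pi.pow_apply]
      push_cast
      ring
  have hconst : ∀ u v : ℍ, W u ^ 12 / d u ^ w = W v ^ 12 / d v ^ w := by
    intro u v
    refine isOpen_upperHalfPlaneSet.is_const_of_deriv_eq_zero
      (f := fun v => W v ^ 12 / d v ^ w)
      (Convex.isPreconnected (convex_halfSpace_im_gt 0)) ?_ ?_ u.2 v.2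
    · intro x hx
      exact (hq ⟨x, hx⟩).differentiableAt.differentiableWithinAt
    · intro x hx
      exact (hq ⟨x, hx⟩).deriv
  intro h
  have h1 := hconst z z0
  have hWz : W z = 0 := by
    simp only [W, ofComplex_apply]
    exact h
  rw [hWz] at h1
  simp only [ne_eq, OfNat.ofNat_ne_zero, not_false_eq_true, zero_pow, zero_div] at h1
  have h2 := (div_eq_zero_iff.mp h1.symm).resolve_right (pow_ne_zero _ (hd0 _))
  have h3 : W z0 = 0 := pow_eq_zero_iff (by norm_num) |>.mp h2
  apply hz0
  simpa only [W, ofComplex_apply] using h3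

end wronskian

end Fermat.Agent.Genus
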