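import Mathlib
import Fermat.Agent.Genus.Serre
import Fermat.Agent.Genus.Infinity

/-!
# Structure of vector valued forms: finite homogeneous basis and the dual basis of cusp forms
-/

set_option autoImplicit false

open UpperHalfPlane ModularForm MatrixGroups Complex Filter EisensteinSeries
open scoped Manifold Topology Derivative

noncomputable section

namespace Fermat.Agent.Genus

open Fermat.Agent.GenusInf

section general

variable (X : Type) [MulAction SL(2, ℤ) X]

/-- The permutation `x ↦ T⁻¹ • x`. -/
def piT : Equiv.Perm X := MulAction.toPerm (ModularGroup.T⁻¹ : SL(2, ℤ))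

variable {X}

@[simp] theorem piT_apply (x : X) : piT X x = (ModularGroup.T⁻¹ : SL(2, ℤ)) • x := rfl

theorem MF_isTVec {k : ℤ} {F : X → ℍ → ℂ} (hF : F ∈ MF X k) : IsTVec (piT X) F where
  holo := hF.1
  bdd := hF.2.2
  shift x z := by
    have h := congrFun (hF.2.1 x ModularGroup.T) z
    rw [ModularForm.SL_slash_apply, UpperHalfPlane.modular_T_smul] at h
    have h4 : denom (ModularGroup.T : GL (Fin 2) ℝ) z = 1 := by
      simp [denom, ModularGroup.T]
    rw [h4] at h
    simp only [one_zpow, mul_one] at h
    rw [piT_apply, ← h]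

variable [Finite X]

theorem ordT_pos : 0 < orderOf (piT X) := by
  have := Fintype.ofFinite X
  classical
  exact orderOf_pos _

/-- The vector of leading coefficients at infinity. -/
def lead0 (F : X → ℍ → ℂ) : X → ℂ := lead (orderOf (piT X)) F

theorem lead0_smul {j k : ℤ} {r : ℍ → ℂ} (hr : r ∈ LF j) {F : X → ℍ → ℂ} (hF : F ∈ MF X k)
    {a : ℂ} (ha : Tendsto r atImInfty (𝓝 a)) : lead0 (r • F) = a • lead0 F := by
  have hT : ∀ z : ℍ, r ((1 : ℝ) +ᵥ z) = r z := fun z => by
    have h := congrFun (hr.2.1 ModularGroup.T) z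
    rw [ModularForm.SL_slash_apply, UpperHalfPlane.modular_T_smul] at h
    have h4 : denom (ModularGroup.T : GL (Fin 2) ℝ) z = 1 := by
      simp [denom, ModularGroup.T]
    rw [h4] at h
    simpa using h
  exact lead_mul hr.1 ha hT (MF_isTVec hF) ordT_pos (pow_orderOf_eq_one _)

omit [Finite X] in
theorem wt_even (h1 : ∀ x : X, (-1 : SL(2, ℤ)) • x = x) {k : ℤ} {F : X → ℍ → ℂ}
    (hF : F ∈ MF X k) (h0 : F ≠ 0) : Even k := by
  by_contra h
  exact h0 (MF_odd h1 k (Int.not_even_iff_odd.mp h) F hF)

omit [Finite X] in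
theorem HomBasis.ne_zero {ι : Type} {wt : ι → ℤ} {f : ι → (X → ℍ → ℂ)}
    (hb : HomBasis LF (MF X) ι wt f) (j : ι) : f j ≠ 0 := by
  classical
  intro h0
  have := hb.indep (wt j) (Finsupp.single j 1) (fun i => by
    by_cases hij : j = i
    · subst hij
      simpa using one_mem_LF
    · rw [Finsupp.single_eq_of_ne (Ne.symm hij)]
      exact zero_mem _) (by simp [h0])
  simp at this

/-- The leading vectors of a homogeneous basis are linearly independent. -/
theorem lead0_linearIndependent (h1 : ∀ x : X, (-1 : SL(2, ℤ)) • x = x)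
    {ι : Type} {wt : ι → ℤ} {f : ι → (X → ℍ → ℂ)} (hb : HomBasis LF (MF X) ι wt f) :
    LinearIndependent ℂ (fun i => lead0 (f i)) := by
  classical
  rw [linearIndependent_iff']
  intro s c hc
  -- a large even weight
  obtain ⟨K, hKe, hK⟩ : ∃ K : ℤ, Even K ∧ ∀ i ∈ s, wt i + 4 ≤ K := by
    refine ⟨2 * (∑ i ∈ s, |wt i| + 4), even_two_mul _, fun i hi => ?_⟩
    have h1 : |wt i| ≤ ∑ i ∈ s, |wt i| :=
      Finset.single_le_sum (f := fun i => |wt i|) (fun j _ => abs_nonneg _) hi
    have h2 := le_abs_self (wt i)
    have h3 := abs_nonneg (wt i)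
    linarith
  have hex : ∀ i, ∃ r : ℍ → ℂ, r ∈ LF (K - wt i) ∧ (i ∈ s → Tendsto r atImInfty (𝓝 1)) := by
    intro i
    by_cases hi : i ∈ s
    · obtain ⟨m, hm, hm1, -⟩ := exists_mono (K - wt i) (by have := hK i hi; linarith)
        (hKe.sub (wt_even h1 (hb.mem i) (hb.ne_zero i)))
      exact ⟨m, hm, fun _ => hm1⟩
    · exact ⟨0, zero_mem _, fun h => absurd h hi⟩
  choose r hr hr1 using hex
  let F : X → ℍ → ℂ := ∑ i ∈ s, c i • (r i • f i)
  have hmem : ∀ i, r i • f i ∈ MF X K := fun i => by
    have := MF_smul _ _ _ (hr i) _ (hb.mem i)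
    rwa [sub_add_cancel] at this
  have hFK : F ∈ MF X K := Submodule.sum_mem _ fun i _ => (MF X K).smul_mem _ (hmem i)
  have hlead : lead0 F = 0 := by
    rw [← hc]
    simp only [F, lead0]
    rw [lead_sum s (fun i _ => MF_isTVec ((MF X K).smul_mem _ (hmem i))) ordT_pos
      (pow_orderOf_eq_one _)]
    refine Finset.sum_congr rfl fun i hi => ?_
    rw [lead_smul _ (MF_isTVec (hmem i)) ordT_pos (pow_orderOf_eq_one _)]
    congr 1
    have := lead0_smul (hr i) (hb.mem i) (hr1 i hi)
    rw [one_smul] at this
    exact this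
  have hO := IsTVec.isBigO_of_lead_eq_zero (MF_isTVec hFK) ordT_pos (pow_orderOf_eq_one _) hlead
  obtain ⟨G, hG, hFG⟩ := MF_div K F hFK hO
  obtain ⟨t, ht, ht'⟩ := hb.gen _ G hG
  -- compare coefficients
  let u : ι →₀ (ℍ → ℂ) := Finsupp.onFinset s (fun i => if i ∈ s then c i • r i else 0)
    (fun i hi => by
      by_contra h
      simp [h] at hi)
  have hu : Finsupp.linearCombination (ℍ → ℂ) f u = F := by
    rw [Finsupp.linearCombination_apply, Finsupp.onFinset_sum _ (by simp)]
    refine Finset.sum_congr rfl fun i hi => ?_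
    rw [if_pos hi, smul_assoc]
  have hzero : u - dl • t = 0 := by
    apply hb.indep K
    · intro i
      simp only [Finsupp.sub_apply, Finsupp.smul_apply, smul_eq_mul]
      refine sub_mem ?_ ?_
      · simp only [u, Finsupp.onFinset_apply]
        split_ifs
        · exact (LF _).smul_mem _ (hr i)
        · exact zero_mem _
      · have := LF_mul _ _ _ dl_mem _ (ht i)
        rwa [show (12 : ℤ) + (K - 12 - wt i) = K - wt i by ring] at this
    · rw [map_sub, map_smul, hu, ht', hFG, sub_self]
  intro i hi
  have h2 : c i • r i = dl * t i := by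
    have := DFunLike.congr_fun hzero i
    simp only [Finsupp.sub_apply, Finsupp.smul_apply, smul_eq_mul, u, Finsupp.onFinset_apply,
      if_pos hi, Finsupp.zero_apply] at this
    exact sub_eq_zero.mp this
  have h3 : Tendsto (c i • r i) atImInfty (𝓝 (c i * 1)) := (hr1 i hi).const_smul (c i)
  have h4 : Tendsto (dl * t i) atImInfty (𝓝 (0 * valueAtInfty (t i))) :=
    dl_tendsto.mul (LF_tendsto _ _ (ht i))
  rw [h2] at h3
  have := tendsto_nhds_unique h3 h4
  simpa using this

end general

section finite

variable {X : Type} [Fintype X] [DecidableEq X] [MulAction SL(2, ℤ) X]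

omit [Fintype X] [DecidableEq X] in
/-- transport of a homogeneous basis along an equivalence of index types. -/
theorem HomBasis.reindex {ι κ : Type} {wt : ι → ℤ} {f : ι → (X → ℍ → ℂ)}
    (hb : HomBasis LF (MF X) ι wt f) (e : κ ≃ ι) :
    HomBasis LF (MF X) κ (fun i => wt (e i)) (fun i => f (e i)) where
  mem i := hb.mem (e i)
  gen k F hF := by
    obtain ⟨r, hr, hr'⟩ := hb.gen k F hF
    refine ⟨r.mapDomain e.symm, fun i => ?_, ?_⟩
    · rw [← e.symm_apply_apply i, Finsupp.mapDomain_apply e.symm.injective]
      simpa using hr (e i)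
    · rw [Finsupp.linearCombination_mapDomain]
      have : (fun i => f (e i)) ∘ e.symm = f := by
        funext i
        simp
      rw [this]
      exact hr'
  indep k r hr h := by
    have h2 := hb.indep k (r.mapDomain e) (fun i => by
      rw [← e.apply_symm_apply i, Finsupp.mapDomain_apply e.injective]
      exact hr (e.symm i)) (by
        rw [Finsupp.linearCombination_mapDomain]
        exact h)
    exact Finsupp.mapDomain_injective e.injective (by rw [h2, Finsupp.mapDomain_zero])

/-- The full rank hypothesis. -/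
def FullRank (X : Type) [Fintype X] [DecidableEq X] [MulAction SL(2, ℤ) X] : Prop :=
  ∃ (z0 : ℍ) (k : ℤ) (g : X → (X → ℍ → ℂ)), (∀ j, g j ∈ MF X k) ∧ (fmat g z0).det ≠ 0

/-- Main structure theorem, part 1: there is a homogeneous basis indexed by `X`, whose
fundamental matrix is invertible everywhere. -/
theorem exists_basis (h1 : ∀ x : X, (-1 : SL(2, ℤ)) • x = x) (hrank : FullRank X) :
    ∃ (wt : X → ℤ) (f : X → (X → ℍ → ℂ)), HomBasis LF (MF X) X wt f ∧
      (∀ z, (fmat f z).det ≠ 0) ∧
      (leadMat (orderOf (piT X)) f).det ≠ 0 := by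
  obtain ⟨ι, wt, f, hb⟩ := exists_homBasis (gsetup X)
  have hli := lead0_linearIndependent h1 hb
  have hfin : Finite ι := hli.finite
  have := Fintype.ofFinite ι
  -- upper bound for the cardinality
  have hcard1 : Fintype.card ι ≤ Fintype.card X := by
    have := hli.fintype_card_le_finrank
    rwa [Module.finrank_fintype_fun_eq_card] at this
  obtain ⟨z0, k, g, hg, hdet⟩ := hrank
  -- the values `f i z0` span
  have hspan : ⊤ ≤ Submodule.span ℂ (Set.range fun i : ι => fun x => f i x z0) := by
    have hginv : IsUnit (fmat g z0) := (Matrix.isUnit_iff_isUnit_det _).mpr (isUnit_iff_ne_zero.mpr hdet)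
    have hgspan : Submodule.span ℂ (Set.range (fmat g z0).col) = ⊤ := by
      have := Matrix.linearIndependent_cols_iff_isUnit.mpr hginv
      exact this.span_eq_top_of_card_eq_finrank' (by
        rw [Module.finrank_fintype_fun_eq_card])
    rw [← hgspan, Submodule.span_le]
    rintro _ ⟨j, rfl⟩
    obtain ⟨r, hr, hr'⟩ := hb.gen k (g j) (hg j)
    have : (fmat g z0).col j = ∑ i, r i z0 • (fun x => f i x z0) := by
      funext x
      have h2 := congrFun (congrFun hr' x) z0
      rw [Finsupp.linearCombination_apply, Finsupp.sum_fintype _ _ (by simp)] at h2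
      simp only [Matrix.col, Matrix.transpose_apply, fmat, Matrix.of_apply, ← h2]
      simp [Finset.sum_apply]
    rw [this]
    exact Submodule.sum_mem _ fun i _ => Submodule.smul_mem _ _
      (Submodule.subset_span ⟨i, rfl⟩)
  have hcard2 : Fintype.card X ≤ Fintype.card ι := by
    have h3 := finrank_range_le_card (R := ℂ) (fun i : ι => fun x => f i x z0)
    rw [Set.finrank, top_le_iff.mp hspan, finrank_top, Module.finrank_fintype_fun_eq_card] at h3
    exact h3
  have hcard : Fintype.card X = Fintype.card ι := le_antisymm hcard2 hcard1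
  let e : X ≃ ι := Fintype.equivOfCardEq hcard
  refine ⟨_, _, hb.reindex e, ?_, ?_⟩
  · intro z
    refine fmat_det_ne_zero (hb.reindex e) z0 ?_ z
    have h4 : LinearIndependent ℂ (fun i : X => fun x => f (e i) x z0) := by
      apply linearIndependent_of_top_le_span_of_card_eq_finrank
      · have : Set.range (fun i : X => fun x => f (e i) x z0) =
            Set.range (fun i : ι => fun x => f i x z0) :=
          (e.surjective.range_comp (fun i : ι => fun x => f i x z0))
        rw [this]
        exact hspan
      · rw [Module.finrank_fintype_fun_eq_card]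
    have h5 : LinearIndependent ℂ (fmat (fun i => f (e i)) z0).col := h4
    have h6 := Matrix.linearIndependent_cols_iff_isUnit.mp h5
    exact isUnit_iff_ne_zero.mp ((Matrix.isUnit_iff_isUnit_det _).mp h6)
  · have h4 : LinearIndependent ℂ (fun i : X => lead0 (f (e i))) :=
      hli.comp e e.injective
    have h5 : LinearIndependent ℂ (leadMat (orderOf (piT X)) (fun i => f (e i))).col := h4
    have h6 := Matrix.linearIndependent_cols_iff_isUnit.mp h5
    exact isUnit_iff_ne_zero.mp ((Matrix.isUnit_iff_isUnit_det _).mp h6)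

end finite

end Fermat.Agent.Genus
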