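import Mathlib
import Fermat.Agent.Genus.Forms

/-!
# Dimensions of level one forms, and of `T`-invariant vectors
-/

set_option autoImplicit false

open UpperHalfPlane ModularForm MatrixGroups Complex Filter EisensteinSeries
open scoped Manifold Topology

noncomputable section

namespace Fermat.Agent.Genus

instance LF_finiteDimensional (k : ℤ) : FiniteDimensional ℂ (LF k) :=
  LinearEquiv.finiteDimensional (LFequiv k).symm

theorem finrank_LF_nat (k : ℕ) (hk : Even k) :
    Module.finrank ℂ (LF (k : ℤ)) = if k % 12 = 2 then k / 12 else k / 12 + 1 := by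
  rw [(LFequiv (k : ℤ)).finrank_eq, Module.finrank, ModularForm.dimension_level_one k hk]
  by_cases h : k % 12 = 2
  · have h' : k ≡ 2 [MOD 12] := by rw [Nat.ModEq, h]
    rw [if_pos h', if_pos h]
    norm_cast
  · have h' : ¬ k ≡ 2 [MOD 12] := by rw [Nat.ModEq]; simpa using h
    rw [if_neg h', if_neg h]
    norm_cast

theorem finrank_LF_neg (k : ℤ) (hk : k < 0) : Module.finrank ℂ (LF k) = 0 := by
  have : Subsingleton (LF k) := ⟨fun a b ↦ by
    apply Subtype.ext
    rw [LF_neg k hk _ a.2, LF_neg k hk _ b.2]⟩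
  exact Module.finrank_zero_of_subsingleton

theorem finrank_LF_odd (k : ℤ) (hk : Odd k) : Module.finrank ℂ (LF k) = 0 := by
  have : Subsingleton (LF k) := ⟨fun a b ↦ by
    apply Subtype.ext
    rw [LF_odd k hk _ a.2, LF_odd k hk _ b.2]⟩
  exact Module.finrank_zero_of_subsingleton

theorem finrank_LF_0 : Module.finrank ℂ (LF 0) = 1 := finrank_LF_nat 0 ⟨0, rfl⟩
theorem finrank_LF_2 : Module.finrank ℂ (LF 2) = 0 := finrank_LF_nat 2 ⟨1, rfl⟩
theorem finrank_LF_4 : Module.finrank ℂ (LF 4) = 1 := finrank_LF_nat 4 ⟨2, rfl⟩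
theorem finrank_LF_6 : Module.finrank ℂ (LF 6) = 1 := finrank_LF_nat 6 ⟨3, rfl⟩
theorem finrank_LF_8 : Module.finrank ℂ (LF 8) = 1 := finrank_LF_nat 8 ⟨4, rfl⟩
theorem finrank_LF_10 : Module.finrank ℂ (LF 10) = 1 := finrank_LF_nat 10 ⟨5, rfl⟩
theorem finrank_LF_12 : Module.finrank ℂ (LF 12) = 2 := finrank_LF_nat 12 ⟨6, rfl⟩
theorem finrank_LF_14 : Module.finrank ℂ (LF 14) = 1 := finrank_LF_nat 14 ⟨7, rfl⟩

section inv

variable (X : Type*) [MulAction SL(2, ℤ) X]

/-- `T`-invariant vectors. -/
def TInv : Submodule ℂ (X → ℂ) where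
  carrier := {v | ∀ x, v (ModularGroup.T⁻¹ • x) = v x}
  add_mem' := by
    intro v w hv hw x
    simp only [Pi.add_apply]
    rw [hv x, hw x]
  zero_mem' := fun x ↦ rfl
  smul_mem' := by
    intro c v hv x
    simp only [Pi.smul_apply]
    rw [hv x]

variable {X}

theorem mem_TInv {v : X → ℂ} : v ∈ TInv X ↔ ∀ x, v (ModularGroup.T⁻¹ • x) = v x := Iff.rfl

theorem TInv_zpow {v : X → ℂ} (hv : v ∈ TInv X) (n : ℤ) (x : X) :
    v (ModularGroup.T ^ n • x) = v x := by
  have h1 : ∀ x, v (ModularGroup.T • x) = v x := fun x ↦ by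
    have := hv (ModularGroup.T • x)
    rw [inv_smul_smul] at this
    exact this.symm
  induction n generalizing x with
  | zero => simp
  | succ n ih => rw [zpow_add_one, mul_smul, ih, h1]
  | pred n ih => rw [zpow_sub_one, mul_smul, ih, hv]

/-- `T`-invariant vectors are functions on the set of `T`-orbits. -/
def TInvEquiv : TInv X ≃ₗ[ℂ]
    (MulAction.orbitRel.Quotient (Subgroup.zpowers (ModularGroup.T : SL(2, ℤ))) X → ℂ) where
  toFun v := Quotient.lift v.1 (by
    rintro a b ⟨⟨_, n, rfl⟩, h⟩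
    rw [← h]
    exact TInv_zpow v.2 n b)
  map_add' v w := by
    funext q
    induction q using Quotient.inductionOn with
    | h a => rfl
  map_smul' c v := by
    funext q
    induction q using Quotient.inductionOn with
    | h a => rfl
  invFun w := ⟨fun x ↦ w (Quotient.mk _ x), fun x ↦ by
    refine congrArg w (Quotient.sound ?_)
    exact ⟨⟨ModularGroup.T⁻¹, -1, by simp⟩, rfl⟩⟩
  left_inv v := rfl
  right_inv w := by
    funext q
    induction q using Quotient.inductionOn with
    | h a => rfl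

theorem finrank_TInv [Finite X] : Module.finrank ℂ (TInv X) =
    Nat.card (MulAction.orbitRel.Quotient (Subgroup.zpowers (ModularGroup.T : SL(2, ℤ))) X) := by
  classical
  have : Fintype (MulAction.orbitRel.Quotient
      (Subgroup.zpowers (ModularGroup.T : SL(2, ℤ))) X) := Fintype.ofFinite _
  rw [TInvEquiv.finrank_eq, Module.finrank_fintype_fun_eq_card, Nat.card_eq_fintype_card]

end inv

end Fermat.Agent.Genus
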