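import Mathlib
import Fermat.Agent.Genus.Structure

/-!
# The dual basis of cusp forms and dimension formulas
-/

set_option autoImplicit false

open UpperHalfPlane ModularForm MatrixGroups Complex Filter EisensteinSeries
open scoped Manifold Topology Derivative

noncomputable section

namespace Fermat.Agent.Genus

open Fermat.Agent.GenusInf

section mdiff

variable {n : Type} [Fintype n] [DecidableEq n]

theorem mdiff_det {A : ℍ → Matrix n n ℂ} (h : ∀ i j, MDiff (fun z => A z i j)) :
    MDiff (fun z => (A z).det) := by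
  rw [UpperHalfPlane.mdifferentiable_iff]
  have h' : ∀ i j, DifferentiableOn ℂ (fun w => A (ofComplex w) i j) {z | 0 < z.im} :=
    fun i j => UpperHalfPlane.mdifferentiable_iff.mp (h i j)
  have : ((fun z => (A z).det) ∘ ofComplex) =
      fun w => ∑ σ : Equiv.Perm n, ((Equiv.Perm.sign σ : ℤ) : ℂ) * ∏ i, A (ofComplex w) (σ i) i := by
    funext w
    rw [Function.comp_apply, Matrix.det_apply']
  rw [this]
  refine DifferentiableOn.fun_sum fun σ _ => ?_
  refine (differentiableOn_const _).mul ?_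
  exact DifferentiableOn.fun_finsetProd fun i _ => h' (σ i) i

theorem mdiff_inv {A : ℍ → Matrix n n ℂ} (h : ∀ i j, MDiff (fun z => A z i j))
    (hdet : ∀ z, (A z).det ≠ 0) (i j : n) : MDiff (fun z => (A z)⁻¹ i j) := by
  have h1 : (fun z => (A z)⁻¹ i j) =
      (fun z => ((A z).updateRow j (Pi.single i 1)).det) / (fun z => (A z).det) := by
    funext z
    rw [Matrix.inv_def, Ring.inverse_eq_inv', Matrix.smul_apply, Matrix.adjugate_apply,
      Pi.div_apply, smul_eq_mul, div_eq_inv_mul]
  rw [h1]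
  refine MDifferentiable.div (mdiff_det fun a b => ?_) (mdiff_det h) hdet
  by_cases ha : a = j
  · subst ha
    simp only [Matrix.updateRow_self]
    exact mdifferentiable_const
  · simp only [Matrix.updateRow_ne ha]
    exact h a b

end mdiff

section dual

variable {X : Type} [Fintype X] [DecidableEq X] [MulAction SL(2, ℤ) X]

/-- The dual family `Δ · F⁻¹`. -/
def dualF (f : X → (X → ℍ → ℂ)) (j : X) : X → ℍ → ℂ := fun x z => dl z * (fmat f z)⁻¹ j x

theorem dl_isBigO : dl =O[atImInfty] fun z => Real.exp (-2 * Real.pi * z.im) := by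
  have := CuspFormClass.exp_decay_atImInfty (h := 1) CuspForm.discriminant one_pos
    one_mem_strictPeriods_SL
  refine this.congr_right fun z => ?_
  simp

theorem fmat_smul {wt : X → ℤ} {f : X → (X → ℍ → ℂ)} (hf : ∀ j, f j ∈ MF X (wt j))
    (g : SL(2, ℤ)) (z : ℍ) :
    fmat f (g • z) = (fmat f z).submatrix (MulAction.toPerm (g⁻¹ : SL(2, ℤ)) : Equiv.Perm X)
      (Equiv.refl X) * Matrix.diagonal (fun j => denom g z ^ (wt j)) := by
  ext x j
  rw [Matrix.mul_diagonal]
  simp only [fmat, Matrix.of_apply, Matrix.submatrix_apply, Equiv.refl_apply,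
    MulAction.toPerm_apply]
  have h := congrFun ((hf j).2.1 x g) z
  rw [ModularForm.SL_slash_apply] at h
  rw [← h, mul_assoc, ← zpow_add₀ (denom_ne_zero g z), neg_add_cancel, zpow_zero, mul_one]

theorem fmat_smul_inv {wt : X → ℤ} {f : X → (X → ℍ → ℂ)} (hf : ∀ j, f j ∈ MF X (wt j))
    (g : SL(2, ℤ)) (z : ℍ) (j x : X) :
    (fmat f (g • z))⁻¹ j x = denom g z ^ (-wt j) * (fmat f z)⁻¹ j (g⁻¹ • x) := by
  rw [fmat_smul hf g z, Matrix.mul_inv_rev, Matrix.inv_submatrix_equiv]
  have h1 : (Matrix.diagonal (fun j => denom g z ^ (wt j)))⁻¹ =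
      Matrix.diagonal (fun j => denom g z ^ (-wt j)) := by
    apply Matrix.inv_eq_left_inv
    rw [Matrix.diagonal_mul_diagonal, ← Matrix.diagonal_one]
    congr 1
    funext i
    rw [← zpow_add₀ (denom_ne_zero g z), neg_add_cancel, zpow_zero]
  rw [h1, Matrix.diagonal_mul]
  simp

/-- The dual family consists of cusp forms. -/
theorem dualF_mem {wt : X → ℤ} {f : X → (X → ℍ → ℂ)} (hb : HomBasis LF (MF X) X wt f)
    (hdet : ∀ z, (fmat f z).det ≠ 0) (hlead : (leadMat (orderOf (piT X)) f).det ≠ 0) (j : X) :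
    dualF f j ∈ CF X (12 - wt j) := by
  refine ⟨fun x => ?_, fun x g => ?_, fun x => ?_⟩
  · exact dl_mem.1.mul (mdiff_inv (fun a b => (hb.mem b).1 a) hdet j x)
  · funext z
    rw [ModularForm.SL_slash_apply]
    simp only [dualF]
    rw [fmat_smul_inv hb.mem g z j x]
    have h := congrFun (dl_mem.2.1 g) z
    rw [ModularForm.SL_slash_apply] at h
    rw [← h]
    have hd := denom_ne_zero g z
    rw [show -(12 - wt j) = -12 + wt j by ring, zpow_add₀ hd, zpow_neg _ (wt j)]
    field_simp
  · exact tendsto_mul_mat_inv (fun j => MF_isTVec (hb.mem j)) ordT_pos (pow_orderOf_eq_one _)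
      hlead dl dl_isBigO j x

omit [MulAction SL(2, ℤ) X] in
theorem dualF_comb {f : X → (X → ℍ → ℂ)} (c : X → ℍ → ℂ) (x : X) (z : ℍ) :
    (∑ j, c j • dualF f j) x z = dl z * (Matrix.vecMul (fun j => c j z) (fmat f z)⁻¹) x := by
  simp only [Finset.sum_apply, Pi.smul_apply, smul_eq_mul, Pi.mul_apply, dualF, Matrix.vecMul,
    dotProduct, Finset.mul_sum]
  refine Finset.sum_congr rfl fun j _ => by ring

/-- linear map `(c_j) ↦ ∑ c_j G_j`. -/
def cuspMap {wt : X → ℤ} {f : X → (X → ℍ → ℂ)} (hb : HomBasis LF (MF X) X wt f)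
    (hdet : ∀ z, (fmat f z).det ≠ 0) (hlead : (leadMat (orderOf (piT X)) f).det ≠ 0) (k : ℤ) :
    ((j : X) → LF (k - 12 + wt j)) →ₗ[ℂ] CF X k where
  toFun c := ⟨∑ j, (c j : ℍ → ℂ) • dualF f j, Submodule.sum_mem _ fun j _ => by
    have h1 := dualF_mem hb hdet hlead j
    have h2 := MF_smul _ _ _ (c j).2 _ (CF_le_MF _ h1)
    rw [show k - 12 + wt j + (12 - wt j) = k by ring] at h2
    rw [mem_CF_iff]
    refine ⟨h2, fun x => ?_⟩
    have h3 : Tendsto (dualF f j x) atImInfty (𝓝 0) := h1.2.2 x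
    have h4 := (LF_tendsto _ _ (c j).2).mul h3
    rw [mul_zero] at h4
    exact h4⟩
  map_add' c d := by
    apply Subtype.ext
    simp only [Pi.add_apply, Submodule.coe_add, add_smul, Finset.sum_add_distrib]
  map_smul' a c := by
    apply Subtype.ext
    simp only [Pi.smul_apply, Submodule.coe_smul, Finset.smul_sum, smul_assoc,
      RingHom.id_apply]

theorem cuspMap_bijective {wt : X → ℤ} {f : X → (X → ℍ → ℂ)} (hb : HomBasis LF (MF X) X wt f)
    (hdet : ∀ z, (fmat f z).det ≠ 0) (hlead : (leadMat (orderOf (piT X)) f).det ≠ 0) (k : ℤ) :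
    Function.Bijective (cuspMap hb hdet hlead k) := by
  have hunit : ∀ z, IsUnit (fmat f z).det := fun z => isUnit_iff_ne_zero.mpr (hdet z)
  constructor
  · rw [injective_iff_map_eq_zero]
    intro c hc
    have h1 : ∀ x z, (∑ j, (c j : ℍ → ℂ) • dualF f j) x z = 0 := fun x z => by
      have := congrArg Subtype.val hc
      exact congrFun (congrFun this x) z
    have h2 : ∀ z, Matrix.vecMul (fun j => (c j : ℍ → ℂ) z) (fmat f z)⁻¹ = 0 := fun z => by
      funext x
      have := h1 x z
      rw [dualF_comb] at this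
      exact (mul_eq_zero.mp this).resolve_left (dl_ne_zero z)
    funext j
    apply Subtype.ext
    funext z
    have h3 : (fun j => (c j : ℍ → ℂ) z) = 0 := by
      have := congrArg (fun v => Matrix.vecMul v (fmat f z)) (h2 z)
      simpa [Matrix.vecMul_vecMul, Matrix.nonsing_inv_mul _ (hunit z)] using this
    exact congrFun h3 j
  · rintro ⟨H, hH⟩
    -- the coefficients
    have h1 : ∀ j, ∃ c ∈ LF (k - 12 + wt j), (∑ x, H x * f j x) = dl * c := by
      intro j
      have hL : (∑ x, H x * f j x) ∈ LF (k + wt j) := by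
        refine ⟨?_, fun g => ?_, ?_⟩
        · exact MDifferentiable.sum fun x _ => (hH.1 x).mul ((hb.mem j).1 x)
        · rw [SlashAction.sum_slash]
          have : ∀ x, (H x * f j x) ∣[k + wt j] g = H (g⁻¹ • x) * f j (g⁻¹ • x) := fun x => by
            rw [ModularForm.mul_slash_SL2, hH.2.1, (hb.mem j).2.1]
          simp_rw [this]
          exact Equiv.sum_comp (MulAction.toPerm (g⁻¹ : SL(2, ℤ)) : Equiv.Perm X)
            (fun x => H x * f j x)
        · exact (boundedAtImInftySubalgebra ℂ).sum_mem fun x _ =>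
            ((hH.2.2 x).isBoundedAtImInfty).mul ((hb.mem j).2.2 x)
      have h0 : IsZeroAtImInfty (∑ x, H x * f j x) := by
        refine (zeroAtImInftySubmodule ℂ).sum_mem fun x _ => ?_
        have h2 : (H x) =o[atImInfty] (fun _ : ℍ => (1 : ℝ)) := by
          rw [Asymptotics.isLittleO_one_iff]
          exact hH.2.2 x
        have h3 := h2.mul_isBigO ((hb.mem j).2.2 x)
        simp only [Pi.one_apply, mul_one] at h3
        exact (Asymptotics.isLittleO_one_iff ℝ).mp h3
      obtain ⟨c, hc, hc'⟩ := LF_cusp _ _ hL h0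
      refine ⟨c, ?_, hc'⟩
      rwa [show k + wt j - 12 = k - 12 + wt j by ring] at hc
    choose c hc hc' using h1
    refine ⟨fun j => ⟨c j, hc j⟩, ?_⟩
    apply Subtype.ext
    change (∑ j, c j • dualF f j) = H
    funext x z
    rw [dualF_comb]
    have h2 : (fun j => dl z * c j z) = Matrix.vecMul (fun x => H x z) (fmat f z) := by
      funext j
      have := congrFun (hc' j) z
      simp only [Finset.sum_apply, Pi.mul_apply] at this
      rw [← this]
      rfl
    have h3 : dl z * (Matrix.vecMul (fun j => c j z) (fmat f z)⁻¹) x =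
        (Matrix.vecMul (fun j => dl z * c j z) (fmat f z)⁻¹) x := by
      simp only [Matrix.vecMul, dotProduct, Finset.mul_sum]
      exact Finset.sum_congr rfl fun j _ => by ring
    rw [h3, h2, Matrix.vecMul_vecMul, Matrix.mul_nonsing_inv _ (hunit z), Matrix.vecMul_one]

/-- linear map `(r_j) ↦ ∑ r_j f_j`. -/
def modMap {wt : X → ℤ} {f : X → (X → ℍ → ℂ)} (hb : HomBasis LF (MF X) X wt f) (k : ℤ) :
    ((j : X) → LF (k - wt j)) →ₗ[ℂ] MF X k where
  toFun c := ⟨∑ j, (c j : ℍ → ℂ) • f j, Submodule.sum_mem _ fun j _ => by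
    have h2 := MF_smul _ _ _ (c j).2 _ (hb.mem j)
    rwa [sub_add_cancel] at h2⟩
  map_add' c d := by
    apply Subtype.ext
    simp only [Pi.add_apply, Submodule.coe_add, add_smul, Finset.sum_add_distrib]
  map_smul' a c := by
    apply Subtype.ext
    simp only [Pi.smul_apply, Submodule.coe_smul, Finset.smul_sum, smul_assoc,
      RingHom.id_apply]

omit [DecidableEq X] in
theorem modMap_bijective {wt : X → ℤ} {f : X → (X → ℍ → ℂ)} (hb : HomBasis LF (MF X) X wt f)
    (k : ℤ) : Function.Bijective (modMap hb k) := by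
  constructor
  · rw [injective_iff_map_eq_zero]
    intro c hc
    have h1 : (∑ j, (c j : ℍ → ℂ) • f j) = 0 := congrArg Subtype.val hc
    have h2 := hb.indep k (Finsupp.equivFunOnFinite.symm fun j => (c j : ℍ → ℂ))
      (fun j => (c j).2) (by
        rw [Finsupp.linearCombination_apply, Finsupp.sum_fintype _ _ (by simp)]
        exact h1)
    funext j
    apply Subtype.ext
    exact DFunLike.congr_fun h2 j
  · rintro ⟨H, hH⟩
    obtain ⟨r, hr, hr'⟩ := hb.gen k H hH
    refine ⟨fun j => ⟨r j, hr j⟩, ?_⟩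
    apply Subtype.ext
    change (∑ j, r j • f j) = H
    rw [← hr', Finsupp.linearCombination_apply, Finsupp.sum_fintype _ _ (by simp)]

instance (k : ℤ) : FiniteDimensional ℂ (LF k) :=
  LinearEquiv.finiteDimensional (LFequiv k).symm

theorem finrank_CF {wt : X → ℤ} {f : X → (X → ℍ → ℂ)} (hb : HomBasis LF (MF X) X wt f)
    (hdet : ∀ z, (fmat f z).det ≠ 0) (hlead : (leadMat (orderOf (piT X)) f).det ≠ 0) (k : ℤ) :
    Module.finrank ℂ (CF X k) = ∑ j, Module.finrank ℂ (LF (k - 12 + wt j)) := by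
  rw [← (LinearEquiv.ofBijective _ (cuspMap_bijective hb hdet hlead k)).finrank_eq,
    Module.finrank_pi_fintype]

omit [DecidableEq X] in
theorem finrank_MF {wt : X → ℤ} {f : X → (X → ℍ → ℂ)} (hb : HomBasis LF (MF X) X wt f) (k : ℤ) :
    Module.finrank ℂ (MF X k) = ∑ j, Module.finrank ℂ (LF (k - wt j)) := by
  rw [← (LinearEquiv.ofBijective _ (modMap_bijective hb k)).finrank_eq,
    Module.finrank_pi_fintype]

omit [DecidableEq X] in
theorem finite_MF {wt : X → ℤ} {f : X → (X → ℍ → ℂ)} (hb : HomBasis LF (MF X) X wt f) (k : ℤ) :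
    FiniteDimensional ℂ (MF X k) :=
  LinearEquiv.finiteDimensional (LinearEquiv.ofBijective _ (modMap_bijective hb k))

/-- The weights are at most `10`. -/
theorem wt_lt_twelve {wt : X → ℤ} {f : X → (X → ℍ → ℂ)} (hb : HomBasis LF (MF X) X wt f)
    (hdet : ∀ z, (fmat f z).det ≠ 0) (hlead : (leadMat (orderOf (piT X)) f).det ≠ 0) (j : X) :
    wt j < 12 := by
  by_contra h
  push Not at h
  have h1 := CF_nonpos (12 - wt j) (by linarith) _ (dualF_mem hb hdet hlead j)
  have z : ℍ := UpperHalfPlane.I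
  have h2 : (fmat f z)⁻¹ j = 0 := by
    funext x
    have := congrFun (congrFun h1 x) z
    exact (mul_eq_zero.mp this).resolve_left (dl_ne_zero z)
  have h3 : ((fmat f z)⁻¹).det = 0 := Matrix.det_eq_zero_of_row_eq_zero j fun x => by rw [h2]; rfl
  have h4 := Matrix.det_nonsing_inv_mul_det (fmat f z) (isUnit_iff_ne_zero.mpr (hdet z))
  rw [h3, zero_mul] at h4
  exact zero_ne_one h4

end dual

end Fermat.Agent.Genus
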