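import Mathlib
import Fermat.Agent.Genus.Forms

/-!
# Evaluation of vector valued forms at elliptic points
-/

set_option autoImplicit false

open UpperHalfPlane ModularForm MatrixGroups Complex Filter EisensteinSeries
open scoped Manifold Topology

noncomputable section

namespace Fermat.Agent.Genus

section elliptic

variable {X : Type} [Fintype X] [DecidableEq X] [MulAction SL(2, ℤ) X]

/-- Trace of the permutation matrix of `g`, computed in the basis given by values at a fixed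
point of `g` of vector valued forms. -/
theorem sum_denom_eq_card_fixed (wt : X → ℤ) (f : X → (X → ℍ → ℂ))
    (hf : ∀ j, f j ∈ MF X (wt j)) (g : SL(2, ℤ)) (z₀ : ℍ) (hz : g • z₀ = z₀)
    (hdet : (Matrix.of fun x j => f j x z₀).det ≠ 0) :
    ∑ j, (denom g z₀) ^ (-(wt j)) = (Nat.card {x : X // g • x = x} : ℂ) := by
  set A : Matrix X X ℂ := Matrix.of fun x j => f j x z₀ with hA
  set D : Matrix X X ℂ := Matrix.diagonal fun j => (denom g z₀) ^ (-(wt j)) with hD
  set P : Matrix X X ℂ := Matrix.of fun x y => if g⁻¹ • x = y then 1 else 0 with hP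
  have hPA : P * A = A * D := by
    ext x j
    rw [hD, Matrix.mul_diagonal, Matrix.mul_apply]
    simp only [hP, hA, Matrix.of_apply, ite_mul, one_mul, zero_mul, Finset.sum_ite_eq,
      Finset.mem_univ, if_true]
    have h1 := congrFun ((hf j).2.1 x g) z₀
    rw [SL_slash_apply, hz] at h1
    exact h1.symm
  have hunit : IsUnit A.det := isUnit_iff_ne_zero.mpr hdet
  have hP2 : P = A * D * A⁻¹ := by
    rw [← hPA, Matrix.mul_assoc, Matrix.mul_nonsing_inv A hunit, Matrix.mul_one]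
  have htr : P.trace = D.trace := by
    rw [hP2, Matrix.trace_mul_comm, ← Matrix.mul_assoc, Matrix.nonsing_inv_mul A hunit,
      Matrix.one_mul]
  have h3 : D.trace = ∑ j, (denom g z₀) ^ (-(wt j)) := by
    rw [hD, Matrix.trace_diagonal]
  have h4 : P.trace = (Nat.card {x : X // g • x = x} : ℂ) := by
    rw [Nat.card_eq_fintype_card, Fintype.card_subtype, Finset.card_filter, Matrix.trace]
    push_cast
    refine Finset.sum_congr rfl fun x _ => ?_
    simp only [hP, Matrix.diag_apply, Matrix.of_apply]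
    have : g⁻¹ • x = x ↔ g • x = x := by rw [inv_smul_eq_iff, eq_comm]
    simp only [this]
  rw [← h3, ← htr, h4]

theorem S_smul_I : (ModularGroup.S : SL(2, ℤ)) • UpperHalfPlane.I = UpperHalfPlane.I := by
  rw [UpperHalfPlane.modular_S_smul]
  apply UpperHalfPlane.ext
  simp

/-- **Elliptic point `i`.** -/
theorem sum_I_zpow (wt : X → ℤ) (f : X → (X → ℍ → ℂ)) (hf : ∀ j, f j ∈ MF X (wt j))
    (hdet : ∀ z, (Matrix.of fun x j => f j x z).det ≠ 0) :
    ∑ j, (Complex.I) ^ (-(wt j)) = (Nat.card {x : X // ModularGroup.S • x = x} : ℂ) := by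
  rw [← sum_denom_eq_card_fixed wt f hf ModularGroup.S UpperHalfPlane.I S_smul_I (hdet _)]
  have : denom (ModularGroup.S : SL(2, ℤ)) UpperHalfPlane.I = Complex.I := by
    rw [ModularGroup.denom_S, UpperHalfPlane.coe_I]
  rw [this]

theorem rho_sq : (UpperHalfPlane.ρ : ℂ) ^ 2 + UpperHalfPlane.ρ + 1 = 0 := by
  have h3 : ((Real.sqrt 3 : ℝ) : ℂ) ^ 2 = 3 := by
    rw [← Complex.ofReal_pow, Real.sq_sqrt (by norm_num)]; norm_num
  have h : (UpperHalfPlane.ρ : ℂ) = -1 / 2 + (Real.sqrt 3 : ℝ) / 2 * Complex.I := by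
    apply Complex.ext <;> simp [UpperHalfPlane.ρ]
  rw [h]
  linear_combination (1 / 4 : ℂ) * (Complex.I ^ 2) * h3 + (3 / 4 : ℂ) * Complex.I_sq

theorem ST_smul_rho : (ModularGroup.S * ModularGroup.T : SL(2, ℤ)) • UpperHalfPlane.ρ =
    UpperHalfPlane.ρ := by
  rw [ModularGroup.stabilizer_ρ]
  simp

theorem denom_ST_rho : denom (ModularGroup.S * ModularGroup.T : SL(2, ℤ)) UpperHalfPlane.ρ =
    (UpperHalfPlane.ρ : ℂ) + 1 := by
  have h0 : ((ModularGroup.S * ModularGroup.T : SL(2, ℤ)) : Matrix (Fin 2) (Fin 2) ℤ) =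
      !![0, -1; 1, 1] := by
    rw [Matrix.SpecialLinearGroup.coe_mul, ModularGroup.coe_S, ModularGroup.coe_T]
    decide
  rw [ModularGroup.denom_apply, h0]
  simp

theorem rho_add_one : (UpperHalfPlane.ρ : ℂ) + 1 = Complex.exp (Real.pi * Complex.I / 3) := by
  have h : (UpperHalfPlane.ρ : ℂ) = -1 / 2 + (Real.sqrt 3 : ℝ) / 2 * Complex.I := by
    apply Complex.ext <;> simp [UpperHalfPlane.ρ]
  rw [h, show (Real.pi : ℂ) * Complex.I / 3 = ((Real.pi / 3 : ℝ) : ℂ) * Complex.I by
    push_cast; ring, Complex.exp_mul_I, ← Complex.ofReal_cos, ← Complex.ofReal_sin,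
    Real.cos_pi_div_three, Real.sin_pi_div_three]
  push_cast
  ring

/-- **Elliptic point `ρ`.** -/
theorem sum_rho_zpow (wt : X → ℤ) (f : X → (X → ℍ → ℂ)) (hf : ∀ j, f j ∈ MF X (wt j))
    (hdet : ∀ z, (Matrix.of fun x j => f j x z).det ≠ 0) :
    ∑ j, ((UpperHalfPlane.ρ : ℂ) + 1) ^ (-(wt j)) =
      (Nat.card {x : X // (ModularGroup.S * ModularGroup.T) • x = x} : ℂ) := by
  rw [← sum_denom_eq_card_fixed wt f hf (ModularGroup.S * ModularGroup.T) UpperHalfPlane.ρ
    ST_smul_rho (hdet _), denom_ST_rho]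

/-- **Elliptic point `ρ`**, with the sixth root of unity written as an exponential. -/
theorem sum_exp_zpow (wt : X → ℤ) (f : X → (X → ℍ → ℂ)) (hf : ∀ j, f j ∈ MF X (wt j))
    (hdet : ∀ z, (Matrix.of fun x j => f j x z).det ≠ 0) :
    ∑ j, (Complex.exp (Real.pi * Complex.I / 3)) ^ (-(wt j)) =
      (Nat.card {x : X // (ModularGroup.S * ModularGroup.T) • x = x} : ℂ) := by
  rw [← rho_add_one, sum_rho_zpow wt f hf hdet]

end elliptic

end Fermat.Agent.Genus
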