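import Mathlib

set_option autoImplicit false

/-!
# Final numerics for the dimension formula
-/

namespace Fermat.Agent.Genus

open Finset

noncomputable section

/-- number of indices of weight `a`. -/
def cnt {X : Type*} [Fintype X] (wt : X → ℤ) (a : ℤ) : ℕ := by
  classical exact (Finset.univ.filter (fun j ↦ wt j = a)).card

lemma sum_by_weight {X : Type*} [Fintype X] (wt : X → ℤ)
    (hwt : ∀ j, wt j = 0 ∨ wt j = 2 ∨ wt j = 4 ∨ wt j = 6 ∨ wt j = 8 ∨ wt j = 10)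
    (g : ℤ → ℂ) :
    ∑ j, g (wt j) = cnt wt 0 * g 0 + cnt wt 2 * g 2 + cnt wt 4 * g 4 + cnt wt 6 * g 6 +
      cnt wt 8 * g 8 + cnt wt 10 * g 10 := by
  classical
  have h1 : ∀ j, g (wt j) = (if wt j = 0 then g 0 else 0) + (if wt j = 2 then g 2 else 0) +
      (if wt j = 4 then g 4 else 0) + (if wt j = 6 then g 6 else 0) +
      (if wt j = 8 then g 8 else 0) + (if wt j = 10 then g 10 else 0) := by
    intro j
    rcases hwt j with h | h | h | h | h | h <;> simp [h]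
  simp_rw [h1, Finset.sum_add_distrib]
  have h2 : ∀ a : ℤ, ∑ j, (if wt j = a then g a else 0) = cnt wt a * g a := by
    intro a
    rw [← Finset.sum_filter, Finset.sum_const, nsmul_eq_mul, cnt]
  simp_rw [h2]

lemma card_by_weight {X : Type*} [Fintype X] (wt : X → ℤ)
    (hwt : ∀ j, wt j = 0 ∨ wt j = 2 ∨ wt j = 4 ∨ wt j = 6 ∨ wt j = 8 ∨ wt j = 10) :
    (Fintype.card X : ℤ) = cnt wt 0 + cnt wt 2 + cnt wt 4 + cnt wt 6 + cnt wt 8 + cnt wt 10 := by
  have h := sum_by_weight wt hwt (fun _ ↦ 1)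
  simp only [mul_one, Finset.sum_const, Finset.card_univ, nsmul_eq_mul] at h
  exact_mod_cast h

/-- Final numerics. `u` is a primitive 6-th root of unity. -/
theorem numerics {X : Type*} [Fintype X] (wt : X → ℤ)
    (hwt : ∀ j, wt j = 0 ∨ wt j = 2 ∨ wt j = 4 ∨ wt j = 6 ∨ wt j = 8 ∨ wt j = 10)
    (ν2 ν3 : ℕ) (c : ℤ) (h0 : cnt wt 0 = 1)
    (hc : (cnt wt 0 : ℤ) + cnt wt 2 - cnt wt 10 = c)
    (hE1 : ∑ j, Complex.I ^ (-(wt j)) = (ν2 : ℂ))
    (u : ℂ) (hu : u ^ 2 - u + 1 = 0)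
    (hE2 : ∑ j, u ^ (-(wt j)) = (ν3 : ℂ)) :
    ((cnt wt 10 : ℕ) : ℚ) = 1 + (Fintype.card X : ℚ) / 12 - (ν2 : ℚ) / 4 - (ν3 : ℚ) / 3
      - (c : ℚ) / 2 := by
  have hcard := card_by_weight wt hwt
  have e1 := sum_by_weight wt hwt (fun a ↦ Complex.I ^ (-a))
  have e2 := sum_by_weight wt hwt (fun a ↦ u ^ (-a))
  rw [hE1] at e1
  rw [hE2] at e2
  have I2 : Complex.I ^ (-2 : ℤ) = -1 := by
    rw [zpow_neg, show Complex.I ^ (2 : ℤ) = Complex.I ^ 2 by norm_cast]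
    simp
  have hpow : ∀ (v a : ℂ) (n : ℕ) (k : ℤ), k = -(2 * n : ℤ) → v ^ (-2 : ℤ) = a →
      v ^ k = a ^ n := by
    intro v a n k hk h
    rw [hk, show (-(2 * n : ℤ)) = (-2) * (n : ℤ) by ring, zpow_mul, h, zpow_natCast]
  have u0 : u ≠ 0 := by
    rintro rfl
    norm_num at hu
  have u2 : u ^ (-2 : ℤ) = -u := by
    rw [zpow_neg, show u ^ (2 : ℤ) = u ^ 2 by norm_cast]
    have h3 : u ^ 2 * (-u) = 1 := by linear_combination (-u - 1) * hu
    exact inv_eq_of_mul_eq_one_right h3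
  have I4 := hpow _ _ 2 (-4) (by norm_num) I2
  have I6 := hpow _ _ 3 (-6) (by norm_num) I2
  have I8 := hpow _ _ 4 (-8) (by norm_num) I2
  have I10 := hpow _ _ 5 (-10) (by norm_num) I2
  have u4 : u ^ (-4 : ℤ) = u - 1 := by
    rw [hpow _ _ 2 (-4) (by norm_num) u2]; linear_combination hu
  have u6 : u ^ (-6 : ℤ) = 1 := by
    rw [hpow _ _ 3 (-6) (by norm_num) u2]; linear_combination (-u - 1) * hu
  have u8 : u ^ (-8 : ℤ) = -u := by
    rw [hpow _ _ 4 (-8) (by norm_num) u2]; linear_combination (u ^ 2 + u) * hu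
  have u10 : u ^ (-10 : ℤ) = u - 1 := by
    rw [hpow _ _ 5 (-10) (by norm_num) u2]; linear_combination (-u ^ 3 - u ^ 2 + 1) * hu
  simp only [neg_zero, zpow_zero, I2, I4, I6, I8, I10, u2, u4, u6, u8, u10] at e1 e2
  -- the imaginary part of `u` is nonzero
  have him : u.im ≠ 0 := by
    intro h
    have hre := congrArg Complex.re hu
    simp [pow_two, Complex.mul_re, h] at hre
    nlinarith [sq_nonneg (u.re - 1/2)]
  have e2' : ((((cnt wt 4 : ℝ) + cnt wt 10 - cnt wt 2 - cnt wt 8) : ℝ) : ℂ) * u =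
      (((ν3 : ℝ) - cnt wt 0 - cnt wt 6 + cnt wt 4 + cnt wt 10 : ℝ) : ℂ) := by
    push_cast
    linear_combination -e2
  have e3 : ((cnt wt 4 : ℝ) + cnt wt 10 - cnt wt 2 - cnt wt 8) = 0 := by
    have h := congrArg Complex.im e2'
    rw [Complex.im_ofReal_mul, Complex.ofReal_im] at h
    exact (mul_eq_zero.mp h).resolve_right him
  have e4 : ((ν3 : ℝ) - cnt wt 0 - cnt wt 6 + cnt wt 4 + cnt wt 10 : ℝ) = 0 := by
    rw [e3, Complex.ofReal_zero, zero_mul] at e2'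
    exact_mod_cast e2'.symm
  have e3q : ((cnt wt 4 : ℚ) + cnt wt 10 - cnt wt 2 - cnt wt 8) = 0 := by exact_mod_cast e3
  have e4q : ((ν3 : ℚ) - cnt wt 0 - cnt wt 6 + cnt wt 4 + cnt wt 10 : ℚ) = 0 := by
    exact_mod_cast e4
  have e1q : (ν2 : ℚ) = cnt wt 0 - cnt wt 2 + cnt wt 4 - cnt wt 6 + cnt wt 8 - cnt wt 10 := by
    have h : (ν2 : ℂ) = cnt wt 0 - cnt wt 2 + cnt wt 4 - cnt wt 6 + cnt wt 8 - cnt wt 10 := by
      linear_combination e1
    exact_mod_cast h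
  have hcardq : (Fintype.card X : ℚ) =
      cnt wt 0 + cnt wt 2 + cnt wt 4 + cnt wt 6 + cnt wt 8 + cnt wt 10 := by exact_mod_cast hcard
  have hcq : (c : ℚ) = (cnt wt 0 : ℚ) + cnt wt 2 - cnt wt 10 := by exact_mod_cast hc.symm
  have h0q : (cnt wt 0 : ℚ) = 1 := by exact_mod_cast h0
  rw [hcardq, hcq, e1q]
  linarith

end

end Fermat.Agent.Genus
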