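import Mathlib
import Fermat.Agent.Genus.Dual
import Fermat.Agent.Genus.Dims
import Fermat.Agent.Genus.Elliptic
import Fermat.Agent.Genus.Numerics

/-!
# The dimension of weight two cusp forms for a finite transitive `SL(2, ℤ)`-set
-/

set_option autoImplicit false

open UpperHalfPlane ModularForm MatrixGroups Complex Filter EisensteinSeries
open scoped Manifold Topology Derivative

noncomputable section

namespace Fermat.Agent.Genus

open Fermat.Agent.GenusInf

section vinf

variable {X : Type} [Finite X] [MulAction SL(2, ℤ) X]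

theorem MF_tendsto {k : ℤ} {F : X → ℍ → ℂ} (hF : F ∈ MF X k) (x : X) :
    Tendsto (F x) atImInfty (𝓝 (valueAtInfty (F x))) := by
  have h := IsTVec.tendsto (MF_isTVec hF) ordT_pos (pow_orderOf_eq_one _) x
  have h2 : valueAtInfty (F x) = _ := h.limUnder_eq
  rw [h2]
  exact h

theorem valueAtInfty_of_tendsto {f : ℍ → ℂ} {a : ℂ} (h : Tendsto f atImInfty (𝓝 a)) :
    valueAtInfty f = a := h.limUnder_eq

variable (X) in
/-- Values at infinity. -/
def vinf (k : ℤ) : MF X k →ₗ[ℂ] TInv X where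
  toFun F := ⟨fun x => valueAtInfty ((F : X → ℍ → ℂ) x), fun x => by
    have h1 := MF_tendsto F.2 (ModularGroup.T⁻¹ • x)
    have h2 := MF_tendsto F.2 x
    -- F (T⁻¹ x) z = F x (1 + z)
    have h3 : Tendsto (fun z : ℍ => (1 : ℝ) +ᵥ z) atImInfty atImInfty := by
      rw [atImInfty, tendsto_comap_iff]
      have : (UpperHalfPlane.im ∘ fun z : ℍ => (1 : ℝ) +ᵥ z) = UpperHalfPlane.im := by
        funext z
        simp
      rw [this]
      exact tendsto_comap
    have h4 : (F : X → ℍ → ℂ) (ModularGroup.T⁻¹ • x) =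
        (F : X → ℍ → ℂ) x ∘ fun z : ℍ => (1 : ℝ) +ᵥ z := by
      funext z
      exact (MF_isTVec F.2).shift x z
    change valueAtInfty ((F : X → ℍ → ℂ) (ModularGroup.T⁻¹ • x)) =
      valueAtInfty ((F : X → ℍ → ℂ) x)
    rw [h4] at h1 ⊢
    exact tendsto_nhds_unique h1 (h2.comp h3)⟩
  map_add' F G := by
    apply Subtype.ext
    funext x
    exact valueAtInfty_of_tendsto ((MF_tendsto F.2 x).add (MF_tendsto G.2 x))
  map_smul' c F := by
    apply Subtype.ext
    funext x
    exact valueAtInfty_of_tendsto ((MF_tendsto F.2 x).const_smul c)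

theorem ker_vinf (k : ℤ) (F : MF X k) : vinf X k F = 0 ↔ (F : X → ℍ → ℂ) ∈ CF X k := by
  rw [mem_CF_iff]
  constructor
  · intro h
    refine ⟨F.2, fun x => ?_⟩
    have h1 : valueAtInfty ((F : X → ℍ → ℂ) x) = 0 := congrFun (congrArg Subtype.val h) x
    have h2 := MF_tendsto F.2 x
    rw [h1] at h2
    exact h2
  · rintro ⟨-, h⟩
    apply Subtype.ext
    funext x
    exact (h x).valueAtInfty_eq_zero

end vinf

section main

variable {X : Type} [Fintype X] [DecidableEq X] [MulAction SL(2, ℤ) X]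

theorem vinf_surjective (h1 : ∀ x : X, (-1 : SL(2, ℤ)) • x = x)
    {wt : X → ℤ} {f : X → (X → ℍ → ℂ)} (hb : HomBasis LF (MF X) X wt f)
    (hdet : ∀ z, (fmat f z).det ≠ 0) (hlead : (leadMat (orderOf (piT X)) f).det ≠ 0) :
    Function.Surjective (vinf X 14) := by
  intro v
  have hex : ∀ i, ∃ r : ℍ → ℂ, r ∈ LF (14 - wt i) ∧ Tendsto r atImInfty (𝓝 1) := by
    intro i
    have he := wt_even h1 (hb.mem i) (hb.ne_zero i)
    have h12 := wt_lt_twelve hb hdet hlead i
    obtain ⟨m, hm, hm1, -⟩ := exists_mono (14 - wt i) (by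
      obtain ⟨n, hn⟩ := he
      omega) ((show Even (14 : ℤ) from ⟨7, rfl⟩).sub he)
    exact ⟨m, hm, hm1⟩
  choose r hr hr1 using hex
  let c : X → ℂ := ((leadMat (orderOf (piT X)) f)⁻¹).mulVec v.1
  have hc : (leadMat (orderOf (piT X)) f).mulVec c = v.1 := by
    rw [Matrix.mulVec_mulVec, Matrix.mul_nonsing_inv _ (isUnit_iff_ne_zero.mpr hlead),
      Matrix.one_mulVec]
  let F : X → ℍ → ℂ := ∑ i, c i • (r i • f i)
  have hmem : ∀ i, r i • f i ∈ MF X 14 := fun i => by
    have := MF_smul _ _ _ (hr i) _ (hb.mem i)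
    rwa [sub_add_cancel] at this
  have hFK : F ∈ MF X 14 := Submodule.sum_mem _ fun i _ => (MF X 14).smul_mem _ (hmem i)
  have hlead' : lead0 F = v.1 := by
    rw [← hc]
    simp only [F, lead0]
    rw [lead_sum Finset.univ (fun i _ => MF_isTVec ((MF X 14).smul_mem _ (hmem i))) ordT_pos
      (pow_orderOf_eq_one _)]
    funext x
    rw [Finset.sum_apply]
    simp only [Matrix.mulVec, dotProduct]
    refine Finset.sum_congr rfl fun i hi => ?_
    rw [lead_smul _ (MF_isTVec (hmem i)) ordT_pos (pow_orderOf_eq_one _)]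
    have := lead0_smul (hr i) (hb.mem i) (hr1 i)
    rw [one_smul] at this
    simp only [lead0] at this
    rw [this]
    simp only [Pi.smul_apply, smul_eq_mul, leadMat, Matrix.of_apply]
    ring
  refine ⟨⟨F, hFK⟩, ?_⟩
  apply Subtype.ext
  funext x
  have hinv : ∀ x, lead (orderOf (piT X)) F (piT X x) = lead (orderOf (piT X)) F x := by
    intro x
    have h3 : lead (orderOf (piT X)) F = v.1 := hlead'
    rw [h3, piT_apply]
    exact v.2 x
  have h4 := IsTVec.tendsto_lead_of_invariant (MF_isTVec hFK) ordT_pos (pow_orderOf_eq_one _)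
    hinv x
  have h5 : lead (orderOf (piT X)) F x = v.1 x := congrFun hlead' x
  rw [h5] at h4
  exact valueAtInfty_of_tendsto h4

/-- Rank-nullity in weight `14`. -/
theorem finrank_14 (h1 : ∀ x : X, (-1 : SL(2, ℤ)) • x = x)
    {wt : X → ℤ} {f : X → (X → ℍ → ℂ)} (hb : HomBasis LF (MF X) X wt f)
    (hdet : ∀ z, (fmat f z).det ≠ 0) (hlead : (leadMat (orderOf (piT X)) f).det ≠ 0) :
    Module.finrank ℂ (MF X 14) = Module.finrank ℂ (TInv X) + Module.finrank ℂ (CF X 14) := by
  have := finite_MF hb 14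
  have h2 := LinearMap.finrank_range_add_finrank_ker (vinf X 14)
  rw [LinearMap.range_eq_top.mpr (vinf_surjective h1 hb hdet hlead), finrank_top] at h2
  rw [← h2]
  congr 1
  let e : LinearMap.ker (vinf X 14) ≃ₗ[ℂ] CF X 14 :=
    { toFun := fun F => ⟨F.1.1, (ker_vinf 14 F.1).mp F.2⟩
      invFun := fun G => ⟨⟨G.1, CF_le_MF 14 G.2⟩, (ker_vinf 14 ⟨G.1, CF_le_MF 14 G.2⟩).mpr G.2⟩
      map_add' := fun _ _ => rfl
      map_smul' := fun _ _ => rfl
      left_inv := fun _ => rfl
      right_inv := fun _ => rfl }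
  exact e.finrank_eq

omit [DecidableEq X] in
/-- weight zero forms on a transitive set are constants -/
theorem finrank_MF_zero [MulAction.IsPretransitive SL(2, ℤ) X] [Nonempty X] :
    Module.finrank ℂ (MF X 0) = 1 := by
  have hone : (1 : X → ℍ → ℂ) ∈ MF X 0 :=
    ⟨fun _ => mdifferentiable_const, fun _ γ => ModularForm.is_invariant_one γ,
      fun _ => (boundedAtImInftySubalgebra ℂ).one_mem⟩
  refine finrank_eq_one (⟨1, hone⟩ : MF X 0) ?_ ?_
  · intro h
    have h2 := congrFun (congrFun (congrArg Subtype.val h) (Classical.arbitrary X))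
      UpperHalfPlane.I
    exact one_ne_zero h2
  · rintro ⟨F, hF⟩
    let x0 : X := Classical.arbitrary X
    obtain ⟨c, hc⟩ := MF_zero F hF x0
    refine ⟨c, ?_⟩
    apply Subtype.ext
    funext x
    obtain ⟨g, hg⟩ := MulAction.exists_smul_eq SL(2, ℤ) x0 x
    have h2 := hF.2.1 x0 g⁻¹
    rw [inv_inv, hg, hc] at h2
    have h3 : (F x) = Function.const ℍ c := by
      rw [← h2]
      exact ModularForm.is_invariant_const g⁻¹ c
    change c • (1 : X → ℍ → ℂ) x = F x
    rw [h3]
    funext z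
    simp

/-- dimensions of level one spaces -/
def dimLF (w : ℤ) : ℕ := Module.finrank ℂ (LF w)

theorem dimLF_0 : dimLF 0 = 1 := finrank_LF_0
theorem dimLF_2 : dimLF 2 = 0 := finrank_LF_2
theorem dimLF_4 : dimLF 4 = 1 := finrank_LF_4
theorem dimLF_6 : dimLF 6 = 1 := finrank_LF_6
theorem dimLF_8 : dimLF 8 = 1 := finrank_LF_8
theorem dimLF_10 : dimLF 10 = 1 := finrank_LF_10
theorem dimLF_12 : dimLF 12 = 2 := finrank_LF_12
theorem dimLF_14 : dimLF 14 = 1 := finrank_LF_14
theorem dimLF_m2 : dimLF (-2) = 0 := finrank_LF_neg _ (by norm_num)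
theorem dimLF_m4 : dimLF (-4) = 0 := finrank_LF_neg _ (by norm_num)
theorem dimLF_m6 : dimLF (-6) = 0 := finrank_LF_neg _ (by norm_num)
theorem dimLF_m8 : dimLF (-8) = 0 := finrank_LF_neg _ (by norm_num)
theorem dimLF_m10 : dimLF (-10) = 0 := finrank_LF_neg _ (by norm_num)

/-- The dimension formula for weight two cusp forms. -/
theorem finrank_CF_two [MulAction.IsPretransitive SL(2, ℤ) X] [Nonempty X]
    (h1 : ∀ x : X, (-1 : SL(2, ℤ)) • x = x) (hrank : FullRank X) :
    (Module.finrank ℂ (CF X 2) : ℚ) = 1 + (Fintype.card X : ℚ) / 12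
      - (Nat.card {x : X // ModularGroup.S • x = x} : ℚ) / 4
      - (Nat.card {x : X // (ModularGroup.S * ModularGroup.T) • x = x} : ℚ) / 3
      - (Nat.card (MulAction.orbitRel.Quotient
          (Subgroup.zpowers (ModularGroup.T : SL(2, ℤ))) X) : ℚ) / 2 := by
  obtain ⟨wt, f, hb, hdet, hlead⟩ := exists_basis h1 hrank
  have hwt : ∀ j, wt j = 0 ∨ wt j = 2 ∨ wt j = 4 ∨ wt j = 6 ∨ wt j = 8 ∨ wt j = 10 := by
    intro j
    have a1 := hb.wt_nonneg j
    have a2 := wt_lt_twelve hb hdet hlead j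
    obtain ⟨n, hn⟩ := wt_even h1 (hb.mem j) (hb.ne_zero j)
    omega
  have hsum : ∀ (φ : ℤ → ℕ), ∑ j, φ (wt j) = cnt wt 0 * φ 0 + cnt wt 2 * φ 2 + cnt wt 4 * φ 4 +
      cnt wt 6 * φ 6 + cnt wt 8 * φ 8 + cnt wt 10 * φ 10 := by
    intro φ
    have := sum_by_weight wt hwt (fun w => (φ w : ℂ))
    exact_mod_cast this
  have h0 : cnt wt 0 = 1 := by
    have h : Module.finrank ℂ (MF X 0) = ∑ j, dimLF (0 - wt j) := finrank_MF hb 0
    rw [finrank_MF_zero, hsum (fun w => dimLF (0 - w))] at h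
    norm_num [dimLF_0, dimLF_m2, dimLF_m4, dimLF_m6, dimLF_m8, dimLF_m10] at h
    omega
  have h10 : Module.finrank ℂ (CF X 2) = cnt wt 10 := by
    have h : Module.finrank ℂ (CF X 2) = ∑ j, dimLF (2 - 12 + wt j) :=
      finrank_CF hb hdet hlead 2
    rw [hsum (fun w => dimLF (2 - 12 + w))] at h
    norm_num [dimLF_0, dimLF_m2, dimLF_m4, dimLF_m6, dimLF_m8, dimLF_m10] at h
    omega
  have hcusp : (cnt wt 0 : ℤ) + cnt wt 2 - cnt wt 10 = (Nat.card (MulAction.orbitRel.Quotient
          (Subgroup.zpowers (ModularGroup.T : SL(2, ℤ))) X) : ℤ) := by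
    have h := finrank_14 h1 hb hdet hlead
    have h2 : Module.finrank ℂ (MF X 14) = ∑ j, dimLF (14 - wt j) := finrank_MF hb 14
    have h3 : Module.finrank ℂ (CF X 14) = ∑ j, dimLF (14 - 12 + wt j) :=
      finrank_CF hb hdet hlead 14
    rw [h2, h3, finrank_TInv, hsum (fun w => dimLF (14 - w)),
      hsum (fun w => dimLF (14 - 12 + w))] at h
    norm_num [dimLF_2, dimLF_4, dimLF_6, dimLF_8, dimLF_10, dimLF_12, dimLF_14] at h
    omega
  have hu : (Complex.exp (Real.pi * Complex.I / 3)) ^ 2 -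
      Complex.exp (Real.pi * Complex.I / 3) + 1 = 0 := by
    rw [← rho_add_one]
    have := rho_sq
    linear_combination this
  have := numerics wt hwt _ _ _ h0 hcusp (sum_I_zpow wt f hb.mem hdet) _ hu
    (sum_exp_zpow wt f hb.mem hdet)
  rw [h10, this]
  push_cast
  ring

end main

end Fermat.Agent.Genus
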