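import Mathlib

set_option autoImplicit false

/-!
# The form `E₄(Nz)` on `Γ₀(N)` and distinctness of its translates
-/

namespace Fermat.Agent.GenusDeltaN

open UpperHalfPlane ModularForm CongruenceSubgroup Filter Topology
open scoped MatrixGroups Pointwise

noncomputable section

/-- upper triangular matrix in `GL₂(ℝ)`. -/
def upTri (a b d : ℝ) (h : a * d ≠ 0) : GL (Fin 2) ℝ :=
  Matrix.GeneralLinearGroup.mkOfDetNeZero !![a, b; 0, d] (by simpa [Matrix.det_fin_two] using h)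

lemma tendsto_valueAtInfty {k : ℤ} (f : ModularForm 𝒮ℒ k) :
    Tendsto f atImInfty (𝓝 ((qExpansion 1 f).coeff 0)) := by
  have hbdd : IsBoundedAtImInfty f := ModularFormClass.bdd_at_infty f
  have hper := SlashInvariantFormClass.periodic_comp_ofComplex f one_mem_strictPeriods_SL
  have h1 := exp_decay_sub_atImInfty one_pos hper (ModularFormClass.holo f) hbdd
  have h2 : (qExpansion 1 f).coeff 0 = valueAtInfty f :=
    qExpansion_coeff_zero one_pos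
      (analyticAt_cuspFunction_zero one_pos hper (ModularFormClass.holo f) hbdd) hper
  rw [h2]
  have h3 : Tendsto (fun τ : ℍ ↦ Real.exp (-2 * Real.pi * τ.im / 1)) atImInfty (𝓝 0) := by
    refine Real.tendsto_exp_atBot.comp ?_
    have : Tendsto (fun τ : ℍ ↦ τ.im) atImInfty atTop := tendsto_comap
    have h4 := this.const_mul_atTop_of_neg (r := -2 * Real.pi) (by nlinarith [Real.pi_pos])
    simpa using h4
  have h5 := h1.trans_tendsto h3
  have h6 := h5.add_const (valueAtInfty f)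
  simpa using h6

lemma tendsto_E4 : Tendsto E₄ atImInfty (𝓝 1) := by
  have := tendsto_valueAtInfty E₄
  rwa [EisensteinSeries.E_qExpansion_coeff_zero (by norm_num) ⟨2, rfl⟩] at this

lemma det_upTri (a b d : ℝ) (h : a * d ≠ 0) :
    ((upTri a b d h).det : ℝ) = a * d := by
  simp [upTri, Matrix.GeneralLinearGroup.mkOfDetNeZero, Matrix.det_fin_two]

lemma upTri_slash (f : ℍ → ℂ) (k : ℤ) (a b d : ℝ) (h : a * d ≠ 0) (hpos : 0 < a * d) (z : ℍ) :
    (f ∣[k] upTri a b d h) z = f (upTri a b d h • z) * ((a * d : ℝ) : ℂ) ^ (k - 1) * (d : ℂ) ^ (-k) := by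
  rw [slash_apply]
  have h1 : σ (upTri a b d h) = ContinuousAlgEquiv.refl ℝ ℂ := by
    rw [σ, if_pos (by rw [det_upTri]; exact hpos)]
  rw [h1, det_upTri]
  have h2 : denom (upTri a b d h) z = d := by
    simp [denom, upTri, Matrix.GeneralLinearGroup.mkOfDetNeZero]
  rw [h2, abs_of_pos hpos]
  simp

lemma tendsto_upTri_smul (a b d : ℝ) (h : a * d ≠ 0) (hpos : 0 < a * d) :
    Tendsto (fun z : ℍ ↦ upTri a b d h • z) atImInfty atImInfty := by
  rw [atImInfty, tendsto_comap_iff]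
  have h0 : 0 < a / d := by
    have hd : d ≠ 0 := right_ne_zero_of_mul h
    have : a / d = a * d / d ^ 2 := by field_simp
    rw [this]; positivity
  have h1 : (UpperHalfPlane.im ∘ fun z : ℍ ↦ upTri a b d h • z) = fun z : ℍ ↦ (a / d) * z.im := by
    ext z
    have hd : d ≠ 0 := right_ne_zero_of_mul h
    have h2 : ((upTri a b d h • z : ℍ) : ℂ) = (a * z + b) / d := by
      rw [coe_smul_of_det_pos (by rw [det_upTri]; exact hpos)]
      simp [num, denom, upTri, Matrix.GeneralLinearGroup.mkOfDetNeZero]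
    have h3 : (((upTri a b d h • z : ℍ) : ℂ)).im = a / d * z.im := by
      rw [h2]
      have : ((a : ℂ) * z + b) / d = ((a * z + b) : ℂ) * ((d⁻¹ : ℝ) : ℂ) := by
        push_cast; rw [div_eq_mul_inv]
      rw [this, Complex.mul_im]
      simp
      field_simp
    simpa using h3
  rw [h1]
  exact tendsto_comap.const_mul_atTop h0

lemma tendsto_E4_upTri (a b d : ℝ) (h : a * d ≠ 0) (hpos : 0 < a * d) :
    Tendsto (E₄ ∣[(4 : ℤ)] upTri a b d h) atImInfty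
      (𝓝 (((a * d : ℝ) : ℂ) ^ (3 : ℤ) * (d : ℂ) ^ (-4 : ℤ))) := by
  have h1 := tendsto_E4.comp (tendsto_upTri_smul a b d h hpos)
  have h2 := (h1.mul_const (((a * d : ℝ) : ℂ) ^ (3 : ℤ))).mul_const ((d : ℂ) ^ (-4 : ℤ))
  rw [one_mul] at h2
  refine h2.congr fun z ↦ ?_
  rw [upTri_slash _ _ _ _ _ _ hpos]
  rfl

variable (N : ℕ) [NeZero N]

lemma N_ne : ((N : ℝ) * 1) ≠ 0 := by simpa using NeZero.ne N

/-- `diag(N,1)`. -/
def dN : GL (Fin 2) ℝ := upTri N 0 1 (N_ne N)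

/-- For `γ ∈ SL₂(ℤ)`, `diag(N,1) γ ∈ SL₂(ℤ) · (g *; 0 N/g)` with `g = gcd(N, c)`. -/
lemma exists_decomp (γ : SL(2, ℤ)) : ∃ (s : SL(2, ℤ)) (b : ℤ) (g e : ℕ) (h : (g : ℝ) * (e : ℝ) ≠ 0),
    g * e = N ∧ g = Int.gcd N (γ 1 0) ∧
    dN N * Matrix.SpecialLinearGroup.mapGL ℝ γ =
      Matrix.SpecialLinearGroup.mapGL ℝ s * upTri g b e h := by
  set g : ℕ := Int.gcd N (γ 1 0) with hg
  have hN : (N : ℤ) ≠ 0 := by exact_mod_cast NeZero.ne N
  have hgpos : 0 < g := Int.gcd_pos_of_ne_zero_left _ hN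
  obtain ⟨e, he⟩ : g ∣ N := by exact_mod_cast Int.gcd_dvd_left (a := (N : ℤ)) (b := γ 1 0)
  obtain ⟨c', hc'⟩ : (g : ℤ) ∣ γ 1 0 := Int.gcd_dvd_right (a := (N : ℤ)) (b := γ 1 0)
  have hepos : 0 < e := by
    rcases Nat.eq_zero_or_pos e with h | h
    · subst h; simp at he; exact absurd he (NeZero.ne N)
    · exact h
  have hdet : γ 0 0 * γ 1 1 - γ 0 1 * γ 1 0 = 1 := by
    have := γ.det_coe
    rwa [Matrix.det_fin_two] at this
  -- gcd (a * e, c') = 1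
  have hcop1 : IsCoprime (e : ℤ) c' := by
    have h1 : IsCoprime ((N : ℤ) / g) (γ 1 0 / g) := by
      have := Int.isCoprime_iff_gcd_eq_one.mpr
        (Int.gcd_div_gcd_div_gcd (i := (N : ℤ)) (j := γ 1 0) hgpos)
      exact this
    have h2 : (N : ℤ) / g = e := by
      rw [he]; push_cast; exact Int.mul_ediv_cancel_left _ (by exact_mod_cast hgpos.ne')
    have h3 : γ 1 0 / (g : ℤ) = c' := by
      conv_lhs => rw [hc']
      exact Int.mul_ediv_cancel_left _ (by exact_mod_cast hgpos.ne')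
    rwa [h2, h3] at h1
  have hcop2 : IsCoprime (γ 0 0) c' := by
    refine ⟨γ 1 1, - γ 0 1 * g, ?_⟩
    have : γ 1 1 * γ 0 0 + -γ 0 1 * ↑g * c' = γ 0 0 * γ 1 1 - γ 0 1 * (g * c') := by ring
    rw [this, ← hc', hdet]
  have hcop : IsCoprime (γ 0 0 * e) c' := hcop2.mul_left hcop1
  obtain ⟨x, y, hxy⟩ := hcop
  -- s⁻¹ = (x y; -c' a e) ; s = (a e, -y; c', x)
  let s : SL(2, ℤ) := ⟨!![γ 0 0 * e, -y; c', x], by rw [Matrix.det_fin_two_of]; linarith⟩
  have hne : (g : ℝ) * (e : ℝ) ≠ 0 := by positivity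
  refine ⟨s, x * N * γ 0 1 + y * γ 1 1, g, e, hne, he.symm, rfl, ?_⟩
  have hcR : ((γ 1 0 : ℤ) : ℝ) = g * c' := by exact_mod_cast hc'
  have hNR : (N : ℝ) = g * e := by exact_mod_cast he
  have hdetR : ((γ 0 0 : ℤ) : ℝ) * γ 1 1 - γ 0 1 * γ 1 0 = 1 := by exact_mod_cast hdet
  have hxyR : (x : ℝ) * (γ 0 0 * e) + y * c' = 1 := by exact_mod_cast hxy
  have hs : ∀ i j, (Matrix.SpecialLinearGroup.mapGL ℝ s : GL (Fin 2) ℝ) i j = ((s i j : ℤ) : ℝ) := by
    intro i j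
    simp [Matrix.SpecialLinearGroup.mapGL_coe_matrix]
  have hγ : ∀ i j, (Matrix.SpecialLinearGroup.mapGL ℝ γ : GL (Fin 2) ℝ) i j = ((γ i j : ℤ) : ℝ) := by
    intro i j
    simp [Matrix.SpecialLinearGroup.mapGL_coe_matrix]
  have hs00 : s 0 0 = γ 0 0 * e := rfl
  have hs01 : s 0 1 = -y := rfl
  have hs10 : s 1 0 = c' := rfl
  have hs11 : s 1 1 = x := rfl
  have hd : ∀ i j, (dN N) i j = (!![(N : ℝ), 0; 0, 1] : Matrix (Fin 2) (Fin 2) ℝ) i j := by
    intro i j; rfl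
  have hu : ∀ (b : ℝ) i j, (upTri g b e hne) i j =
      (!![(g : ℝ), b; 0, e] : Matrix (Fin 2) (Fin 2) ℝ) i j := by
    intro b i j; rfl
  ext i j
  rw [Units.val_mul, Units.val_mul, Matrix.mul_apply, Matrix.mul_apply]
  simp only [Fin.sum_univ_two, hs, hγ, hd, hu]
  fin_cases i <;> fin_cases j
  · simp [hs00, hs01, hNR]; ring
  · simp [hs00, hs01, hNR]
    rw [hcR] at hdetR
    linear_combination (-(g:ℝ) * e * γ 0 1 ) * hxyR - y * e * hdetR
  · simp [hs10, hs11, hcR]; ring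
  · simp [hs10, hs11, hNR]
    rw [hcR] at hdetR
    linear_combination (-(γ 1 1:ℝ)) * hxyR + x * e * hdetR

/-- The function `N³ E₄(Nz)`. -/
def h0 : ℍ → ℂ := (⇑E₄) ∣[(4 : ℤ)] dN N

lemma h0_slash_tendsto (γ : SL(2, ℤ)) :
    Tendsto (h0 N ∣[(4 : ℤ)] γ) atImInfty
      (𝓝 ((N : ℂ) ^ 3 * ((Int.gcd N (γ 1 0) : ℂ) / N) ^ 4)) := by
  obtain ⟨s, b, g, e, hne, hge, hg, hdec⟩ := exists_decomp N γ
  have h1 : h0 N ∣[(4 : ℤ)] γ = (⇑E₄) ∣[(4 : ℤ)] upTri g b e hne := by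
    have h2 : h0 N ∣[(4 : ℤ)] γ = (⇑E₄) ∣[(4 : ℤ)] (dN N * Matrix.SpecialLinearGroup.mapGL ℝ γ) := by
      rw [SlashAction.slash_mul]; rfl
    rw [h2, hdec, SlashAction.slash_mul]
    congr 1
    exact E₄.slash_action_eq' _ ⟨s, rfl⟩
  rw [h1]
  have hpos : 0 < (g : ℝ) * (e : ℝ) := lt_of_le_of_ne (by positivity) (Ne.symm hne)
  convert tendsto_E4_upTri g b e hne hpos using 2
  have hN : (N : ℂ) = g * e := by rw [← hge]; push_cast; ring
  have hN0 : (N : ℂ) ≠ 0 := by exact_mod_cast NeZero.ne N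
  have hg0 : (g : ℂ) ≠ 0 := by rintro h; rw [h] at hN; simp at hN; exact NeZero.ne N hN
  have he0 : (e : ℂ) ≠ 0 := by rintro h; rw [h] at hN; simp at hN; exact NeZero.ne N hN
  rw [← hg, hN]
  push_cast
  have : (e : ℂ) ^ (-4 : ℤ) = ((e : ℂ) ^ 4)⁻¹ := by
    rw [zpow_neg]; norm_cast
  rw [this]
  have h3 : ((g : ℂ) * e) ^ (3 : ℤ) = (g * e) ^ 3 := by norm_cast
  rw [h3]
  field_simp

theorem mem_Gamma0_of_h0_slash_eq (γ : SL(2, ℤ)) (h : h0 N ∣[(4 : ℤ)] γ = h0 N) :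
    γ ∈ Gamma0 N := by
  have h1 := h0_slash_tendsto N γ
  have h2 := h0_slash_tendsto N 1
  rw [SlashAction.slash_one] at h2
  rw [h] at h1
  have h3 := tendsto_nhds_unique h1 h2
  have hN0 : (N : ℂ) ≠ 0 := by exact_mod_cast NeZero.ne N
  have h4 : (((Int.gcd N (γ 1 0) : ℂ) / N) ^ 4) = 1 := by
    have h5 := mul_left_cancel₀ (pow_ne_zero 3 hN0) h3
    rw [h5]
    simp
  have h6 : (Int.gcd N (γ 1 0) : ℝ) / N = 1 := by
    have h7 : ((((Int.gcd N (γ 1 0) : ℝ) / N) ^ 4 : ℝ) : ℂ) = 1 := by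
      push_cast; exact h4
    have h8 : (((Int.gcd N (γ 1 0) : ℝ) / N) ^ 4 : ℝ) = 1 := by exact_mod_cast h7
    exact (pow_eq_one_iff_of_nonneg (by positivity) (by norm_num)).mp h8
  have h9 : (Int.gcd N (γ 1 0) : ℝ) = N := by
    have hN1 : (N : ℝ) ≠ 0 := by exact_mod_cast NeZero.ne N
    rwa [div_eq_one_iff_eq hN1] at h6
  have h10 : Int.gcd N (γ 1 0) = N := by exact_mod_cast h9
  rw [Gamma0_mem, ZMod.intCast_zmod_eq_zero_iff_dvd]
  have h11 : ((Int.gcd N (γ 1 0) : ℕ) : ℤ) ∣ γ 1 0 := Int.gcd_dvd_right _ _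
  rwa [h10] at h11

lemma Gamma0_le : ((Gamma0 N).map (Matrix.SpecialLinearGroup.mapGL ℝ)) ≤
    ConjAct.toConjAct (dN N)⁻¹ • 𝒮ℒ := by
  rintro _ ⟨γ, hγ, rfl⟩
  rw [Subgroup.mem_pointwise_smul_iff_inv_smul_mem, ConjAct.smul_def]
  simp only [map_inv, inv_inv, ConjAct.ofConjAct_toConjAct]
  obtain ⟨s, b, g, e, hne, hge, hg, hdec⟩ := exists_decomp N γ
  rw [hdec]
  have h1 : g = N := by
    rw [hg]
    have h2 : (N : ℤ) ∣ γ 1 0 := by
      have := Gamma0_mem.mp hγ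
      rwa [ZMod.intCast_zmod_eq_zero_iff_dvd] at this
    simpa using Int.gcd_eq_left_iff_dvd (by positivity) |>.mpr h2
  have h2 : e = 1 := by
    subst h1
    have h3 : 0 < g := Nat.pos_of_ne_zero (NeZero.ne g)
    nlinarith
  subst h1 h2
  -- upTri N b 1 = (1 b; 0 1) * dN
  let t : SL(2, ℤ) := ⟨!![1, b; 0, 1], by simp [Matrix.det_fin_two]⟩
  have h3 : upTri g b (1 : ℕ) hne = Matrix.SpecialLinearGroup.mapGL ℝ t * dN g := by
    have ht : ∀ i j, (Matrix.SpecialLinearGroup.mapGL ℝ t : GL (Fin 2) ℝ) i j =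
        ((t i j : ℤ) : ℝ) := by
      intro i j
      simp [Matrix.SpecialLinearGroup.mapGL_coe_matrix]
    have ht00 : t 0 0 = 1 := rfl
    have ht01 : t 0 1 = b := rfl
    have ht10 : t 1 0 = 0 := rfl
    have ht11 : t 1 1 = 1 := rfl
    ext i j
    rw [Units.val_mul, Matrix.mul_apply]
    simp only [Fin.sum_univ_two, ht]
    fin_cases i <;> fin_cases j <;>
    simp [dN, upTri, Matrix.GeneralLinearGroup.mkOfDetNeZero, ht00, ht01, ht10, ht11]
  rw [h3]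
  refine ⟨s * t, ?_⟩
  rw [map_mul, ← mul_assoc, mul_inv_cancel_right]

/-- The modular form `N³ E₄(Nz)` of weight 4 on `Γ₀(N)`. -/
def h : ModularForm (Gamma0 N) 4 where
  toFun := h0 N
  slash_action_eq' γ hγ := (translate E₄ (dN N)).slash_action_eq' γ (Gamma0_le N hγ)
  holo' := (translate E₄ (dN N)).holo'
  bdd_at_cusps' hc := (translate E₄ (dN N)).bdd_at_cusps' (hc.mono (Gamma0_le N))

@[simp] lemma coe_h : ⇑(h N) = h0 N := rfl

/-- There is a modular form on `Γ₀(N)` (of weight 4) whose stabiliser in `SL₂(ℤ)` is `Γ₀(N)`. -/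
theorem exists_form_stabilizer :
    ∃ f : ModularForm (Gamma0 N) 4, ∀ γ : SL(2, ℤ), ⇑f ∣[(4 : ℤ)] γ = ⇑f → γ ∈ Gamma0 N :=
  ⟨h N, fun γ hγ ↦ mem_Gamma0_of_h0_slash_eq N γ hγ⟩

end

end Fermat.Agent.GenusDeltaN
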