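import Mathlib
import Fermat.Agent.Genus.Serre
import Fermat.Agent.Genus.DeltaN

/-!
# The module of vector valued forms has full rank
-/

set_option autoImplicit false

open UpperHalfPlane ModularForm MatrixGroups Complex Filter CongruenceSubgroup
open scoped Manifold Topology

noncomputable section

namespace Fermat.Agent.Genus

section pow

variable {X : Type} [MulAction SL(2, ℤ) X]

theorem one_mem_MF : (1 : X → ℍ → ℂ) ∈ MF X 0 :=
  ⟨fun _ => mdifferentiable_const, fun _ γ => ModularForm.is_invariant_one γ,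
    fun _ => (boundedAtImInftySubalgebra ℂ).one_mem⟩

theorem MF_mul (j k : ℤ) (F G : X → ℍ → ℂ) (hF : F ∈ MF X j) (hG : G ∈ MF X k) :
    F * G ∈ MF X (j + k) := by
  refine ⟨fun x => (hF.1 x).mul (hG.1 x), fun x g => ?_, fun x => (hF.2.2 x).mul (hG.2.2 x)⟩
  rw [Pi.mul_apply, ModularForm.mul_slash_SL2, hF.2.1, hG.2.1]
  rfl

theorem MF_pow (k : ℤ) (F : X → ℍ → ℂ) (hF : F ∈ MF X k) (n : ℕ) : F ^ n ∈ MF X (n * k) := by
  induction n with
  | zero => simpa using one_mem_MF
  | succ n ih =>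
    rw [pow_succ]
    have := MF_mul _ _ _ _ ih hF
    rwa [show (n : ℤ) * k + k = ((n + 1 : ℕ) : ℤ) * k by push_cast; ring] at this

end pow

theorem e4_ne_zero : e4 ≠ 0 := by
  intro h
  have h1 := e4_tendsto
  rw [h] at h1
  have h2 : Tendsto (0 : ℍ → ℂ) atImInfty (𝓝 0) := tendsto_const_nhds
  exact one_ne_zero (tendsto_nhds_unique h1 h2)

/-- Vandermonde: if a vector valued form of weight `4` has pairwise distinct components then the
module of vector valued forms has full rank. -/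
theorem exists_full_rank_of_injective {X : Type} [MulAction SL(2, ℤ) X] [Fintype X]
    [DecidableEq X] (H : X → ℍ → ℂ) (hH : H ∈ MF X 4) (hinj : Function.Injective H) :
    ∃ (z0 : ℍ) (k : ℤ) (g : X → (X → ℍ → ℂ)), (∀ j, g j ∈ MF X k) ∧ (fmat g z0).det ≠ 0 := by
  classical
  let n := Fintype.card X
  let e : X ≃ Fin n := Fintype.equivFin X
  -- the product of `e4` and all the differences
  let P : Option (X × X) → ℍ → ℂ := fun o => o.elim e4 fun p => H p.1 - H p.2
  let s : Finset (Option (X × X)) :=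
    Finset.univ.filter fun o => o.elim True fun p => p.1 ≠ p.2
  have hP : ∀ o ∈ s, MDiff (P o) := by
    intro o _
    cases o with
    | none => exact e4_mem.1
    | some p => exact (hH.1 p.1).sub (hH.1 p.2)
  have hne : ∏ o ∈ s, P o ≠ 0 := by
    rw [Ne, UpperHalfPlane.prod_eq_zero_iff hP]
    rintro ⟨o, ho, h0⟩
    cases o with
    | none => exact e4_ne_zero h0
    | some p =>
      have hp : p.1 ≠ p.2 := by simpa [s] using ho
      exact hp (hinj (sub_eq_zero.mp h0))
  obtain ⟨z0, hz0⟩ := Function.ne_iff.mp hne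
  rw [Finset.prod_apply, Pi.zero_apply, Finset.prod_ne_zero_iff] at hz0
  have h4 : e4 z0 ≠ 0 := hz0 none (by simp [s])
  have hd : ∀ x y : X, x ≠ y → H x z0 ≠ H y z0 := by
    intro x y hxy h
    refine hz0 (some (x, y)) (by simpa [s] using hxy) ?_
    simp [P, h]
  let g : X → (X → ℍ → ℂ) := fun j => (e4 ^ ((e j).rev : ℕ)) • (H ^ ((e j : Fin n) : ℕ))
  refine ⟨z0, ((n : ℤ) - 1) * 4, g, fun j => ?_, ?_⟩
  · have h1 := MF_smul _ _ _ (LF_pow 4 e4 e4_mem ((e j).rev : ℕ)) _ (MF_pow 4 H hH (e j : ℕ))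
    have h2 : (((e j).rev : ℕ) : ℤ) + ((e j : ℕ) : ℤ) = (n : ℤ) - 1 := by
      have := (e j).isLt
      rw [Fin.val_rev]
      omega
    rwa [← add_mul, h2] at h1
  · let v : Fin n → ℂ := fun i => H (e.symm i) z0
    let w : Fin n → ℂ := fun _ => e4 z0
    have h1 : fmat g z0 = (Matrix.projVandermonde v w).submatrix e e := by
      ext x j
      simp only [fmat, Matrix.of_apply, Matrix.submatrix_apply, Matrix.projVandermonde_apply, g,
        Pi.smul_apply, smul_eq_mul, Pi.mul_apply, Pi.pow_apply, v, w, Equiv.symm_apply_apply]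
      ring
    rw [h1, Matrix.det_submatrix_equiv_self, Matrix.det_projVandermonde]
    refine Finset.prod_ne_zero_iff.mpr fun i _ => Finset.prod_ne_zero_iff.mpr fun j hj => ?_
    have hij : e.symm j ≠ e.symm i := fun h =>
      (Finset.mem_Ioi.mp hj).ne' (e.symm.injective h)
    rw [← sub_mul]
    exact mul_ne_zero (sub_ne_zero.mpr (hd _ _ hij)) h4

/-- The translates of a form whose stabilizer is `Γ` are pairwise distinct. -/
theorem toVec_injective (Γ : Subgroup SL(2, ℤ)) {k : ℤ} (f : ℍ → ℂ) (hf : ∀ g ∈ Γ, f ∣[k] g = f)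
    (hstab : ∀ g : SL(2, ℤ), f ∣[k] g = f → g ∈ Γ) : Function.Injective (toVec Γ f hf) := by
  intro x y hxy
  induction x using QuotientGroup.induction_on with
  | H a =>
    induction y using QuotientGroup.induction_on with
    | H b =>
      rw [toVec_mk, toVec_mk] at hxy
      refine QuotientGroup.eq.mpr (hstab _ ?_)
      rw [SlashAction.slash_mul, hxy, ← SlashAction.slash_mul, inv_mul_cancel,
        SlashAction.slash_one]

theorem exists_full_rank (N : ℕ) [NeZero N] [Fintype (SL(2, ℤ) ⧸ Gamma0 N)]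
    [DecidableEq (SL(2, ℤ) ⧸ Gamma0 N)] :
    ∃ (z0 : ℍ) (k : ℤ) (g : (SL(2, ℤ) ⧸ Gamma0 N) → ((SL(2, ℤ) ⧸ Gamma0 N) → ℍ → ℂ)),
      (∀ j, g j ∈ MF (SL(2, ℤ) ⧸ Gamma0 N) k) ∧ (fmat g z0).det ≠ 0 := by
  obtain ⟨f, hf⟩ := GenusDeltaN.exists_form_stabilizer N
  exact exists_full_rank_of_injective _ (toVec_mem_MF (Gamma0 N) f)
    (toVec_injective (Gamma0 N) f (slash_eq_of_form _ f) hf)

end Fermat.Agent.Genus
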